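import Fermat.Agent.ModularFF.CosetJ

/-!
# The two expansion rules

An `ExpRule` is an injective algebraic expansion rule defined on all translates of the `j(dτ)`.
Two are given: Laurent series in `q_N` at infinity (`cuspRule`) and Taylor series in a disc
coordinate at a point (`pointRule`), with their rotation symmetries (`rotFactor`).
-/

set_option autoImplicit false

noncomputable section

open UpperHalfPlane Complex Filter Function
open scoped Topology Manifold MatrixGroups ModularForm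

namespace FLTAgent.ModularFF

local notation "𝕢" => Function.Periodic.qParam

/-- An injective, functional, algebraic expansion rule whose domain contains all the translates
of `j(dτ)`, `d ∣ N`. -/
structure ExpRule (N : ℕ) where
  Rel : (ℍ → ℂ) → LaurentSeries ℂ → Prop
  const : ∀ c : ℂ, Rel (fun _ => c) (HahnSeries.C c)
  add : ∀ {f g S T}, Rel f S → Rel g T → Rel (f + g) (S + T)
  mul : ∀ {f g S T}, Rel f S → Rel g T → Rel (f * g) (S * T)
  eq_zero : ∀ {S}, Rel 0 S → S = 0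
  eq_zero_fun : ∀ {f}, Rel f 0 → f = 0
  exists_jAt : ∀ (d : ℕ) (_ : NeZero d), d ∣ N → ∀ γ : SL(2, ℤ),
    ∃ S, Rel (fun τ => jAt d (γ • τ)) S

namespace ExpRule

variable {N : ℕ} (R : ExpRule N)

theorem neg {f : ℍ → ℂ} {S : LaurentSeries ℂ} (h : R.Rel f S) : R.Rel (-f) (-S) := by
  have := R.mul (R.const (-1)) h
  rw [map_neg, map_one] at this
  convert! this using 1
  · funext τ
    simp
  · exact (neg_one_mul S).symm

theorem sub {f g : ℍ → ℂ} {S T : LaurentSeries ℂ} (hf : R.Rel f S) (hg : R.Rel g T) :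
    R.Rel (f - g) (S - T) := by
  simpa [sub_eq_add_neg] using R.add hf (R.neg hg)

theorem unique {f : ℍ → ℂ} {S T : LaurentSeries ℂ} (hf : R.Rel f S) (hg : R.Rel f T) : S = T := by
  have := R.sub hf hg
  rw [sub_self] at this
  exact sub_eq_zero.mp (R.eq_zero this)

theorem unique_fun {f g : ℍ → ℂ} {S : LaurentSeries ℂ} (hf : R.Rel f S) (hg : R.Rel g S) :
    f = g := by
  have := R.sub hf hg
  rw [sub_self] at this
  exact sub_eq_zero.mp (R.eq_zero_fun this)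

end ExpRule

/-- The expansion at `∞` in `q_N`. -/
def cuspRule (N : ℕ) [NeZero N] : ExpRule N where
  Rel := HasLaurent (N : ℝ)
  const := hasLaurent_const
  add := HasLaurent.add
  mul := HasLaurent.mul
  eq_zero := HasLaurent.eq_zero (Nat.cast_pos.mpr (NeZero.pos N))
  eq_zero_fun := HasLaurent.eq_zero_fun
  exists_jAt := fun _d _ hd γ => exists_hasLaurent_jAt_smul hd γ

/-- The parametrisation of `ℍ` by the unit disc centred at `τ₀`. -/
def cayley (τ₀ : ℍ) (z : ℂ) : ℍ :=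
  ofComplex (((τ₀ : ℂ) - (starRingEnd ℂ) τ₀ * z) / (1 - z))

theorem im_cayley_pos (τ₀ : ℍ) {z : ℂ} (hz : ‖z‖ < 1) :
    0 < (((τ₀ : ℂ) - (starRingEnd ℂ) τ₀ * z) / (1 - z)).im := by
  have h1 : z.re ^ 2 + z.im ^ 2 < 1 := by
    have h := pow_lt_one₀ (norm_nonneg z) hz (two_ne_zero)
    rw [← Complex.normSq_eq_norm_sq, Complex.normSq_apply] at h
    nlinarith
  have hne : (1 - z : ℂ) ≠ 0 := sub_ne_zero.mpr fun h => by simp [← h] at hz
  have hpos := Complex.normSq_pos.mpr hne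
  rw [Complex.div_im, ← sub_div]
  refine div_pos ?_ hpos
  simp only [Complex.sub_im, Complex.sub_re, Complex.mul_im, Complex.mul_re, Complex.conj_re,
    Complex.conj_im, Complex.one_re, Complex.one_im]
  have hy : 0 < (τ₀ : ℂ).im := τ₀.im_pos
  nlinarith [mul_pos hy (sub_pos.mpr h1)]

theorem coe_cayley (τ₀ : ℍ) {z : ℂ} (hz : ‖z‖ < 1) :
    (cayley τ₀ z : ℂ) = ((τ₀ : ℂ) - (starRingEnd ℂ) τ₀ * z) / (1 - z) := by
  rw [cayley, ofComplex_apply_of_im_pos (im_cayley_pos τ₀ hz)]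

/-- The disc coordinate of `τ`. -/
def discCoord (τ₀ τ : ℍ) : ℂ := ((τ : ℂ) - τ₀) / ((τ : ℂ) - (starRingEnd ℂ) τ₀)

theorem sub_conj_ne_zero (τ₀ τ : ℍ) : (τ : ℂ) - (starRingEnd ℂ) τ₀ ≠ 0 := fun h => by
  have := congrArg Complex.im h
  simp at this
  linarith [τ.im_pos, τ₀.im_pos]

theorem norm_discCoord_lt_one (τ₀ τ : ℍ) : ‖discCoord τ₀ τ‖ < 1 := by
  rw [discCoord, norm_div, div_lt_one (norm_pos_iff.mpr (sub_conj_ne_zero τ₀ τ)),
    Complex.norm_def, Complex.norm_def]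
  refine Real.sqrt_lt_sqrt (Complex.normSq_nonneg _) ?_
  simp only [Complex.normSq_apply, Complex.sub_re, Complex.sub_im, Complex.conj_re, Complex.conj_im,
    coe_im, coe_re]
  nlinarith [mul_pos τ.im_pos τ₀.im_pos]

theorem cayley_discCoord (τ₀ τ : ℍ) : cayley τ₀ (discCoord τ₀ τ) = τ := by
  apply UpperHalfPlane.ext
  rw [coe_cayley τ₀ (norm_discCoord_lt_one τ₀ τ), discCoord]
  have h1 := sub_conj_ne_zero τ₀ τ
  have h2 : (τ₀ : ℂ) - (starRingEnd ℂ) τ₀ ≠ 0 := sub_conj_ne_zero τ₀ τ₀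
  rw [div_eq_iff]
  · field_simp
    ring
  · rw [sub_ne_zero]
    intro h
    rw [eq_comm, div_eq_one_iff_eq h1, sub_right_inj] at h
    exact h2 (sub_eq_zero.mpr h)

theorem differentiableOn_comp_cayley (τ₀ : ℍ) {f : ℍ → ℂ} (hf : MDiff f) :
    DifferentiableOn ℂ (fun z => f (cayley τ₀ z)) (Metric.ball (0 : ℂ) 1) := by
  rw [UpperHalfPlane.mdifferentiable_iff] at hf
  refine (hf.comp (g := f ∘ ofComplex)
    (f := fun z : ℂ => ((τ₀ : ℂ) - (starRingEnd ℂ) τ₀ * z) / (1 - z)) ?_ fun z hz => ?_).congr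
    fun z _ => rfl
  · refine DifferentiableOn.div (by fun_prop) (by fun_prop) fun z hz => ?_
    exact sub_ne_zero.mpr fun h => by simp [← h] at hz
  · exact im_cayley_pos τ₀ (by simpa using hz)

/-- `S` is the Taylor series of `f` in the disc coordinate at `τ₀`. -/
def HasDisc (τ₀ : ℍ) (f : ℍ → ℂ) (S : LaurentSeries ℂ) : Prop :=
  ∃ P : PowerSeries ℂ, HahnSeries.ofPowerSeries ℤ ℂ P = S ∧
    ∀ z : ℂ, ‖z‖ < 1 → HasSum (fun m : ℕ => PowerSeries.coeff m P * z ^ m) (f (cayley τ₀ z))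

theorem hasSum_mul_series {P Q : PowerSeries ℂ} {z a b : ℂ}
    (hf : HasSum (fun m : ℕ => PowerSeries.coeff m P * z ^ m) a)
    (hg : HasSum (fun m : ℕ => PowerSeries.coeff m Q * z ^ m) b) :
    HasSum (fun m : ℕ => PowerSeries.coeff m (P * Q) * z ^ m) (a * b) := by
  have hF := hf.summable.norm
  have hG := hg.summable.norm
  have key : ∀ n : ℕ, (∑ kl ∈ Finset.HasAntidiagonal.antidiagonal n,
      (PowerSeries.coeff kl.1 P * z ^ kl.1) * (PowerSeries.coeff kl.2 Q * z ^ kl.2))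
      = PowerSeries.coeff n (P * Q) * z ^ n := by
    intro n
    rw [PowerSeries.coeff_mul, Finset.sum_mul]
    refine Finset.sum_congr rfl fun kl hkl => ?_
    rw [← Finset.HasAntidiagonal.mem_antidiagonal.mp hkl, pow_add]
    ring
  have hs := (summable_norm_sum_mul_antidiagonal_of_summable_norm hF hG).of_norm
  have ht := tsum_mul_tsum_eq_tsum_sum_antidiagonal_of_summable_norm hF hG
  rw [hf.tsum_eq, hg.tsum_eq] at ht
  have := hs.hasSum
  rw [← ht] at this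
  rw [show (fun m : ℕ => PowerSeries.coeff m (P * Q) * z ^ m) = _ from
    funext fun n => (key n).symm]
  exact this

theorem exists_hasDisc (τ₀ : ℍ) {f : ℍ → ℂ} (hf : MDiff f) : ∃ S, HasDisc τ₀ f S := by
  set P : PowerSeries ℂ := PowerSeries.mk fun m => (m.factorial : ℂ)⁻¹ *
    iteratedDeriv m (fun z => f (cayley τ₀ z)) 0 with hP
  refine ⟨_, P, rfl, fun z hz => ?_⟩
  have := Complex.hasSum_taylorSeries_on_ball (differentiableOn_comp_cayley τ₀ hf) (z := z)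
    (by simpa using hz)
  simpa [hP, mul_comm, mul_left_comm] using this

theorem hasDisc_const (τ₀ : ℍ) (c : ℂ) : HasDisc τ₀ (fun _ => c) (HahnSeries.C c) := by
  refine ⟨PowerSeries.C c, HahnSeries.ofPowerSeries_C c, fun z _ => ?_⟩
  have heq : (fun m : ℕ => PowerSeries.coeff m (PowerSeries.C c) * z ^ m)
      = fun m => if m = 0 then c else 0 := by
    funext m
    rw [PowerSeries.coeff_C]
    split_ifs with hm <;> simp [*]
  rw [heq]
  exact hasSum_ite_eq 0 c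

theorem HasDisc.add {τ₀ : ℍ} {f g : ℍ → ℂ} {S T : LaurentSeries ℂ} (hf : HasDisc τ₀ f S)
    (hg : HasDisc τ₀ g T) : HasDisc τ₀ (f + g) (S + T) := by
  obtain ⟨P, rfl, hP⟩ := hf
  obtain ⟨Q, rfl, hQ⟩ := hg
  exact ⟨P + Q, map_add _ _ _, fun z hz => by simpa [add_mul] using (hP z hz).add (hQ z hz)⟩

theorem HasDisc.mul {τ₀ : ℍ} {f g : ℍ → ℂ} {S T : LaurentSeries ℂ} (hf : HasDisc τ₀ f S)
    (hg : HasDisc τ₀ g T) : HasDisc τ₀ (f * g) (S * T) := by
  obtain ⟨P, rfl, hP⟩ := hf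
  obtain ⟨Q, rfl, hQ⟩ := hg
  exact ⟨P * Q, map_mul _ _ _, fun z hz => hasSum_mul_series (hP z hz) (hQ z hz)⟩

theorem HasDisc.eq_zero {τ₀ : ℍ} {S : LaurentSeries ℂ} (h : HasDisc τ₀ 0 S) : S = 0 := by
  obtain ⟨P, rfl, hP⟩ := h
  have h0 : P = 0 := PowerSum.eq_zero (h := 1) one_pos
    (fun τ => by simpa using hP _ (Function.Periodic.norm_qParam_lt_one one_pos τ.im_pos))
  rw [h0, map_zero]

theorem HasDisc.eq_zero_fun {τ₀ : ℍ} {f : ℍ → ℂ} (h : HasDisc τ₀ f 0) : f = 0 := by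
  obtain ⟨P, hP0, hP⟩ := h
  rw [← map_zero (HahnSeries.ofPowerSeries ℤ ℂ)] at hP0
  obtain rfl := HahnSeries.ofPowerSeries_injective hP0
  funext τ
  have := (hP _ (norm_discCoord_lt_one τ₀ τ)).unique (a₂ := (0 : ℂ)) (by simp)
  simpa [cayley_discCoord] using this

/-- The expansion at a point of `ℍ`. -/
def pointRule (N : ℕ) (τ₀ : ℍ) : ExpRule N where
  Rel := HasDisc τ₀
  const := hasDisc_const τ₀
  add := HasDisc.add
  mul := HasDisc.mul
  eq_zero := HasDisc.eq_zero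
  eq_zero_fun := HasDisc.eq_zero_fun
  exists_jAt := fun d _ _ γ => exists_hasDisc τ₀ (mdiff_jAt_smul d γ)

/-- The automorphism `w ↦ ζ w` of Laurent series. -/
def rotSeries (ζ : ℂ) (hζ : ζ ≠ 0) : LaurentSeries ℂ →+* LaurentSeries ℂ where
  toFun S :=
    { coeff := fun m => ζ ^ m * S.coeff m
      isPWO_support' := S.isPWO_support.mono fun m hm => by
        simpa using right_ne_zero_of_mul hm }
  map_zero' := by ext m; simp
  map_one' := by
    ext m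
    rcases eq_or_ne m 0 with rfl | hm <;> simp [*, HahnSeries.coeff_one]
  map_add' x y := by ext m; simp [mul_add]
  map_mul' x y := by
    ext m
    simp only [HahnSeries.coeff_mul]
    rw [Finset.mul_sum]
    refine Finset.sum_congr ?_ fun ij hij => ?_
    · ext ij
      simp [Finset.mem_antidiagonal, HahnSeries.mem_support, hζ, zpow_ne_zero]
    · have h : ij.1 + ij.2 = m := by
        simpa [HahnSeries.mem_support, hζ, zpow_ne_zero] using (Finset.mem_antidiagonal.mp hij).2.2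
      rw [← h, zpow_add₀ hζ]
      ring

@[simp] theorem rotSeries_coeff (ζ : ℂ) (hζ : ζ ≠ 0) (S : LaurentSeries ℂ) (m : ℤ) :
    (rotSeries ζ hζ S).coeff m = ζ ^ m * S.coeff m := rfl

theorem rotSeries_ofPowerSeries (ζ : ℂ) (hζ : ζ ≠ 0) (P : PowerSeries ℂ) :
    rotSeries ζ hζ (HahnSeries.ofPowerSeries ℤ ℂ P) =
      HahnSeries.ofPowerSeries ℤ ℂ (PowerSeries.rescale ζ P) := by
  ext m
  rw [rotSeries_coeff]
  rcases le_or_gt 0 m with hm | hm
  · lift m to ℕ using hm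
    rw [HahnSeries.ofPowerSeries_apply_coeff, HahnSeries.ofPowerSeries_apply_coeff,
      PowerSeries.coeff_rescale, zpow_natCast]
  · rw [ModularCurve.ofPowerSeries_coeff_of_neg _ hm, ModularCurve.ofPowerSeries_coeff_of_neg _ hm,
      mul_zero]

theorem rotSeries_single (ζ : ℂ) (hζ : ζ ≠ 0) (n : ℤ) (c : ℂ) :
    rotSeries ζ hζ (HahnSeries.single n c) = HahnSeries.single n (ζ ^ n * c) := by
  ext m
  rcases eq_or_ne m n with rfl | hm <;> simp [*]

theorem rotSeries_C (ζ : ℂ) (hζ : ζ ≠ 0) (c : ℂ) :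
    rotSeries ζ hζ (HahnSeries.C c) = HahnSeries.C c := by
  rw [HahnSeries.C_apply, rotSeries_single, zpow_zero, one_mul]

theorem rotSeries_order (ζ : ℂ) (hζ : ζ ≠ 0) (S : LaurentSeries ℂ) :
    (rotSeries ζ hζ S).order = S.order := by
  rcases eq_or_ne S 0 with rfl | hS
  · simp
  · have hne : rotSeries ζ hζ S ≠ 0 := by
      intro h
      exact hS (HahnSeries.ext (funext fun m => by
        have := congrArg (fun T : LaurentSeries ℂ => T.coeff m) h
        simpa [hζ, zpow_ne_zero] using this))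
    refine le_antisymm (HahnSeries.order_le_of_coeff_ne_zero ?_)
      (HahnSeries.order_le_of_coeff_ne_zero ?_)
    · rw [rotSeries_coeff]
      exact mul_ne_zero (zpow_ne_zero _ hζ) (HahnSeries.coeff_order_eq_zero.not.mpr hS)
    · have := HahnSeries.coeff_order_eq_zero.not.mpr hne
      exact right_ne_zero_of_mul (by simpa using this)

theorem HasLaurent.rot {h : ℝ} {f : ℍ → ℂ} {S : LaurentSeries ℂ} (hf : HasLaurent h f S)
    (σ : ℍ → ℍ) (ζ : ℂ) (hζ : ζ ≠ 0) (hσ : ∀ τ : ℍ, 𝕢 h (σ τ) = ζ * 𝕢 h τ) :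
    HasLaurent h (f ∘ σ) (rotSeries ζ hζ S) := by
  obtain ⟨n, P, hP, hP'⟩ := hf
  refine .of_powerSum n (PowerSeries.C ((ζ ^ n)⁻¹) * PowerSeries.rescale ζ P) ?_ ?_
  · rw [map_mul, HahnSeries.ofPowerSeries_C, ← rotSeries_ofPowerSeries ζ hζ, hP, map_mul,
      rotSeries_single, HahnSeries.C_apply, ← mul_assoc, HahnSeries.single_mul_single, zero_add,
      mul_one, zpow_natCast, inv_mul_cancel₀ (pow_ne_zero _ hζ)]
  · intro τ
    have h1 := (hP' (σ τ)).mul_left ((ζ ^ n)⁻¹)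
    simp only [hσ, mul_pow] at h1
    have hz := pow_ne_zero n hζ
    convert! h1 using 1
    · funext m
      rw [PowerSeries.coeff_C_mul, PowerSeries.coeff_rescale]
      ring
    · simp only [Function.comp_apply]
      field_simp

theorem HasDisc.rot {τ₀ : ℍ} {f : ℍ → ℂ} {S : LaurentSeries ℂ} (hf : HasDisc τ₀ f S)
    (σ : ℍ → ℍ) (ζ : ℂ) (hζ : ζ ≠ 0) (hζ1 : ‖ζ‖ = 1)
    (hσ : ∀ z : ℂ, ‖z‖ < 1 → σ (cayley τ₀ z) = cayley τ₀ (ζ * z)) :
    HasDisc τ₀ (f ∘ σ) (rotSeries ζ hζ S) := by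
  obtain ⟨P, rfl, hP⟩ := hf
  refine ⟨PowerSeries.rescale ζ P, (rotSeries_ofPowerSeries ζ hζ P).symm, fun z hz => ?_⟩
  have h1 := hP (ζ * z) (by rwa [norm_mul, hζ1, one_mul])
  rw [Function.comp_apply, hσ z hz]
  convert! h1 using 2 with m
  rw [PowerSeries.coeff_rescale, mul_pow]
  ring

theorem discCoord_cayley (τ₀ : ℍ) {z : ℂ} (hz : ‖z‖ < 1) : discCoord τ₀ (cayley τ₀ z) = z := by
  have hne : (1 - z : ℂ) ≠ 0 := sub_ne_zero.mpr fun h => by simp [← h] at hz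
  have h2 : (τ₀ : ℂ) - (starRingEnd ℂ) τ₀ ≠ 0 := sub_conj_ne_zero τ₀ τ₀
  rw [discCoord, coe_cayley τ₀ hz, div_sub' hne, div_sub' hne, div_div_div_cancel_right₀ hne,
    div_eq_iff]
  · ring
  · have h3 : (τ₀ : ℂ) - (starRingEnd ℂ) τ₀ * z - (1 - z) * (starRingEnd ℂ) τ₀
        = (τ₀ : ℂ) - (starRingEnd ℂ) τ₀ := by ring
    rwa [h3]

/-- The rotation factor of an element fixing `τ₀`. -/
def rotFactor (γ : SL(2, ℤ)) (τ₀ : ℍ) : ℂ :=
  ((γ 1 0 : ℂ) * (starRingEnd ℂ) τ₀ + (γ 1 1 : ℂ)) / ((γ 1 0 : ℂ) * τ₀ + (γ 1 1 : ℂ))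

theorem conj_denom (γ : SL(2, ℤ)) (τ : ℍ) :
    (starRingEnd ℂ) ((γ 1 0 : ℂ) * τ + (γ 1 1 : ℂ))
      = (γ 1 0 : ℂ) * (starRingEnd ℂ) τ + (γ 1 1 : ℂ) := by
  simp [map_add, map_mul]

theorem norm_rotFactor (γ : SL(2, ℤ)) (τ₀ : ℍ) : ‖rotFactor γ τ₀‖ = 1 := by
  rw [rotFactor, ← conj_denom, norm_div, Complex.norm_conj,
    div_self (norm_ne_zero_iff.mpr (denom_SL_ne_zero γ τ₀))]

theorem rotFactor_ne_zero (γ : SL(2, ℤ)) (τ₀ : ℍ) : rotFactor γ τ₀ ≠ 0 := fun h => by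
  simpa [h] using norm_rotFactor γ τ₀

theorem smul_cayley (γ : SL(2, ℤ)) (τ₀ : ℍ) (hfix : γ • τ₀ = τ₀) {z : ℂ} (hz : ‖z‖ < 1) :
    γ • cayley τ₀ z = cayley τ₀ (rotFactor γ τ₀ * z) := by
  set τ := cayley τ₀ z
  have hdet : (γ 0 0 : ℂ) * γ 1 1 - (γ 0 1 : ℂ) * γ 1 0 = 1 := by
    have := γ.det_coe
    rw [Matrix.det_fin_two] at this
    exact_mod_cast this
  have hd := denom_SL_ne_zero γ τ
  have hd0 := denom_SL_ne_zero γ τ₀
  have hdc : (γ 1 0 : ℂ) * (starRingEnd ℂ) τ₀ + (γ 1 1 : ℂ) ≠ 0 := by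
    rw [← conj_denom]
    exact (map_ne_zero _).mpr hd0
  have h0 : ((γ 0 0 : ℂ) * τ₀ + γ 0 1) = (τ₀ : ℂ) * ((γ 1 0 : ℂ) * τ₀ + γ 1 1) := by
    have := congrArg (fun t : ℍ => (t : ℂ)) hfix
    rw [coe_smul_SL, div_eq_iff hd0] at this
    exact this
  have h0c : ((γ 0 0 : ℂ) * (starRingEnd ℂ) τ₀ + γ 0 1)
      = (starRingEnd ℂ) τ₀ * ((γ 1 0 : ℂ) * (starRingEnd ℂ) τ₀ + γ 1 1) := by
    have := congrArg (starRingEnd ℂ) h0
    simpa [map_add, map_mul] using this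
  have key : discCoord τ₀ (γ • τ) = rotFactor γ τ₀ * discCoord τ₀ τ := by
    have n1 : ((γ • τ : ℍ) : ℂ) - τ₀ = ((τ : ℂ) - τ₀) /
        (((γ 1 0 : ℂ) * τ + γ 1 1) * ((γ 1 0 : ℂ) * τ₀ + γ 1 1)) := by
      rw [coe_smul_SL, eq_div_iff (mul_ne_zero hd hd0), sub_mul, ← mul_assoc,
        div_mul_cancel₀ _ hd]
      linear_combination ((γ 1 0 : ℂ) * τ + γ 1 1) * h0 + ((τ : ℂ) - τ₀) * hdet
    have n2 : ((γ • τ : ℍ) : ℂ) - (starRingEnd ℂ) τ₀ = ((τ : ℂ) - (starRingEnd ℂ) τ₀) /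
        (((γ 1 0 : ℂ) * τ + γ 1 1) * ((γ 1 0 : ℂ) * (starRingEnd ℂ) τ₀ + γ 1 1)) := by
      rw [coe_smul_SL, eq_div_iff (mul_ne_zero hd hdc), sub_mul, ← mul_assoc,
        div_mul_cancel₀ _ hd]
      linear_combination ((γ 1 0 : ℂ) * τ + γ 1 1) * h0c + ((τ : ℂ) - (starRingEnd ℂ) τ₀) * hdet
    have := sub_conj_ne_zero τ₀ τ
    rw [discCoord, discCoord, n1, n2, rotFactor, div_div_div_eq, div_mul_div_comm]
    exact (div_eq_div_iff (mul_ne_zero (mul_ne_zero hd hd0) this) (mul_ne_zero hd0 this)).mpr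
      (by ring)
  rw [discCoord_cayley τ₀ hz] at key
  rw [← key, cayley_discCoord]

theorem qParam_T_zpow_smul (N : ℕ) [NeZero N] (k : ℤ) (τ : ℍ) :
    𝕢 N ((ModularGroup.T ^ k • τ : ℍ) : ℂ) =
      Complex.exp (2 * Real.pi * Complex.I * k / N) * 𝕢 N τ := by
  rw [ModularGroup.coe_T_zpow_smul_eq]
  simp only [Function.Periodic.qParam, ← Complex.exp_add]
  congr 1
  push_cast
  ring

end FLTAgent.ModularFF
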