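import Mathlib.FieldTheory.IntermediateField.Adjoin.Algebra
import Fermat.Agent.ModularFF.Rules

/-!
# Embeddings of the modular function field into Laurent series

The generators `gen` and `jElt` of `modField`, evaluation of polynomials in them, and for each
expansion rule and coset of `Γ₀(N)` an injective embedding into Laurent series (`cosetHom`),
compatible with the symmetries of the rule (`cosetHom_smul`).
-/

set_option autoImplicit false

noncomputable section

open UpperHalfPlane Complex Filter Function ModularCurve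
open scoped Topology Manifold MatrixGroups ModularForm

namespace FLTAgent.ModularFF

variable (L : Type*) [Field L] [Algebra ℚ L]
variable (N : ℕ) [NeZero N]

/-- The divisors of `N`, as an index type. -/
abbrev Divs : Type := {d : ℕ // d ∈ N.divisors}

instance instNeZeroDivs (i : Divs N) : NeZero i.1 :=
  ⟨(Nat.pos_of_mem_divisors i.2).ne'⟩

/-- The field under study. -/
abbrev modField : IntermediateField L (LaurentSeries L) :=
  laurentBaseChange L (modularFunctionFieldFull N)

theorem coeffEmb_qExpand_jq (d : ℕ) [NeZero d] :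
    coeffEmb L (qExpand ℚ d jq) = jqNModC L d := by
  rw [coeffEmb, ModularCurve.coeffMap_qExpand, ← coeffEmb, coeffEmb_jq]
  rfl

theorem modField_eq_adjoin :
    modField L N = IntermediateField.adjoin L (Set.range fun i : Divs N => jqNModC L i.1) := by
  apply le_antisymm
  · rw [modField, laurentBaseChange, IntermediateField.adjoin_le_iff]
    rintro _ ⟨y, hy, rfl⟩
    induction hy using IntermediateField.adjoin_induction with
    | mem x hx =>
      obtain ⟨d, hd0, hd, rfl⟩ := hx
      rw [coeffEmb_qExpand_jq]
      exact IntermediateField.subset_adjoin _ _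
        ⟨⟨d, Nat.mem_divisors.mpr ⟨hd, NeZero.ne N⟩⟩, rfl⟩
    | algebraMap c =>
      have : coeffEmb L (algebraMap ℚ (LaurentSeries ℚ) c)
          = algebraMap L (LaurentSeries L) (algebraMap ℚ L c) := by
        rw [algebraMap_apply_eq_single, coeffEmb, coeffMap_single,
          algebraMap_laurentSeries_eq_single]
      rw [this]
      exact IntermediateField.algebraMap_mem _ _
    | add x y _ _ hx hy => rw [map_add]; exact add_mem hx hy
    | inv x _ hx => rw [map_inv₀]; exact inv_mem hx
    | mul x y _ _ hx hy => rw [map_mul]; exact mul_mem hx hy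
  · rw [IntermediateField.adjoin_le_iff]
    rintro _ ⟨⟨d, hd⟩, rfl⟩
    have : NeZero d := ⟨(Nat.pos_of_mem_divisors hd).ne'⟩
    show jqNModC L d ∈ laurentBaseChange L (modularFunctionFieldFull N)
    rw [← coeffEmb_qExpand_jq]
    exact coeffEmb_mem_laurentBaseChange L
      (jqd_mem_full N (Nat.dvd_of_mem_divisors hd))

/-- The generator `j(q^d)`. -/
def gen (i : Divs N) : modField L N :=
  ⟨jqNModC L i.1, by
    rw [modField_eq_adjoin]; exact IntermediateField.subset_adjoin _ _ ⟨i, rfl⟩⟩

@[simp] theorem coe_gen (i : Divs N) : (gen L N i : LaurentSeries L) = jqNModC L i.1 := rfl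

/-- The divisor `1`. -/
def divOne : Divs N := ⟨1, Nat.one_mem_divisors.mpr (NeZero.ne N)⟩

/-- The divisor `N`. -/
def divTop : Divs N := ⟨N, Nat.mem_divisors_self N (NeZero.ne N)⟩

/-- `j` in the field. -/
def jElt : modField L N := gen L N (divOne N)

/-- The element `j` has the series `j` as expansion. -/
theorem coe_jElt : (jElt L N : LaurentSeries L) = jqModC L := by
  show jqNModC L 1 = _
  rw [jqNModC_one]

/-- Evaluation of polynomials at the generators, in the field. -/
def evalField : MvPolynomial (Divs N) L →ₐ[L] modField L N :=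
  MvPolynomial.aeval (gen L N)

@[simp] theorem evalField_X (i : Divs N) : evalField L N (MvPolynomial.X i) = gen L N i :=
  MvPolynomial.aeval_X _ _

theorem exists_eq_div (x : modField L N) :
    ∃ P Q, evalField L N Q ≠ 0 ∧ x = evalField L N P / evalField L N Q := by
  have hx : (x : LaurentSeries L) ∈
      IntermediateField.adjoin L (Set.range fun i : Divs N => jqNModC L i.1) :=
    (modField_eq_adjoin L N) ▸ x.2
  obtain ⟨a, ha, b, hb, hab⟩ := IntermediateField.mem_adjoin_iff_div.mp hx
  rw [Algebra.adjoin_range_eq_range_aeval] at ha hb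
  obtain ⟨P, rfl⟩ := ha
  obtain ⟨Q, rfl⟩ := hb
  have hcoe : ∀ R : MvPolynomial (Divs N) L, (evalField L N R : LaurentSeries L)
      = MvPolynomial.aeval (fun i : Divs N => jqNModC L i.1) R := fun R => by
    show (modField L N).val (evalField L N R) = _
    rw [evalField, MvPolynomial.comp_aeval_apply]
    rfl
  by_cases hQ : evalField L N Q = 0
  · refine ⟨0, 1, by simp, Subtype.ext ?_⟩
    simp only [map_zero, map_one, div_one, ZeroMemClass.coe_zero]
    rw [hab]
    show MvPolynomial.aeval _ P / MvPolynomial.aeval _ Q = 0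
    rw [← hcoe Q, hQ, ZeroMemClass.coe_zero, div_zero]
  · refine ⟨P, Q, hQ, Subtype.ext ?_⟩
    rw [IntermediateField.coe_div, hcoe, hcoe]
    exact hab

variable {L N}

theorem algHom_ext_gen {E : Type*} [Field E] [Algebra L E] {φ ψ : modField L N →ₐ[L] E}
    (h : ∀ i, φ (gen L N i) = ψ (gen L N i)) : φ = ψ := by
  have h' : φ.comp (evalField L N) = ψ.comp (evalField L N) :=
    MvPolynomial.algHom_ext fun i => by simpa using h i
  refine AlgHom.ext fun x => ?_
  obtain ⟨P, Q, -, rfl⟩ := exists_eq_div L N x
  simp only [map_div₀]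
  rw [← AlgHom.comp_apply, ← AlgHom.comp_apply, h']
  rfl

section Analytic

variable [Algebra L ℂ]

variable (L N) in
/-- Evaluation of polynomials at the functions `τ ↦ j(dτ)`. -/
def evalFun : MvPolynomial (Divs N) L →ₐ[L] (ℍ → ℂ) :=
  MvPolynomial.aeval fun i : Divs N => jAt i.1

variable (L) in
/-- Coefficientwise embedding into complex Laurent series. -/
def toComplexSeries : LaurentSeries L →+* LaurentSeries ℂ := coeffMap (algebraMap L ℂ)

omit [Algebra ℚ L] in
theorem toComplexSeries_injective : Injective (toComplexSeries L) := fun x y h => by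
  ext k
  exact (algebraMap L ℂ).injective
    (by simpa [toComplexSeries] using congrArg (fun S : LaurentSeries ℂ => S.coeff k) h)

omit [Algebra ℚ L] in
theorem toComplexSeries_jqNModC (d : ℕ) [NeZero d] :
    toComplexSeries L (jqNModC L d) = jqNModC ℂ d := by
  rw [toComplexSeries, jqNModC, ModularCurve.coeffMap_qExpand]
  exact congrArg (qExpand ℂ d) (map_jqModC (algebraMap L ℂ))

omit [Algebra ℚ L] in
theorem toComplexSeries_algebraMap (c : L) :
    toComplexSeries L (algebraMap L (LaurentSeries L) c) = HahnSeries.C (algebraMap L ℂ c) := by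
  rw [toComplexSeries, algebraMap_laurentSeries_eq_single, coeffMap_single, HahnSeries.C_apply]

theorem hasLaurent_evalFun (P : MvPolynomial (Divs N) L) :
    HasLaurent 1 (evalFun L N P) (toComplexSeries L (evalField L N P : LaurentSeries L)) := by
  induction P using MvPolynomial.induction_on with
  | C c =>
    rw [← MvPolynomial.algebraMap_eq, AlgHom.commutes, AlgHom.commutes]
    show HasLaurent 1 _ (toComplexSeries L (algebraMap L (LaurentSeries L) c))
    rw [toComplexSeries_algebraMap]
    exact hasLaurent_const _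
  | add p q hp hq => simpa [map_add] using hp.add hq
  | mul_X p i hp =>
    have := hp.mul (hasLaurent_jAt i.1)
    simpa [map_mul, evalFun, toComplexSeries_jqNModC] using this

theorem evalFun_eq_zero_iff (P : MvPolynomial (Divs N) L) :
    evalFun L N P = 0 ↔ evalField L N P = 0 := by
  have h := hasLaurent_evalFun P
  constructor
  · intro h0
    rw [h0] at h
    have := h.eq_zero one_pos
    exact Subtype.ext (toComplexSeries_injective (by simpa using this))
  · intro h0
    rw [h0, ZeroMemClass.coe_zero, map_zero] at h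
    exact h.eq_zero_fun

omit [Algebra ℚ L] [NeZero N] in
theorem evalFun_smul_of_mem_Gamma0 (P : MvPolynomial (Divs N) L) {γ : SL(2, ℤ)}
    (hγ : γ ∈ CongruenceSubgroup.Gamma0 N) (τ : ℍ) :
    evalFun L N P (γ • τ) = evalFun L N P τ := by
  induction P using MvPolynomial.induction_on with
  | C c => simp [← MvPolynomial.algebraMap_eq]
  | add p q hp hq => rw [map_add, Pi.add_apply, Pi.add_apply, hp, hq]
  | mul_X p i hp =>
    rw [map_mul, Pi.mul_apply, Pi.mul_apply, hp, evalFun, MvPolynomial.aeval_X,
      jAt_smul_of_mem_Gamma0 (Nat.dvd_of_mem_divisors i.2) hγ]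

omit [Algebra ℚ L] [NeZero N] in
theorem mdiff_evalFun (P : MvPolynomial (Divs N) L) : MDiff (evalFun L N P) := by
  induction P using MvPolynomial.induction_on with
  | C c =>
    rw [← MvPolynomial.algebraMap_eq, AlgHom.commutes]
    exact mdifferentiable_const
  | add p q hp hq => rw [map_add]; exact hp.add hq
  | mul_X p i hp =>
    rw [map_mul]
    exact hp.mul (by simpa [evalFun] using mdiff_jAt i.1)

variable (L) in
/-- Expansion of the translated polynomial functions, as an algebra map. -/
def expEval (R : ExpRule N) (γ : SL(2, ℤ)) : MvPolynomial (Divs N) L →ₐ[L] LaurentSeries ℂ :=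
  MvPolynomial.aeval fun i : Divs N =>
    (R.exists_jAt i.1 inferInstance (Nat.dvd_of_mem_divisors i.2) γ).choose

omit [Algebra ℚ L] in
theorem algebraMap_laurent_complex (c : L) :
    algebraMap L (LaurentSeries ℂ) c = HahnSeries.C (algebraMap L ℂ c) := by
  rw [HahnSeries.algebraMap_apply', PowerSeries.algebraMap_apply, HahnSeries.ofPowerSeries_C]

omit [NeZero N] [Algebra ℚ L] in
theorem rel_expEval (R : ExpRule N) (γ : SL(2, ℤ)) (P : MvPolynomial (Divs N) L) :
    R.Rel (fun τ => evalFun L N P (γ • τ)) (expEval L R γ P) := by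
  induction P using MvPolynomial.induction_on with
  | C c =>
    rw [← MvPolynomial.algebraMap_eq, AlgHom.commutes, AlgHom.commutes, algebraMap_laurent_complex]
    exact R.const (algebraMap L ℂ c)
  | add p q hp hq =>
    rw [map_add, map_add]
    exact R.add hp hq
  | mul_X p i hp =>
    rw [map_mul, map_mul]
    have := R.mul hp (R.exists_jAt i.1 inferInstance (Nat.dvd_of_mem_divisors i.2) γ).choose_spec
    simpa [expEval, evalFun, Pi.mul_def] using this

theorem expEval_eq_zero_iff (R : ExpRule N) (γ : SL(2, ℤ)) (P : MvPolynomial (Divs N) L) :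
    expEval L R γ P = 0 ↔ evalField L N P = 0 := by
  rw [← evalFun_eq_zero_iff]
  have h := rel_expEval R γ P
  constructor
  · intro h0
    rw [h0] at h
    funext τ
    have := congrFun (R.eq_zero_fun h) (γ⁻¹ • τ)
    rwa [smul_inv_smul] at this
  · intro h0
    rw [h0] at h
    exact R.eq_zero h

variable (L N) in
omit [Algebra L ℂ] in
theorem isFractionRing_range : IsFractionRing (evalField L N).range (modField L N) :=
  have : FaithfulSMul (evalField L N).range (modField L N) :=
    (faithfulSMul_iff_algebraMap_injective _ _).mpr Subtype.val_injective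
  IsFractionRing.of_field _ _ fun x => by
    obtain ⟨P, Q, -, hx⟩ := exists_eq_div L N x
    exact ⟨⟨_, P, rfl⟩, ⟨_, Q, rfl⟩, hx⟩

variable (L) in
/-- The expansion map on the subalgebra of polynomial expressions. -/
def expRange (R : ExpRule N) (γ : SL(2, ℤ)) : (evalField L N).range →ₐ[L] LaurentSeries ℂ :=
  (Ideal.Quotient.liftₐ _ (expEval L R γ)
      fun P hP => (expEval_eq_zero_iff R γ P).mpr (RingHom.mem_ker.mp hP)).comp
    (Ideal.quotientKerEquivRange (evalField L N)).symm.toAlgHom

theorem expRange_apply (R : ExpRule N) (γ : SL(2, ℤ)) (P : MvPolynomial (Divs N) L) :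
    expRange L R γ ⟨evalField L N P, ⟨P, rfl⟩⟩ = expEval L R γ P := by
  set e := Ideal.quotientKerEquivRange (evalField L N) with he
  have h : e.symm ⟨evalField L N P, ⟨P, rfl⟩⟩
      = Ideal.Quotient.mk (RingHom.ker (evalField L N)) P := by
    rw [AlgEquiv.symm_apply_eq]
    rfl
  show Ideal.Quotient.liftₐ _ (expEval L R γ)
    (fun Q hQ => (expEval_eq_zero_iff R γ Q).mpr (RingHom.mem_ker.mp hQ))
      (e.symm ⟨evalField L N P, ⟨P, rfl⟩⟩) = _
  rw [h]
  rfl

theorem expRange_injective (R : ExpRule N) (γ : SL(2, ℤ)) : Injective (expRange L R γ) := by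
  rw [injective_iff_map_eq_zero]
  rintro ⟨_, P, rfl⟩ h
  have h' : expEval L R γ P = 0 := by rw [← expRange_apply]; exact h
  exact Subtype.ext ((expEval_eq_zero_iff R γ P).mp h')

variable (L) in
/-- The embedding of the function field attached to an expansion rule and a translate. -/
def expHom (R : ExpRule N) (γ : SL(2, ℤ)) : modField L N →ₐ[L] LaurentSeries ℂ :=
  have := isFractionRing_range L N
  IsFractionRing.liftAlgHom (A := (evalField L N).range) (expRange_injective R γ)

theorem expHom_evalField (R : ExpRule N) (γ : SL(2, ℤ)) (P : MvPolynomial (Divs N) L) :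
    expHom L R γ (evalField L N P) = expEval L R γ P := by
  have := isFractionRing_range L N
  rw [← expRange_apply R γ P]
  exact IsFractionRing.lift_algebraMap (A := (evalField L N).range) (expRange_injective R γ)
    ⟨evalField L N P, ⟨P, rfl⟩⟩

attribute [irreducible] expHom

theorem rel_expHom (R : ExpRule N) (γ : SL(2, ℤ)) (P : MvPolynomial (Divs N) L) :
    R.Rel (fun τ => evalFun L N P (γ • τ)) (expHom L R γ (evalField L N P)) := by
  rw [expHom_evalField]
  exact rel_expEval R γ P

theorem rel_expHom_gen (R : ExpRule N) (γ : SL(2, ℤ)) (i : Divs N) :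
    R.Rel (fun τ => jAt i.1 (γ • τ)) (expHom L R γ (gen L N i)) := by
  simpa [evalFun] using rel_expHom (L := L) R γ (MvPolynomial.X i)

theorem rel_expHom_jElt (R : ExpRule N) (γ : SL(2, ℤ)) :
    R.Rel jFun (expHom L R γ (jElt L N)) := by
  have := rel_expHom_gen (L := L) R γ (divOne N)
  convert! this using 1
  funext τ
  have h : scaleH 1 (γ • τ) = γ • τ := UpperHalfPlane.ext (by simp)
  show jFun τ = jFun (scaleH 1 (γ • τ))
  rw [h, jFun_smul]

theorem expHom_eq_of_mem (R : ExpRule N) {γ δ : SL(2, ℤ)}
    (h : γ * δ⁻¹ ∈ CongruenceSubgroup.Gamma0 N) : expHom L R γ = expHom L R δ := by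
  refine algHom_ext_gen fun i => ?_
  have h1 := rel_expHom_gen (L := L) R γ i
  have h2 := rel_expHom_gen (L := L) R δ i
  have hfun : (fun τ => jAt i.1 (γ • τ)) = fun τ => jAt i.1 (δ • τ) := by
    funext τ
    rw [show γ • τ = (γ * δ⁻¹) • (δ • τ) by rw [← mul_smul, inv_mul_cancel_right],
      jAt_smul_of_mem_Gamma0 (Nat.dvd_of_mem_divisors i.2) h]
  rw [hfun] at h1
  exact R.unique h1 h2

theorem mem_of_expHom_eq (R : ExpRule N) {γ δ : SL(2, ℤ)}
    (h : expHom L R γ (gen L N (divTop N)) = expHom L R δ (gen L N (divTop N))) :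
    γ * δ⁻¹ ∈ CongruenceSubgroup.Gamma0 N := by
  have h1 := rel_expHom_gen (L := L) R γ (divTop N)
  have h2 := rel_expHom_gen (L := L) R δ (divTop N)
  rw [← h] at h2
  have h3 := R.unique_fun h1 h2
  refine mem_Gamma0_of_jAt_smul_eq fun τ => ?_
  rw [mul_smul]
  simpa [divTop] using congrFun h3 (δ⁻¹ • τ)

/-- Left cosets index the embeddings. -/
abbrev Cosets (N : ℕ) : Type := SL(2, ℤ) ⧸ CongruenceSubgroup.Gamma0 N

variable (L) in
/-- The embedding attached to a coset. -/
def cosetHom (R : ExpRule N) : Cosets N → (modField L N →ₐ[L] LaurentSeries ℂ) :=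
  Quotient.lift (fun γ : SL(2, ℤ) => expHom L R γ⁻¹) fun γ δ h => by
    apply expHom_eq_of_mem
    have h' : γ⁻¹ * δ ∈ CongruenceSubgroup.Gamma0 N := QuotientGroup.leftRel_apply.mp h
    simpa using h'

theorem cosetHom_mk (R : ExpRule N) (γ : SL(2, ℤ)) :
    cosetHom L R (QuotientGroup.mk γ) = expHom L R γ⁻¹ := rfl

theorem cosetHom_gen_injective (R : ExpRule N) :
    Injective fun x => cosetHom L R x (gen L N (divTop N)) := by
  intro x y h
  induction x using QuotientGroup.induction_on with
  | H γ =>
    induction y using QuotientGroup.induction_on with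
    | H δ =>
      simp only [cosetHom_mk] at h
      exact QuotientGroup.eq.mpr (by simpa using mem_of_expHom_eq R h)

theorem cosetHom_injective (R : ExpRule N) : Injective (cosetHom L R) := fun _ _ h =>
  cosetHom_gen_injective R (congrArg (fun φ : modField L N →ₐ[L] LaurentSeries ℂ =>
    φ (gen L N (divTop N))) h)

theorem cosetHom_jElt (R : ExpRule N) (x : Cosets N) :
    R.Rel jFun (cosetHom L R x (jElt L N)) := by
  induction x using QuotientGroup.induction_on with
  | H γ => exact rel_expHom_jElt R γ⁻¹

/-- Compatibility with a symmetry of the expansion rule. -/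
theorem cosetHom_smul (R : ExpRule N) (g : SL(2, ℤ)) (r : LaurentSeries ℂ →+* LaurentSeries ℂ)
    (hr : ∀ f S, R.Rel f S → R.Rel (fun τ => f (g⁻¹ • τ)) (r S)) (x : Cosets N)
    (f : modField L N) : cosetHom L R (g • x) f = r (cosetHom L R x f) := by
  induction x using QuotientGroup.induction_on with
  | H γ =>
    have hsm : g • (QuotientGroup.mk γ : Cosets N) = QuotientGroup.mk (g * γ) := rfl
    rw [hsm, cosetHom_mk, cosetHom_mk, mul_inv_rev]
    have hP : ∀ P, expHom L R (γ⁻¹ * g⁻¹) (evalField L N P)
        = r (expHom L R γ⁻¹ (evalField L N P)) := by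
      intro P
      refine R.unique (rel_expHom R _ P) ?_
      convert! hr _ _ (rel_expHom (L := L) R γ⁻¹ P) using 1
      funext τ
      rw [mul_smul]
    obtain ⟨P, Q, -, rfl⟩ := exists_eq_div L N f
    rw [map_div₀, map_div₀, hP, hP, map_div₀]

end Analytic

end FLTAgent.ModularFF
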