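import Fermat.Agent.ModularFF.CosetJ

/-!
# Functions of moderate growth at the cusps

The ring `moderateRing` of holomorphic functions of moderate growth at all cusps contains the
`j(dτ)`; its level one invariant members are polynomials in `j` (`exists_polynomial_jFun`).
-/

set_option autoImplicit false

noncomputable section

open UpperHalfPlane Complex Filter Function
open scoped Topology Manifold MatrixGroups ModularForm

namespace FLTAgent.ModularFF

local notation "𝕢" => Function.Periodic.qParam

/-- Multiplying by `Δ^n` makes every translate of `G` bounded at `∞`. -/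
def ModerateAt (n : ℕ) (G : ℍ → ℂ) : Prop :=
  ∀ γ : SL(2, ℤ), IsBoundedAtImInfty fun τ : ℍ => ModularForm.discriminant τ ^ n * G (γ • τ)

/-- Moderate growth is monotone in the exponent. -/
theorem ModerateAt.mono {n m : ℕ} {G : ℍ → ℂ} (h : ModerateAt n G) (hnm : n ≤ m) :
    ModerateAt m G := by
  obtain ⟨k, rfl⟩ := Nat.exists_eq_add_of_le hnm
  intro γ
  have hΔ : IsBoundedAtImInfty ModularForm.discriminant :=
    ModularForm.discriminant_isZeroAtImInfty.isBoundedAtImInfty
  have hpow : IsBoundedAtImInfty fun τ : ℍ => ModularForm.discriminant τ ^ k := by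
    induction k with
    | zero =>
      simp only [pow_zero]
      exact Filter.const_boundedAtFilter atImInfty (1 : ℂ)
    | succ k ih =>
      simp only [pow_succ]
      exact Filter.BoundedAtFilter.mul (ih (Nat.le_add_right n k)) hΔ
  have := Filter.BoundedAtFilter.mul hpow (h γ)
  convert! this using 1
  funext τ
  simp [pow_add]
  ring

theorem moderateAt_const (c : ℂ) : ModerateAt 0 (fun _ => c) := fun _ => by
  simp only [pow_zero, one_mul]
  exact Filter.const_boundedAtFilter atImInfty c

theorem ModerateAt.add {n : ℕ} {F G : ℍ → ℂ} (hF : ModerateAt n F) (hG : ModerateAt n G) :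
    ModerateAt n (F + G) := fun γ => by
  have := Filter.BoundedAtFilter.add (hF γ) (hG γ)
  convert! this using 1
  funext τ
  simp [mul_add]

theorem ModerateAt.mul {n m : ℕ} {F G : ℍ → ℂ} (hF : ModerateAt n F) (hG : ModerateAt m G) :
    ModerateAt (n + m) (F * G) := fun γ => by
  have := Filter.BoundedAtFilter.mul (hF γ) (hG γ)
  convert! this using 1
  funext τ
  simp [pow_add]
  ring

/-- Holomorphic functions of moderate growth at all cusps. -/
def moderateRing : Subalgebra ℂ (ℍ → ℂ) where
  carrier := {G | MDiff G ∧ ∃ n, ModerateAt n G}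
  mul_mem' := by
    rintro F G ⟨hF, n, hn⟩ ⟨hG, m, hm⟩
    exact ⟨hF.mul hG, n + m, hn.mul hm⟩
  add_mem' := by
    rintro F G ⟨hF, n, hn⟩ ⟨hG, m, hm⟩
    exact ⟨hF.add hG, max n m, (hn.mono (le_max_left _ _)).add (hm.mono (le_max_right _ _))⟩
  algebraMap_mem' c := ⟨mdifferentiable_const, 0, moderateAt_const c⟩

theorem norm_qParam_natCast_pow (N d : ℕ) [NeZero N] (τ : ℍ) :
    𝕢 N (τ : ℂ) ^ (d * N) = 𝕢 1 (τ : ℂ) ^ d := by
  rw [mul_comm, pow_mul]
  congr 1
  simp only [Function.Periodic.qParam, ← Complex.exp_nat_mul]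
  congr 1
  have : (N : ℂ) ≠ 0 := Nat.cast_ne_zero.mpr (NeZero.ne N)
  push_cast
  field_simp

theorem moderateAt_jAt (d : ℕ) [NeZero d] : ModerateAt d (jAt d) := by
  intro γ
  have h1 := isBoundedAtImInfty_jAt_smul 1 d γ
  simp only [Nat.cast_one, mul_one] at h1
  have h2 : IsBoundedAtImInfty fun τ : ℍ => (∏' n : ℕ, (1 - ModularForm.eta_q n τ) ^ 24) ^ d :=
    (ModularForm.tendsto_atImInfty_tprod_one_sub_eta_q_pow.pow d).isBigO_one ℝ
  have := Filter.BoundedAtFilter.mul h2 h1
  convert! this using 1
  funext τ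
  rw [Pi.mul_apply, ModularForm.discriminant_eq_q_prod, mul_pow]
  ring

theorem smul_mem_moderateRing {G : ℍ → ℂ} (hG : G ∈ moderateRing) (g : SL(2, ℤ)) :
    (fun τ => G (g • τ)) ∈ moderateRing := by
  obtain ⟨h, n, hn⟩ := hG
  refine ⟨?_, n, fun γ => ?_⟩
  · refine mdiff_comp_of_differentiableOn h (fun τ => g • τ)
      (fun z => ((g 0 0 : ℂ) * z + (g 0 1 : ℂ)) / ((g 1 0 : ℂ) * z + (g 1 1 : ℂ))) ?_ ?_
    · refine DifferentiableOn.div (by fun_prop) (by fun_prop) fun z hz => ?_
      exact denom_SL_ne_zero g ⟨z, hz⟩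
    · exact fun τ => coe_smul_SL g τ
  · have := hn (g * γ)
    simpa only [mul_smul] using this

theorem jAt_mem_moderateRing (d : ℕ) [NeZero d] : jAt d ∈ moderateRing :=
  ⟨mdiff_jAt d, d, moderateAt_jAt d⟩

theorem periodic_of_invariant {G : ℍ → ℂ} (hinv : ∀ (γ : SL(2, ℤ)) (τ : ℍ), G (γ • τ) = G τ) :
    Periodic (G ∘ ofComplex) (1 : ℝ) := by
  intro w
  by_cases hw : 0 < w.im
  · have hw' : 0 < (w + ((1 : ℝ) : ℂ)).im := by simp [hw]
    simp only [Function.comp_apply, ofComplex_apply_of_im_pos hw, ofComplex_apply_of_im_pos hw']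
    have : (⟨w + ((1 : ℝ) : ℂ), hw'⟩ : ℍ) = ModularGroup.T ^ (1 : ℤ) • (⟨w, hw⟩ : ℍ) := by
      apply UpperHalfPlane.ext
      rw [ModularGroup.coe_T_zpow_smul_eq]
      simp
    rw [this, hinv]
  · have h1 : (w + ((1 : ℝ) : ℂ)).im ≤ 0 := by simpa using hw
    simp only [Function.comp_apply, ofComplex_apply_of_im_nonpos h1,
      ofComplex_apply_of_im_nonpos (not_lt.mp hw)]

theorem exists_polynomial_jFun_aux : ∀ (n : ℕ) (G : ℍ → ℂ), MDiff G →
    (∀ (γ : SL(2, ℤ)) (τ : ℍ), G (γ • τ) = G τ) →
    IsBoundedAtImInfty (fun τ : ℍ => ModularForm.discriminant τ ^ n * G τ) →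
    ∃ p : Polynomial ℂ, p.natDegree ≤ n ∧ ∀ τ, G τ = p.eval (jFun τ) := by
  intro n
  induction n with
  | zero =>
    intro G hG hinv hb
    have hs : ∀ γ : SL(2, ℤ), G ∣[(0 : ℤ)] γ = G := fun γ => by
      funext τ
      rw [ModularForm.SL_slash_apply]
      rw [neg_zero, zpow_zero, mul_one, hinv]
    let F : ModularForm 𝒮ℒ 0 :=
      { toFun := G
        slash_action_eq' := fun _ ⟨γ, hγ⟩ => hγ ▸ hs γ
        holo' := hG
        bdd_at_cusps' := fun {c} hc => by
          rw [Subgroup.IsArithmetic.isCusp_iff_isCusp_SL2Z] at hc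
          rw [OnePoint.isBoundedAt_iff_forall_SL2Z hc]
          intro γ _
          rw [hs γ]
          simpa using hb }
    obtain ⟨c, hc⟩ := ModularFormClass.levelOne_weight_zero_const F
    exact ⟨Polynomial.C c, by simp, fun τ => by
      rw [Polynomial.eval_C]; exact congrFun hc τ⟩
  | succ n ih =>
    intro G hG hinv hb
    set H : ℍ → ℂ := fun τ => ModularForm.discriminant τ ^ (n + 1) * G τ with hH
    set J : ℍ → ℂ := fun τ => ModularForm.discriminant τ ^ (n + 1) * jFun τ ^ (n + 1) with hJ
    have hΔd := ModularFormClass.holo CuspForm.discriminant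
    rw [CuspForm.coe_discriminant] at hΔd
    have hΔper : Periodic (ModularForm.discriminant ∘ ofComplex) (1 : ℝ) := by
      have := SlashInvariantFormClass.periodic_comp_ofComplex CuspForm.discriminant
        (h := (1 : ℝ)) one_mem_strictPeriods_SL
      rwa [CuspForm.coe_discriminant] at this
    have hHper : Periodic (H ∘ ofComplex) (1 : ℝ) := fun w => by
      have h1 := hΔper w
      have h2 := periodic_of_invariant hinv w
      simp only [Function.comp_apply] at h1 h2 ⊢
      simp only [hH, h1, h2]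
    have hHhol : MDiff H := (hΔd.pow (n + 1)).mul hG
    obtain ⟨a, ha⟩ : ∃ a, Tendsto H atImInfty (𝓝 a) := by
      refine ⟨cuspFunction 1 H 0, ?_⟩
      have := (analyticAt_cuspFunction_zero one_pos hHper hHhol hb).continuousAt.tendsto.comp
        (qParam_tendsto_atImInfty one_pos)
      exact this.congr fun τ => eq_cuspFunction τ one_ne_zero hHper
    have hJlim : Tendsto J atImInfty (𝓝 1) := by
      have := (tendsto_q_mul_jFun.mul
        ModularForm.tendsto_atImInfty_tprod_one_sub_eta_q_pow).pow (n + 1)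
      rw [one_mul, one_pow] at this
      refine this.congr fun τ => ?_
      simp only [hJ]
      rw [ModularForm.discriminant_eq_q_prod, ← mul_pow]
      congr 1
      ring
    set G' : ℍ → ℂ := fun τ => G τ - a * jFun τ ^ (n + 1) with hG'
    set H' : ℍ → ℂ := fun τ => ModularForm.discriminant τ ^ (n + 1) * G' τ with hH'
    have hG'hol : MDiff G' := hG.sub (mdifferentiable_const.mul (mdiff_jFun.pow (n + 1)))
    have hG'inv : ∀ (γ : SL(2, ℤ)) (τ : ℍ), G' (γ • τ) = G' τ := fun γ τ => by
      simp only [hG', hinv γ τ, jFun_smul]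
    have hH'eq : H' = fun τ => H τ - a * J τ := by
      funext τ
      simp only [hH', hG', hH, hJ]
      ring
    have hH'lim : IsZeroAtImInfty H' := by
      rw [hH'eq]
      simpa [IsZeroAtImInfty, ZeroAtFilter] using ha.sub (hJlim.const_mul a)
    have hH'per : Periodic (H' ∘ ofComplex) (1 : ℝ) := fun w => by
      have h1 := hΔper w
      have h2 := periodic_of_invariant hG'inv w
      simp only [Function.comp_apply] at h1 h2 ⊢
      simp only [hH', h1, h2]
    have hdecay := hH'lim.exp_decay_atImInfty one_pos hH'per ((hΔd.pow (n + 1)).mul hG'hol)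
      hH'lim.isBoundedAtImInfty
    have hO : H' =O[atImInfty] ModularForm.discriminant := by
      refine hdecay.trans ?_
      simpa using ModularForm.exp_isBigO_discriminant
    have hb' : IsBoundedAtImInfty fun τ : ℍ => ModularForm.discriminant τ ^ n * G' τ := by
      have := (Asymptotics.div_isBoundedUnder_of_isBigO hO).isBigO_one ℝ
      refine this.congr_left fun τ => ?_
      simp only [hH', pow_succ]
      field_simp [ModularForm.discriminant_ne_zero τ]
    obtain ⟨p, hp, hpG⟩ := ih G' hG'hol hG'inv hb'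
    refine ⟨p + Polynomial.monomial (n + 1) a, ?_, fun τ => ?_⟩
    · exact (Polynomial.natDegree_add_le _ _).trans
        (max_le (hp.trans (Nat.le_succ n)) (Polynomial.natDegree_monomial_le _))
    · rw [Polynomial.eval_add, Polynomial.eval_monomial, ← hpG]
      simp [hG']

/-- A level one invariant function of moderate growth is a polynomial in `j`. -/
theorem exists_polynomial_jFun {G : ℍ → ℂ} (hG : G ∈ moderateRing)
    (hinv : ∀ (γ : SL(2, ℤ)) (τ : ℍ), G (γ • τ) = G τ) :
    ∃ p : Polynomial ℂ, ∀ τ, G τ = p.eval (jFun τ) := by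
  obtain ⟨h, n, hn⟩ := hG
  obtain ⟨p, -, hp⟩ := exists_polynomial_jFun_aux n G h hinv (by simpa using hn 1)
  exact ⟨p, hp⟩

end FLTAgent.ModularFF
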