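import Mathlib.FieldTheory.PrimitiveElement
import Fermat.Prelude.Thm_ModularCurve_coeff_jqModC_pow_of_lt
import Fermat.Prelude.Thm_ModularCurve_coeff_jqModC_pow_self
import Fermat.Agent.FFBasic.FunctionField
import Fermat.Agent.ModularFF.Field
import Fermat.Agent.ModularFF.LevelOne

/-!
# The degree of the modular function field

`[F : L(j)]` is the index of `Γ₀(N)` (`finrank_adjoin_jElt`), and the field is generated by `j` and
`j_N` (`adjoin_jqN_eq_top`, `functionFieldGeneration`).
-/

set_option autoImplicit false

noncomputable section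

open UpperHalfPlane Complex Filter Function ModularCurve IntermediateField
open scoped Topology Manifold MatrixGroups ModularForm Polynomial

namespace FLTAgent.ModularFF

instance finiteIndex_Gamma0 (N : ℕ) [NeZero N] : (CongruenceSubgroup.Gamma0 N).FiniteIndex :=
  CongruenceSubgroup.IsCongruenceSubgroup.finiteIndex (CongruenceSubgroup.Gamma0_is_congruence N)

instance finite_cosets (N : ℕ) [NeZero N] : Finite (Cosets N) :=
  Subgroup.finite_quotient_of_finiteIndex

/-- A linear dependence over a bigger field descends. -/
theorem linearIndependent_map_coeff {L M : Type*} [Field L] [Field M] [Algebra L M]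
    {ι : Type*} {v : ι → LaurentSeries L} (hv : LinearIndependent L v)
    (s : Finset ι) (c : ι → M)
    (h : ∑ i ∈ s, HahnSeries.C (c i) * coeffMap (algebraMap L M) (v i) = 0) :
    ∀ i ∈ s, c i = 0 := by
  intro i hi
  by_contra hne
  obtain ⟨lam, hlam⟩ : ∃ lam : M →ₗ[L] L, lam (c i) ≠ 0 := by
    let b := Module.Free.chooseBasis L M
    obtain ⟨k, hk⟩ : ∃ k, b.repr (c i) k ≠ 0 := by
      by_contra h
      push Not at h
      exact hne (b.repr.map_eq_zero_iff.mp (Finsupp.ext h))
    exact ⟨b.coord k, hk⟩
  have : ∑ j ∈ s, lam (c j) • v j = 0 := by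
    ext m
    have hm := congrArg (fun S : LaurentSeries M => lam (S.coeff m)) h
    simp only [HahnSeries.coeff_sum, map_sum, HahnSeries.coeff_zero, map_zero] at hm
    rw [HahnSeries.coeff_sum, HahnSeries.coeff_zero, ← hm]
    refine Finset.sum_congr rfl fun j _ => ?_
    rw [HahnSeries.coeff_smul, HahnSeries.C_apply, HahnSeries.coeff_single_zero_mul,
      coeffMap_coeff, mul_comm, ← Algebra.smul_def, map_smul, smul_eq_mul, smul_eq_mul, mul_comm]
  exact hlam (linearIndependent_iff'.mp hv s _ this i hi)

variable (L : Type*) [Field L] [Algebra ℚ L]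
variable (N : ℕ) [NeZero N]

omit [Algebra ℚ L] in
theorem coeff_aeval_jqModC (p : L[X]) :
    (Polynomial.aeval (jqModC L) p).coeff (-(p.natDegree : ℤ)) = p.leadingCoeff := by
  rw [Polynomial.aeval_eq_sum_range, HahnSeries.coeff_sum, Finset.sum_eq_single p.natDegree]
  · rw [Algebra.smul_def, algebraMap_laurentSeries_eq_single, HahnSeries.coeff_single_zero_mul,
      ModularCurve.coeff_jqModC_pow_self, mul_one]
    rfl
  · intro i hi hne
    rw [Algebra.smul_def, algebraMap_laurentSeries_eq_single, HahnSeries.coeff_single_zero_mul,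
      ModularCurve.coeff_jqModC_pow_of_lt, mul_zero]
    simp only [Finset.mem_range] at hi
    omega
  · simp

omit [Algebra ℚ L] in
theorem transcendental_jqModC : Transcendental L (jqModC L) := by
  rintro ⟨p, hp, h⟩
  have := coeff_aeval_jqModC L p
  rw [h, HahnSeries.coeff_zero] at this
  exact hp (Polynomial.leadingCoeff_eq_zero.mp this.symm)

theorem transcendental_jElt : Transcendental L (jElt L N) := by
  intro h
  have := h.algHom (modField L N).val
  rw [show (modField L N).val (jElt L N) = jqModC L from coe_jElt L N] at this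
  exact transcendental_jqModC L this

/-- The subfield `L(j)`. -/
abbrev baseField : IntermediateField L (modField L N) := L⟮jElt L N⟯

instance instAlgebraBase : Algebra L (baseField L N) := inferInstance

instance instAlgebraBaseTop : Algebra (baseField L N) (modField L N) := inferInstance

instance instCharZeroModField : CharZero (modField L N) :=
  haveI : CharZero L := charZero_of_injective_algebraMap (algebraMap ℚ L).injective
  charZero_of_injective_algebraMap (algebraMap L (modField L N)).injective

instance instCharZeroBase : CharZero (baseField L N) :=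
  haveI : CharZero L := charZero_of_injective_algebraMap (algebraMap ℚ L).injective
  charZero_of_injective_algebraMap (algebraMap L (baseField L N)).injective

section Analytic

variable [Algebra L ℂ]

omit [Algebra ℚ L] [NeZero N] in
theorem evalFun_mem_moderateRing (P : MvPolynomial (Divs N) L) :
    evalFun L N P ∈ moderateRing := by
  induction P using MvPolynomial.induction_on with
  | C c =>
    rw [← MvPolynomial.algebraMap_eq, AlgHom.commutes]
    exact moderateRing.algebraMap_mem (algebraMap L ℂ c)
  | add p q hp hq => rw [map_add]; exact add_mem hp hq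
  | mul_X p i hp =>
    rw [map_mul]
    refine mul_mem hp ?_
    rw [evalFun, MvPolynomial.aeval_X]
    exact jAt_mem_moderateRing i.1

omit [Algebra ℚ L] in
/-- The characteristic polynomial of a function over the level one functions. -/
theorem exists_relation_jFun (P : MvPolynomial (Divs N) L) :
    ∃ p : Fin ((CongruenceSubgroup.Gamma0 N).index + 1) → ℂ[X],
      p (Fin.last _) = 1 ∧
      ∀ τ, ∑ i, (p i).eval (jFun τ) * evalFun L N P τ ^ (i : ℕ) = 0 := by
  classical
  have : Fintype (Cosets N) := Fintype.ofFinite _
  set μ := (CongruenceSubgroup.Gamma0 N).index with hμ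
  have hcard : Fintype.card (Cosets N) = μ := by
    rw [hμ, Subgroup.index, Nat.card_eq_fintype_card]
  let F : Cosets N → (ℍ → ℂ) := Quotient.lift
    (fun γ : SL(2, ℤ) => fun τ => evalFun L N P (γ⁻¹ • τ)) fun γ δ h => by
      funext τ
      have h' : γ⁻¹ * δ ∈ CongruenceSubgroup.Gamma0 N := QuotientGroup.leftRel_apply.mp h
      rw [show γ⁻¹ • τ = (γ⁻¹ * δ) • (δ⁻¹ • τ) by rw [← mul_smul, mul_inv_cancel_right],
        evalFun_smul_of_mem_Gamma0 P h']
  have hF : ∀ (γ : SL(2, ℤ)) (τ : ℍ),
      F (QuotientGroup.mk γ) τ = evalFun L N P (γ⁻¹ • τ) := fun _ _ => rfl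
  have hFg : ∀ (g : SL(2, ℤ)) (x : Cosets N) (τ : ℍ), F x (g • τ) = F (g⁻¹ • x) τ := by
    intro g x τ
    induction x using QuotientGroup.induction_on with
    | H γ =>
      show evalFun L N P (γ⁻¹ • g • τ) = evalFun L N P ((g⁻¹ * γ)⁻¹ • τ)
      rw [mul_inv_rev, inv_inv, mul_smul]
  have hFmem : ∀ x, F x ∈ moderateRing := by
    intro x
    induction x using QuotientGroup.induction_on with
    | H γ => exact smul_mem_moderateRing (evalFun_mem_moderateRing L N P) γ⁻¹
  let G : Polynomial (↥moderateRing) :=
    ∏ x, (Polynomial.X - Polynomial.C ⟨F x, hFmem x⟩)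
  have hGdeg : G.natDegree = μ := by
    rw [Polynomial.natDegree_finsetProd_X_sub_C_eq_card, Finset.card_univ, hcard]
  have hGmonic : G.Monic := Polynomial.monic_prod_of_monic _ _ fun x _ => Polynomial.monic_X_sub_C _
  -- evaluation of coefficients at a point
  let ev : ℍ → (↥moderateRing →+* ℂ) := fun τ =>
    (Pi.evalRingHom (fun _ : ℍ => ℂ) τ).comp moderateRing.val.toRingHom
  have hGev : ∀ τ, G.map (ev τ) = ∏ x, (Polynomial.X - Polynomial.C (F x τ)) := by
    intro τ
    simp only [G, Polynomial.map_prod, Polynomial.map_sub, Polynomial.map_X, Polynomial.map_C]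
    rfl
  have hinv : ∀ (i : ℕ) (g : SL(2, ℤ)) (τ : ℍ),
      ((G.coeff i : ↥moderateRing) : ℍ → ℂ) (g • τ) = ((G.coeff i : ↥moderateRing) : ℍ → ℂ) τ := by
    intro i g τ
    show ev (g • τ) (G.coeff i) = ev τ (G.coeff i)
    rw [← Polynomial.coeff_map, ← Polynomial.coeff_map, hGev, hGev]
    congr 1
    simp_rw [hFg]
    exact Equiv.prod_comp (MulAction.toPerm g⁻¹) fun x => (Polynomial.X - Polynomial.C (F x τ))
  have hp : ∀ i : Fin (μ + 1), ∃ p : ℂ[X], ∀ τ,
      ((G.coeff i : ↥moderateRing) : ℍ → ℂ) τ = p.eval (jFun τ) := fun i =>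
    exists_polynomial_jFun (G.coeff i).2 (hinv i)
  choose p hp using hp
  refine ⟨Function.update p (Fin.last μ) 1, Function.update_self .., fun τ => ?_⟩
  have hcoe : ∀ i : Fin (μ + 1), (Function.update p (Fin.last μ) 1 i).eval (jFun τ)
      = ev τ (G.coeff i) := by
    intro i
    rcases eq_or_ne i (Fin.last μ) with rfl | hi
    · rw [Function.update_self, Polynomial.eval_one, Fin.val_last, ← hGdeg,
        hGmonic.coeff_natDegree, map_one]
    · rw [Function.update_of_ne hi, ← hp]
      rfl
  simp_rw [hcoe, ← Polynomial.coeff_map]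
  rw [Fin.sum_univ_eq_sum_range (fun i => (G.map (ev τ)).coeff i * evalFun L N P τ ^ i),
    ← Polynomial.eval_eq_sum_range' (n := μ + 1) (by rw [hGmonic.natDegree_map, hGdeg]; omega),
    hGev, Polynomial.eval_prod]
  refine Finset.prod_eq_zero (Finset.mem_univ (QuotientGroup.mk 1)) ?_
  rw [Polynomial.eval_sub, Polynomial.eval_X, Polynomial.eval_C, hF, inv_one, one_smul, sub_self]

/-- Every polynomial expression in the generators has degree at most the index over `L(j)`. -/
theorem exists_annihilator (P : MvPolynomial (Divs N) L) :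
    ∃ f : (baseField L N)[X], f ≠ 0 ∧ f.natDegree ≤ (CongruenceSubgroup.Gamma0 N).index ∧
      Polynomial.aeval (evalField L N P) f = 0 := by
  classical
  have hrel := exists_relation_jFun L N P
  set μ := (CongruenceSubgroup.Gamma0 N).index with hμ
  clear_value μ
  obtain ⟨p, hlast, hp⟩ := hrel
  set A := Finset.univ.sup fun i => (p i).natDegree
  let v : ℕ × Fin (μ + 1) → LaurentSeries L := fun ab =>
    jqModC L ^ ab.1 * (evalField L N P : LaurentSeries L) ^ (ab.2 : ℕ)
  set s : Finset (ℕ × Fin (μ + 1)) := Finset.range (A + 1) ×ˢ Finset.univ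
  have hsum : ∑ ab ∈ s, HahnSeries.C ((p ab.2).coeff ab.1) *
      coeffMap (algebraMap L ℂ) (v ab) = 0 := by
    refine HasLaurent.eq_zero (h := 1) one_pos ?_
    let g : ℍ → ℂ := ∑ ab ∈ s,
      (fun _ => (p ab.2).coeff ab.1) * (jFun ^ ab.1 * evalFun L N P ^ (ab.2 : ℕ))
    have hg : g = 0 := by
      funext τ
      rw [Pi.zero_apply, ← hp τ]
      simp only [g, s, Finset.sum_apply, Pi.mul_apply, Pi.pow_apply]
      rw [Finset.sum_product_right]
      refine Finset.sum_congr rfl fun i _ => ?_
      rw [Polynomial.eval_eq_sum_range' (n := A + 1)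
        (Nat.lt_succ_of_le (Finset.le_sup (f := fun i => (p i).natDegree) (Finset.mem_univ i))),
        Finset.sum_mul]
      refine Finset.sum_congr rfl fun a _ => ?_
      ring
    rw [← hg]
    show (g, _) ∈ laurentGraph 1
    have hmem : ∑ ab ∈ s, (((fun _ => (p ab.2).coeff ab.1) : ℍ → ℂ),
        (HahnSeries.C ((p ab.2).coeff ab.1) : LaurentSeries ℂ)) *
        ((jFun, jqModC ℂ) ^ ab.1 *
          (evalFun L N P, toComplexSeries L (evalField L N P : LaurentSeries L)) ^ (ab.2 : ℕ))
          ∈ laurentGraph 1 :=
      sum_mem fun ab _ => mul_mem (hasLaurent_const _)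
        (mul_mem (pow_mem hasLaurent_jFun _) (pow_mem (hasLaurent_evalFun P) _))
    convert! hmem using 1
    refine Prod.ext (by simp [g, Prod.fst_sum]) ?_
    rw [Prod.snd_sum]
    refine Finset.sum_congr rfl fun ab _ => ?_
    simp only [Prod.snd_mul, Prod.pow_snd, v, map_mul, map_pow, toComplexSeries]
    rw [show coeffMap (algebraMap L ℂ) (jqModC L) = jqModC ℂ from map_jqModC _]
  by_cases hv : LinearIndepOn L v (↑s : Set (ℕ × Fin (μ + 1)))
  · -- impossible
    have hall : ∀ ab ∈ s, (p ab.2).coeff ab.1 = 0 := by
      have hv' : LinearIndependent L fun x : (↑s : Set (ℕ × Fin (μ + 1))) => v x := hv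
      intro ab hab
      exact linearIndependent_map_coeff hv' Finset.univ (fun x => (p x.1.2).coeff x.1.1)
        ((Finset.sum_coe_sort s (fun ab => HahnSeries.C ((p ab.2).coeff ab.1) *
          coeffMap (algebraMap L ℂ) (v ab))).trans hsum) ⟨ab, hab⟩ (Finset.mem_univ _)
    have := hall (0, Fin.last μ) (by simp [s])
    rw [hlast] at this
    simp at this
  rw [linearIndepOn_finset_iff] at hv
  push Not at hv
  obtain ⟨c, hc₀, i₀, hi₀, hci₀⟩ := hv
  have hc : ∑ ab ∈ s, HahnSeries.C (c ab) * v ab = 0 := by
    simpa only [HahnSeries.C_mul_eq_smul] using hc₀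
  let t : baseField L N := ⟨jElt L N, mem_adjoin_simple_self L _⟩
  let q : Fin (μ + 1) → L[X] := fun i =>
    ∑ a ∈ Finset.range (A + 1), Polynomial.monomial a (c (a, i))
  let f : (baseField L N)[X] := ∑ i : Fin (μ + 1),
    Polynomial.monomial (i : ℕ) (Polynomial.aeval t (q i))
  refine ⟨f, ?_, ?_, ?_⟩
  · intro hf
    have h1 := congrArg (fun g : (baseField L N)[X] => g.coeff (i₀.2 : ℕ)) hf
    simp only [f, Polynomial.finsetSum_coeff, Polynomial.coeff_monomial,
      Polynomial.coeff_zero] at h1
    rw [Finset.sum_eq_single i₀.2 (fun i _ hi => if_neg fun h => hi (Fin.ext h))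
      (by simp), if_pos rfl] at h1
    have ht : Transcendental L t := fun h =>
      transcendental_jElt L N (h.algHom (baseField L N).val)
    have h2 := congrArg (fun g : L[X] => g.coeff i₀.1)
      (transcendental_iff.mp ht _ h1)
    simp only [q, Polynomial.finsetSum_coeff, Polynomial.coeff_monomial,
      Polynomial.coeff_zero] at h2
    rw [Finset.sum_eq_single i₀.1 (fun a _ ha => if_neg ha) (fun h => ?_), if_pos rfl] at h2
    · exact hci₀ h2
    · exact absurd (Finset.mem_product.mp hi₀).1 h
  · refine (Polynomial.natDegree_sum_le _ _).trans (Finset.fold_max_le _ |>.mpr ⟨Nat.zero_le _, ?_⟩)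
    exact fun i _ => (Polynomial.natDegree_monomial_le _).trans (Nat.le_of_lt_succ i.isLt)
  · refine Subtype.ext ?_
    have hq : ∀ i, ((Polynomial.aeval (jElt L N) (q i) : modField L N) : LaurentSeries L) =
        ∑ a ∈ Finset.range (A + 1), HahnSeries.C (c (a, i)) * jqModC L ^ a := by
      intro i
      show (modField L N).val (Polynomial.aeval (jElt L N) (q i)) = _
      rw [← Polynomial.aeval_algHom_apply, map_sum]
      refine Finset.sum_congr rfl fun a _ => ?_
      rw [Polynomial.aeval_monomial, algebraMap_laurentSeries_eq_single, ← HahnSeries.C_apply]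
      exact congrArg (fun x => HahnSeries.C (c (a, i)) * x ^ a) (coe_jElt L N)
    rw [ZeroMemClass.coe_zero, map_sum, AddSubmonoidClass.coe_finsetSum]
    refine Eq.trans ?_ hc
    rw [Finset.sum_product_right]
    refine Finset.sum_congr rfl fun i _ => ?_
    rw [Polynomial.aeval_monomial, MulMemClass.coe_mul, SubmonoidClass.coe_pow]
    have he : algebraMap (baseField L N) (modField L N) (Polynomial.aeval t (q i))
        = Polynomial.aeval (jElt L N) (q i) :=
      (Polynomial.aeval_algHom_apply (baseField L N).val t (q i)).symm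
    rw [he, hq, Finset.sum_mul]
    refine Finset.sum_congr rfl fun a _ => ?_
    rw [mul_assoc]

theorem isIntegral_gen (i : Divs N) : IsIntegral (baseField L N) (gen L N i) := by
  obtain ⟨f, hf, -, hfi⟩ := exists_annihilator L N (MvPolynomial.X i)
  rw [evalField_X] at hfi
  exact isAlgebraic_iff_isIntegral.mp ⟨f, hf, hfi⟩

omit [Algebra L ℂ] in
theorem adjoin_gen_eq_top :
    IntermediateField.adjoin (baseField L N) (Set.range (gen L N)) = ⊤ := by
  refine eq_top_iff.mpr fun x _ => ?_
  obtain ⟨P, Q, -, rfl⟩ := exists_eq_div L N x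
  have : ∀ R, evalField L N R ∈
      IntermediateField.adjoin (baseField L N) (Set.range (gen L N)) := by
    intro R
    induction R using MvPolynomial.induction_on with
    | C c =>
      rw [← MvPolynomial.algebraMap_eq, AlgHom.commutes,
        IsScalarTower.algebraMap_apply L (baseField L N) (modField L N)]
      exact IntermediateField.algebraMap_mem _ _
    | add p q hp hq => rw [map_add]; exact add_mem hp hq
    | mul_X p i hp =>
      rw [map_mul, evalField_X]
      exact mul_mem hp (subset_adjoin _ _ ⟨i, rfl⟩)
  exact div_mem (this P) (this Q)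

theorem algebraAdjoin_gen_eq_top :
    Algebra.adjoin (baseField L N) (Set.range (gen L N)) = ⊤ := by
  rw [← IntermediateField.adjoin_toSubalgebra_of_isAlgebraic
    (by rintro _ ⟨i, rfl⟩; exact (isIntegral_gen L N i).isAlgebraic), adjoin_gen_eq_top]
  exact IntermediateField.top_toSubalgebra

instance finiteDimensional_modField : FiniteDimensional (baseField L N) (modField L N) := by
  have h := fg_adjoin_of_finite (R := baseField L N) (Set.finite_range (gen L N))
    (by rintro _ ⟨i, rfl⟩; exact isIntegral_gen L N i)
  rw [algebraAdjoin_gen_eq_top, Algebra.top_toSubmodule] at h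
  exact ⟨h⟩

/-- The field of level `N` is a function field. -/
instance isFunctionField_modField : FFBasic.IsFunctionField L (modField L N) :=
  ⟨⟨jElt L N, transcendental_jElt L N, inferInstance⟩⟩

theorem finrank_le_index :
    Module.finrank (baseField L N) (modField L N) ≤ (CongruenceSubgroup.Gamma0 N).index := by
  -- every element times a nonzero element of the base is a polynomial in the generators
  let K := baseField L N
  have halg : ∀ x : modField L N, x ∈ Algebra.adjoin K (Set.range (gen L N)) := fun x => by
    rw [algebraAdjoin_gen_eq_top]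
    trivial
  have hden : ∀ x : modField L N, ∃ c : K, c ≠ 0 ∧
      algebraMap K (modField L N) c * x ∈ (evalField L N).range := by
    intro x
    have hpoly : ∀ r : L[X], Polynomial.aeval (jElt L N) r ∈ (evalField L N).range := fun r =>
      ⟨Polynomial.aeval (MvPolynomial.X (divOne N)) r, by
        show evalField L N _ = _
        rw [← Polynomial.aeval_algHom_apply, evalField_X]; rfl⟩
    induction halg x using Algebra.adjoin_induction with
    | mem y hy =>
      obtain ⟨i, rfl⟩ := hy
      exact ⟨1, one_ne_zero, MvPolynomial.X i, by simp⟩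
    | algebraMap k =>
      obtain ⟨r, s, hk⟩ := (mem_adjoin_simple_iff (F := L) (k : modField L N)).mp k.2
      by_cases hs : Polynomial.aeval (jElt L N) s = 0
      · refine ⟨1, one_ne_zero, ?_⟩
        have : algebraMap K (modField L N) k = 0 := by
          show (k : modField L N) = 0
          rw [hk, hs, div_zero]
        rw [this, mul_zero]
        exact zero_mem _
      · refine ⟨⟨_, Polynomial.aeval_mem_adjoin_singleton L (jElt L N) (p := s) |>
          fun h => IntermediateField.algebra_adjoin_le_adjoin L _ h⟩,
          fun h => hs (congrArg Subtype.val h), ?_⟩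
        show Polynomial.aeval (jElt L N) s * (k : modField L N) ∈ _
        rw [hk, mul_div_cancel₀ _ hs]
        exact hpoly r
    | add y z _ _ hy hz =>
      obtain ⟨c, hc, hcy⟩ := hy
      obtain ⟨d, hd, hdz⟩ := hz
      -- `c` and `d` may be taken in `L[j]`
      obtain ⟨c', hc', hc'y, hc'm⟩ := improve c hc y hcy hpoly
      obtain ⟨d', hd', hd'z, hd'm⟩ := improve d hd z hdz hpoly
      refine ⟨c' * d', mul_ne_zero hc' hd', ?_⟩
      rw [map_mul, mul_add]
      refine add_mem ?_ ?_
      · rw [mul_comm (algebraMap K _ c'), mul_assoc]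
        exact mul_mem hd'm hc'y
      · rw [mul_assoc]
        exact mul_mem hc'm hd'z
    | mul y z _ _ hy hz =>
      obtain ⟨c, hc, hcy⟩ := hy
      obtain ⟨d, hd, hdz⟩ := hz
      refine ⟨c * d, mul_ne_zero hc hd, ?_⟩
      rw [map_mul, mul_mul_mul_comm]
      exact mul_mem hcy hdz
  have : Algebra.IsSeparable (baseField L N) (modField L N) :=
    Algebra.IsAlgebraic.isSeparable_of_perfectField
  obtain ⟨α, hα⟩ := Field.exists_primitive_element (baseField L N) (modField L N)
  obtain ⟨c, hc, P, hP⟩ := hden α
  have hint : IsIntegral K (evalField L N P) := Algebra.IsIntegral.isIntegral _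
  have htop : K⟮evalField L N P⟯ = ⊤ := by
    rw [eq_top_iff, ← hα, adjoin_simple_le_iff]
    have hc' : algebraMap K (modField L N) c ≠ 0 := (map_ne_zero _).mpr hc
    have : α = evalField L N P / algebraMap K (modField L N) c :=
      (eq_div_iff hc').mpr (by rw [mul_comm]; exact hP.symm)
    rw [this]
    exact div_mem (mem_adjoin_simple_self K _) (IntermediateField.algebraMap_mem _ _)
  obtain ⟨f, hf, hdeg, hfP⟩ := exists_annihilator L N P
  calc Module.finrank K (modField L N)
      = (minpoly K (evalField L N P)).natDegree :=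
        ((Field.primitive_element_iff_minpoly_natDegree_eq K (evalField L N P)).mp htop).symm
    _ ≤ f.natDegree := Polynomial.natDegree_le_of_dvd (minpoly.dvd K _ hfP) hf
    _ ≤ _ := hdeg
where
  improve (c : baseField L N) (hc : c ≠ 0) (y : modField L N)
      (hy : algebraMap (baseField L N) (modField L N) c * y ∈ (evalField L N).range)
      (hpoly : ∀ r : L[X], Polynomial.aeval (jElt L N) r ∈ (evalField L N).range) :
      ∃ c' : baseField L N, c' ≠ 0 ∧
        algebraMap (baseField L N) (modField L N) c' * y ∈ (evalField L N).range ∧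
        algebraMap (baseField L N) (modField L N) c' ∈ (evalField L N).range := by
    obtain ⟨r, s, hk⟩ := (mem_adjoin_simple_iff (F := L) (c : modField L N)).mp c.2
    have hs : Polynomial.aeval (jElt L N) s ≠ 0 := fun h => hc (Subtype.ext (by
      rw [hk, h, div_zero]; rfl))
    refine ⟨⟨_, IntermediateField.algebra_adjoin_le_adjoin L _
      (Polynomial.aeval_mem_adjoin_singleton L (jElt L N) (p := r))⟩, ?_, ?_, hpoly r⟩
    · intro h
      have h0 : Polynomial.aeval (jElt L N) r = 0 := congrArg Subtype.val h
      exact hc (Subtype.ext (by rw [hk, h0, zero_div]; rfl))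
    · show Polynomial.aeval (jElt L N) r * y ∈ _
      have : Polynomial.aeval (jElt L N) r
          = Polynomial.aeval (jElt L N) s * (c : modField L N) := by
        rw [hk, mul_div_cancel₀ _ hs]
      rw [this, mul_assoc]
      exact mul_mem (hpoly s) hy

/-- Common restriction of all the embeddings at `∞`. -/
theorem cuspHom_base (x : Cosets N) (k : baseField L N) :
    cosetHom L (cuspRule N) x (k : modField L N) =
      cosetHom L (cuspRule N) (QuotientGroup.mk 1) (k : modField L N) := by
  have := IntermediateField.algHom_ext_of_eq_adjoin L (S := baseField L N) rfl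
    (φ₁ := (cosetHom L (cuspRule N) x).comp (baseField L N).val)
    (φ₂ := (cosetHom L (cuspRule N) (QuotientGroup.mk 1)).comp (baseField L N).val) fun y hy => by
      obtain rfl : y = jElt L N := hy
      exact (cuspRule N).unique (cosetHom_jElt _ x) (cosetHom_jElt _ _)
  exact congrArg (fun φ : baseField L N →ₐ[L] LaurentSeries ℂ => φ k) this

theorem index_le_natDegree_minpoly :
    (CongruenceSubgroup.Gamma0 N).index ≤
      (minpoly (baseField L N) (gen L N (divTop N))).natDegree := by
  classical
  have : Fintype (Cosets N) := Fintype.ofFinite _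
  let φ : baseField L N →+* LaurentSeries ℂ :=
    ((cosetHom L (cuspRule N) (QuotientGroup.mk 1)).comp (baseField L N).val).toRingHom
  set m := minpoly (baseField L N) (gen L N (divTop N))
  have hm : m ≠ 0 := minpoly.ne_zero (isIntegral_gen L N _)
  let r : Cosets N → LaurentSeries ℂ := fun x => cosetHom L (cuspRule N) x (gen L N (divTop N))
  have hsub : Finset.univ.image r ⊆ (m.map φ).roots.toFinset := by
    intro y hy
    obtain ⟨x, -, rfl⟩ := Finset.mem_image.mp hy
    rw [Multiset.mem_toFinset,
      Polynomial.mem_roots ((Polynomial.map_ne_zero_iff φ.injective).mpr hm),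
      Polynomial.IsRoot, Polynomial.eval_map]
    have hφ : φ = (cosetHom L (cuspRule N) x).toRingHom.comp
        (algebraMap (baseField L N) (modField L N)) :=
      RingHom.ext fun k => (cuspHom_base L N x k).symm
    rw [hφ]
    refine (Polynomial.hom_eval₂ m (algebraMap (baseField L N) (modField L N))
      (cosetHom L (cuspRule N) x).toRingHom (gen L N (divTop N))).symm.trans ?_
    rw [← Polynomial.aeval_def, minpoly.aeval, map_zero]
  have hcard := Finset.card_le_card hsub
  rw [Finset.card_image_of_injective _ (cosetHom_gen_injective (cuspRule N)), Finset.card_univ]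
    at hcard
  calc (CongruenceSubgroup.Gamma0 N).index = Fintype.card (Cosets N) := by
        rw [Subgroup.index, Nat.card_eq_fintype_card]
    _ ≤ Multiset.card (m.map φ).roots := hcard.trans (Multiset.toFinset_card_le _)
    _ ≤ (m.map φ).natDegree := Polynomial.card_roots' _
    _ = m.natDegree := Polynomial.natDegree_map _

/-- `[F : L(j)] = [SL(2,ℤ) : Γ₀(N)]`. -/
theorem finrank_adjoin_jElt :
    Module.finrank (baseField L N) (modField L N) = (CongruenceSubgroup.Gamma0 N).index := by
  refine le_antisymm (finrank_le_index L N) ((index_le_natDegree_minpoly L N).trans ?_)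
  exact minpoly.natDegree_le _

theorem natDegree_minpoly_jqN :
    (minpoly (baseField L N) (gen L N (divTop N))).natDegree
      = (CongruenceSubgroup.Gamma0 N).index :=
  le_antisymm ((minpoly.natDegree_le _).trans (finrank_adjoin_jElt L N).le)
    (index_le_natDegree_minpoly L N)

/-- The field is generated by `j` and `j_N`. -/
theorem adjoin_jqN_eq_top : (baseField L N)⟮gen L N (divTop N)⟯ = ⊤ := by
  rw [Field.primitive_element_iff_minpoly_natDegree_eq, natDegree_minpoly_jqN,
    finrank_adjoin_jElt]

theorem modField_eq_adjoin_pair : modField L N = modularFunctionFieldC L N := by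
  apply le_antisymm
  · rw [modField_eq_adjoin, adjoin_le_iff]
    rintro _ ⟨i, rfl⟩
    have h : gen L N i ∈ (baseField L N)⟮gen L N (divTop N)⟯ := by
      rw [adjoin_jqN_eq_top]; trivial
    have h' : gen L N i ∈ IntermediateField.adjoin L
        (({jElt L N} : Set (modField L N)) ∪ {gen L N (divTop N)}) := by
      rw [← adjoin_adjoin_left]
      exact h
    have h2 : (gen L N i : LaurentSeries L) ∈ (IntermediateField.adjoin L
        (({jElt L N} : Set (modField L N)) ∪ {gen L N (divTop N)})).map (modField L N).val :=
      ⟨_, h', rfl⟩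
    rw [IntermediateField.adjoin_map, Set.image_union, Set.image_singleton,
      Set.image_singleton] at h2
    refine (adjoin_le_iff.mpr ?_) h2
    rintro y (rfl | rfl)
    · show (jElt L N : LaurentSeries L) ∈ _
      rw [coe_jElt]; exact jqModC_mem L N
    · exact jqNModC_mem L N
  · rw [modularFunctionFieldC, adjoin_le_iff]
    rintro y (rfl | rfl)
    · rw [← coe_jElt L N]; exact (jElt L N).2
    · exact (gen L N (divTop N)).2

end Analytic

theorem coeffEmb_rat_apply (x : LaurentSeries ℚ) : coeffEmb ℚ x = x := by
  rw [coeffEmb, coeffMap_congr (g := RingHom.id ℚ) (Subsingleton.elim _ _), coeffMap_id]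

/-- Generation of the function field over `ℚ` by `j` and `j_N`. -/
theorem functionFieldGeneration : FunctionFieldGeneration N := by
  intro d hd _
  have h : qExpand ℚ d jq ∈ modField ℚ N := by
    have := coeffEmb_mem_laurentBaseChange ℚ (jqd_mem_full N hd)
    rwa [coeffEmb_rat_apply] at this
  rw [modField_eq_adjoin_pair] at h
  exact h

end FLTAgent.ModularFF
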