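import Mathlib.LinearAlgebra.LinearIndependent.Lemmas
import Mathlib.RingTheory.RootsOfUnity.PrimitiveRoots
import Mathlib.GroupTheory.GroupAction.Basic
import Fermat.Agent.FFBasic.Degree
import Fermat.Agent.ModularFF.Rules

/-!
# Zeros of a function and orbits of a rotation

For a full set of embeddings of a function field into Laurent series, permuted by a rotation, the
zeros of `t` correspond to the orbits of the rotation (`zeros_eq_orbits`).  Used to count zeros and
poles of `j - c` in `Genus`.
-/

set_option autoImplicit false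

noncomputable section

open AlgebraicCurve FLTAgent.FFBasic IntermediateField
open scoped MatrixGroups

namespace FLTAgent.ModularFF

variable {K F : Type*} [Field K] [Field F] [Algebra K F] [Algebra K ℂ]

theorem order_nonneg_of_algebraMap (φ : F →ₐ[K] LaurentSeries ℂ) (a : K) :
    0 ≤ (φ (algebraMap K F a)).order := by
  rw [φ.commutes, HahnSeries.algebraMap_apply', PowerSeries.algebraMap_apply,
    HahnSeries.ofPowerSeries_C, HahnSeries.C_apply]
  rcases eq_or_ne (algebraMap K ℂ a) 0 with h | h
  · simp [h]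
  · rw [HahnSeries.order_single h]

theorem order_inv_series {s : LaurentSeries ℂ} (hs : s ≠ 0) : s⁻¹.order = -s.order := by
  have h := HahnSeries.order_mul (inv_ne_zero hs) hs
  rw [inv_mul_cancel₀ hs, HahnSeries.order_one] at h
  omega

/-- The valuation ring of an embedding into Laurent series. -/
def embRing (φ : F →ₐ[K] LaurentSeries ℂ) : ValuationSubring F where
  carrier := {f | 0 ≤ (φ f).order}
  mul_mem' {a b} ha hb := by
    show 0 ≤ (φ (a * b)).order
    simp only [Set.mem_ofPred_eq] at ha hb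
    rcases eq_or_ne (φ a) 0 with h | h
    · simp [map_mul, h]
    rcases eq_or_ne (φ b) 0 with h' | h'
    · simp [map_mul, h']
    rw [map_mul, HahnSeries.order_mul h h']
    omega
  one_mem' := by simp
  add_mem' {a b} ha hb := by
    show 0 ≤ (φ (a + b)).order
    simp only [Set.mem_ofPred_eq] at ha hb
    rcases eq_or_ne (φ a + φ b) 0 with h | h
    · simp [map_add, h]
    rw [map_add]
    exact le_trans (le_min ha hb) (HahnSeries.min_order_le_order_add h)
  zero_mem' := by simp
  neg_mem' {a} ha := by simpa using ha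
  mem_or_inv_mem' a := by
    rcases eq_or_ne a 0 with rfl | ha
    · simp
    have h : φ a ≠ 0 := (map_ne_zero φ).mpr ha
    show 0 ≤ (φ a).order ∨ 0 ≤ (φ a⁻¹).order
    rw [map_inv₀, order_inv_series h]
    omega

@[simp] theorem mem_embRing {φ : F →ₐ[K] LaurentSeries ℂ} {f : F} :
    f ∈ embRing φ ↔ 0 ≤ (φ f).order := Iff.rfl

theorem embRing_ne_top {φ : F →ₐ[K] LaurentSeries ℂ} {t : F} (ht : 0 < (φ t).order) :
    embRing φ ≠ ⊤ := fun h => by
  have hφ : φ t ≠ 0 := fun h0 => by simp [h0] at ht
  have : t⁻¹ ∈ embRing φ := h ▸ ValuationSubring.mem_top _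
  rw [mem_embRing, map_inv₀, order_inv_series hφ] at this
  omega

variable [IsFunctionField K F]

/-- The place of an embedding into Laurent series. -/
def embPlace (φ : F →ₐ[K] LaurentSeries ℂ) (h : embRing φ ≠ ⊤) : Place K F :=
  placeOfValuationSubring (embRing φ) (order_nonneg_of_algebraMap φ) h

theorem order_eq_mul_ord (φ : F →ₐ[K] LaurentSeries ℂ) (h : embRing φ ≠ ⊤) :
    ∃ k : ℤ, 0 < k ∧ ∀ f : F, f ≠ 0 → (φ f).order = k * (embPlace φ h).ord f := by
  set v := embPlace φ h
  obtain ⟨π, hπ⟩ := IsDiscreteValuationRing.exists_irreducible v.toValuationSubring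
  have hπ0 : (π : F) ≠ 0 := fun h0 => hπ.ne_zero (Subtype.ext h0)
  have hu : ∀ u : v.toValuationSubringˣ, (φ ((u : v.toValuationSubring) : F)).order = 0 := by
    intro u
    have h1 : 0 ≤ (φ ((u : v.toValuationSubring) : F)).order := (u : v.toValuationSubring).2
    have h2 : 0 ≤ (φ ((u⁻¹ : v.toValuationSubringˣ) : v.toValuationSubring)).order :=
      ((u⁻¹ : v.toValuationSubringˣ) : v.toValuationSubring).2
    have hmul : φ ((u : v.toValuationSubring) : F) *
        φ ((u⁻¹ : v.toValuationSubringˣ) : v.toValuationSubring) = 1 := by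
      rw [← map_mul, ← MulMemClass.coe_mul, ← Units.val_mul, mul_inv_cancel]
      simp
    have := HahnSeries.order_mul (left_ne_zero_of_mul_eq_one hmul)
      (right_ne_zero_of_mul_eq_one hmul)
    rw [hmul, HahnSeries.order_one] at this
    omega
  have hpow : ∀ n : ℤ, (φ ((π : F) ^ n)).order = n * (φ (π : F)).order := by
    have hp : φ (π : F) ≠ 0 := (map_ne_zero φ).mpr hπ0
    intro n
    rw [map_zpow₀]
    induction n using Int.induction_on with
    | zero => simp
    | succ i ih =>
      rw [zpow_add_one₀ hp, HahnSeries.order_mul (zpow_ne_zero _ hp) hp, ih]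
      ring
    | pred i ih =>
      rw [zpow_sub_one₀ hp, HahnSeries.order_mul (zpow_ne_zero _ hp) (inv_ne_zero hp), ih,
        order_inv_series hp]
      ring
  refine ⟨(φ (π : F)).order, ?_, fun f hf => ?_⟩
  · rcases (show 0 ≤ (φ (π : F)).order from π.2).lt_or_eq with hlt | heq
    · exact hlt
    · exfalso
      have hinv : (π : F)⁻¹ ∈ embRing φ := by
        rw [mem_embRing, map_inv₀, order_inv_series ((map_ne_zero φ).mpr hπ0), ← heq, neg_zero]
      exact hπ.not_isUnit ⟨⟨π, ⟨_, hinv⟩, Subtype.ext (mul_inv_cancel₀ hπ0),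
        Subtype.ext (inv_mul_cancel₀ hπ0)⟩, rfl⟩
  · obtain ⟨u, hf'⟩ := v.exists_unit_mul_zpow hf hπ
    conv_lhs => rw [hf']
    rw [map_mul, HahnSeries.order_mul ((map_ne_zero φ).mpr fun h0 => hf (by rw [hf', h0, zero_mul]))
      ((map_ne_zero φ).mpr (zpow_ne_zero _ hπ0)), hu, hpow]
    ring

variable [IsAlgClosed K]

omit [Algebra K ℂ] in
/-- Every element is approximated by combinations of `u_j`, `ord u_j = j`. -/
theorem exists_approx_filt (v : Place K F) (S : Submodule K F)
    (hS : ∀ j : ℤ, ∃ u ∈ S, u ≠ 0 ∧ v.ord u = j) (f : F) (m : ℤ) :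
    ∃ g ∈ S, f - g ∈ filt v m := by
  rcases le_total m (v.ord f) with hm | hm
  · exact ⟨0, zero_mem _, by rw [sub_zero]; exact mem_filt_of_le hm⟩
  obtain ⟨d, rfl⟩ := Int.le.dest hm
  induction d with
  | zero => exact ⟨0, zero_mem _, by rw [sub_zero]; exact mem_filt_of_le (by simp)⟩
  | succ d ih =>
    obtain ⟨g, hgS, hg⟩ := ih (by omega)
    obtain ⟨u, huS, hu0, huord⟩ := hS (v.ord f + d)
    have hq : (f - g) * u⁻¹ ∈ v.toValuationSubring := by
      have h1 : u⁻¹ ∈ filt v (-(v.ord f + d)) := mem_filt_of_le (by rw [v.ord_inv, huord])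
      have := mul_mem_filt hg h1
      rwa [add_neg_cancel, mem_filt_zero] at this
    obtain ⟨c, hc⟩ := exists_sub_mem_filt_one v hq
    refine ⟨g + c • u, add_mem hgS (S.smul_mem c huS), ?_⟩
    have h2 : u ∈ filt v (v.ord f + d) := mem_filt_of_le huord.ge
    have := mul_mem_filt hc h2
    have he : ((f - g) * u⁻¹ - algebraMap K F c) * u = f - (g + c • u) := by
      rw [sub_mul, mul_assoc, inv_mul_cancel₀ hu0, Algebra.smul_def]
      ring
    rw [he] at this
    convert! this using 2
    push_cast
    ring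

theorem card_le_ord_of_same_place {ι : Type*} [Fintype ι] (φ : ι → F →ₐ[K] LaurentSeries ℂ)
    (hinj : Function.Injective φ) {t : F} (T : LaurentSeries ℂ) (hT : ∀ i, φ i t = T)
    (v : Place K F) (hv : 0 < v.ord t) (k : ℤ) (hk : 0 < k)
    (hord : ∀ i (f : F), f ≠ 0 → (φ i f).order = k * v.ord f) :
    (Fintype.card ι : ℤ) ≤ v.ord t := by
  classical
  by_contra hlt
  push Not at hlt
  have ht0 : t ≠ 0 := fun h => by simp [h] at hv
  obtain ⟨n, hn⟩ : ∃ n : ℕ, v.ord t = n := ⟨(v.ord t).toNat, (Int.toNat_of_nonneg hv.le).symm⟩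
  have hn0 : 0 < n := by omega
  obtain ⟨π, hπ0, hπ⟩ := exists_ord_eq v 1
  -- a vector orthogonal to the values on `π^l`, `l < n`
  let M : (ι → LaurentSeries ℂ) →ₗ[LaurentSeries ℂ] (Fin n → LaurentSeries ℂ) :=
    LinearMap.pi fun l => ∑ i, (φ i (π ^ (l : ℕ))) • LinearMap.proj i
  obtain ⟨a, ha, ha0⟩ := (Submodule.ne_bot_iff _).mp (LinearMap.ker_ne_bot_of_finrank_lt (f := M)
    (by rw [Module.finrank_fin_fun, Module.finrank_pi]; omega))
  have haM : ∀ l : Fin n, ∑ i, a i * φ i (π ^ (l : ℕ)) = 0 := fun l => by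
    have := congrFun (LinearMap.mem_ker.mp ha) l
    simpa [M, mul_comm] using this
  let Φ : F → LaurentSeries ℂ := fun f => ∑ i, a i * φ i f
  have hΦ : ∀ f, Φ f = ∑ i, a i * φ i f := fun _ => rfl
  let S : Submodule K F :=
    { carrier := {f | Φ f = 0}
      add_mem' := fun {x y} (hx : Φ x = 0) (hy : Φ y = 0) => by
        show Φ (x + y) = 0
        simp only [hΦ, map_add, mul_add, Finset.sum_add_distrib] at hx hy ⊢
        rw [hx, hy, add_zero]
      zero_mem' := by simp [hΦ]
      smul_mem' := fun c x (hx : Φ x = 0) => by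
        show Φ (c • x) = 0
        simp only [hΦ] at hx ⊢
        have : ∀ i, a i * φ i (c • x) = algebraMap K (LaurentSeries ℂ) c * (a i * φ i x) :=
          fun i => by rw [Algebra.smul_def, map_mul, AlgHom.commutes]; ring
        simp only [this, ← Finset.mul_sum, hx, mul_zero] }
  have hS : ∀ j : ℤ, ∃ u ∈ S, u ≠ 0 ∧ v.ord u = j := by
    intro j
    set q := j / (n : ℤ)
    obtain ⟨l, hl⟩ : ∃ l : ℕ, (l : ℤ) = j % (n : ℤ) :=
      ⟨(j % (n : ℤ)).toNat, Int.toNat_of_nonneg (Int.emod_nonneg _ (by omega))⟩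
    have hln : l < n := by
      have := Int.emod_lt_of_pos j (show (0 : ℤ) < n by omega)
      omega
    refine ⟨t ^ q * π ^ l, ?_, mul_ne_zero (zpow_ne_zero _ ht0) (pow_ne_zero _ hπ0), ?_⟩
    · show Φ _ = 0
      rw [hΦ]
      simp only [map_mul, map_zpow₀, hT]
      rw [show (∑ i, a i * (T ^ q * φ i (π ^ l))) = T ^ q * ∑ i, a i * φ i (π ^ l) by
        rw [Finset.mul_sum]; exact Finset.sum_congr rfl fun i _ => by ring,
        haM ⟨l, hln⟩, mul_zero]
    · rw [v.ord_mul (zpow_ne_zero _ ht0) (pow_ne_zero _ hπ0), v.ord_zpow, ord_pow, hπ, hn]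
      rw [mul_one, hl]
      exact Int.ediv_mul_add_emod j n
  have hzero : ∀ f, Φ f = 0 := by
    intro f
    by_contra hne
    set B := Finset.univ.sup fun i => ((a i).order).natAbs with hB
    set m : ℤ := |(Φ f).order| + B + 1 with hm
    obtain ⟨g, hg, hfg⟩ := exists_approx_filt v S hS f m
    have hg' : Φ g = 0 := hg
    have hΦfg : Φ f = ∑ i, a i * φ i (f - g) := by
      rw [show f = (f - g) + g by ring, hΦ]
      simp only [map_add, mul_add, Finset.sum_add_distrib]
      rw [← hΦ g, hg', add_zero, add_sub_cancel_right]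
    refine HahnSeries.coeff_order_eq_zero.not.mpr hne ?_
    have key : ∀ p : ℤ, p ≤ |(Φ f).order| → (Φ f).coeff p = 0 := by
      intro p hp
      rw [hΦfg, HahnSeries.coeff_sum]
      refine Finset.sum_eq_zero fun i _ => ?_
      rcases eq_or_ne (a i * φ i (f - g)) 0 with h | h
      · rw [h, HahnSeries.coeff_zero]
      refine HahnSeries.coeff_eq_zero_of_lt_order ?_
      have hfg0 : f - g ≠ 0 := fun h0 => h (by rw [h0, map_zero, mul_zero])
      rw [HahnSeries.order_mul (left_ne_zero_of_mul h) (right_ne_zero_of_mul h), hord i _ hfg0]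
      have h1 : m ≤ v.ord (f - g) := le_ord_of_mem_filt hfg hfg0
      have h2 : (((a i).order).natAbs : ℤ) ≤ B :=
        Int.ofNat_le.mpr (Finset.le_sup (f := fun i => ((a i).order).natAbs) (Finset.mem_univ i))
      have h4 : v.ord (f - g) ≤ k * v.ord (f - g) :=
        le_mul_of_one_le_left (le_trans (by positivity) h1) hk
      omega
    exact key _ (le_abs_self _)
  have hli : LinearIndependent (LaurentSeries ℂ) (fun i : ι => (⇑(φ i) : F → LaurentSeries ℂ)) :=
    (linearIndependent_monoidHom F (LaurentSeries ℂ)).comp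
      (fun i => ((φ i).toRingHom.toMonoidHom)) fun i j hij => hinj (AlgHom.ext fun f =>
        congrArg (fun χ : F →* LaurentSeries ℂ => χ f) hij)
  have := Fintype.linearIndependent_iff.mp hli a (funext fun f => by
    simpa [hΦ] using hzero f)
  exact ha0 (funext this)

variable {X : Type*} [Fintype X] {G : Type*} [Group G] [MulAction G X]

/-- The places of the expansions of `t` are exactly the zeros of `t`, each of order at least the
number of expansions at it, and the orders sum to the number of expansions. -/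
theorem zeros_eq_places_of_expansions (φ : X → F →ₐ[K] LaurentSeries ℂ)
    (hinj : Function.Injective φ) {t : F} (ht : Transcendental K t)
    (hdeg : Module.finrank K⟮t⟯ F = Fintype.card X) (T : LaurentSeries ℂ) (hT : ∀ x, φ x t = T)
    {e : ℕ} (he : 0 < e) (hTe : T.order = e) :
    ∃ (P : X → Place K F) (k : X → ℤ),
      (∀ x, (P x).toValuationSubring = embRing (φ x)) ∧ (∀ x, 0 < k x) ∧
      (∀ x (f : F), f ≠ 0 → (φ x f).order = k x * (P x).ord f) ∧ (∀ x, 0 < (P x).ord t) ∧
      (open Classical in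
        ∀ x, ((Finset.univ.filter fun y => P y = P x).card : ℤ) ≤ (P x).ord t) ∧
      (open Classical in Finset.univ.image P = (finite_setOf_ord_pos (K := K) t).toFinset) ∧
      ∑ v ∈ (finite_setOf_ord_pos (K := K) t).toFinset, v.ord t = Fintype.card X := by
  classical
  set Z := (finite_setOf_ord_pos (K := K) t).toFinset
  have hsum : ∑ v ∈ Z, v.ord t = Fintype.card X := by
    rw [← hdeg, ← sum_ord_mul_deg_zeros ht]
    exact Finset.sum_congr rfl fun v _ => by rw [place_deg_eq_one, Nat.cast_one, mul_one]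
  have hne : ∀ x, embRing (φ x) ≠ ⊤ := fun x =>
    embRing_ne_top (t := t) (by rw [hT, hTe]; exact_mod_cast he)
  let P : X → Place K F := fun x => embPlace (φ x) (hne x)
  have ht0 : t ≠ 0 := fun h => ht (h ▸ isAlgebraic_zero)
  choose k hk hord using fun x => order_eq_mul_ord (φ x) (hne x)
  have hkP : ∀ x, (e : ℤ) = k x * (P x).ord t := fun x => by
    rw [← hord x t ht0, hT, hTe]
  have hpos : ∀ x, 0 < (P x).ord t := fun x => by
    have := hkP x
    rcases le_or_gt ((P x).ord t) 0 with h | h
    · exfalso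
      nlinarith [hk x]
    · exact h
  have hPZ : ∀ x, P x ∈ Z := fun x => by simpa [Z] using hpos x
  have hfib_le : ∀ x, ((Finset.univ.filter fun y => P y = P x).card : ℤ) ≤ (P x).ord t := by
    intro x
    have := card_le_ord_of_same_place (fun y : {y // P y = P x} => φ y.1)
      (fun a b h => Subtype.ext (hinj h)) T (fun y => hT y.1) (P x) (hpos x) (k x) (hk x) ?_
    · rwa [Fintype.card_subtype] at this
    · intro y f hf
      have hy : P y.1 = P x := y.2
      have h1 := hkP y.1
      rw [hy, hkP x] at h1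
      have h2 : k y.1 = k x := (mul_right_cancel₀ (hpos x).ne' h1).symm
      rw [hord y.1 f hf, h2]
      show k x * (P y.1).ord f = _
      rw [hy]
  refine ⟨P, k, fun _ => rfl, hk, hord, hpos, hfib_le, ?_, hsum⟩
  refine Finset.eq_of_subset_of_card_le (fun v hv => ?_) ?_
  · obtain ⟨x, -, rfl⟩ := Finset.mem_image.mp hv
    exact hPZ x
  by_contra hlt
  push Not at hlt
  have hsub : Finset.univ.image P ⊆ Z := fun v hv => by
    obtain ⟨x, -, rfl⟩ := Finset.mem_image.mp hv
    exact hPZ x
  obtain ⟨v, hvZ, hv⟩ := Finset.exists_mem_notMem_of_card_lt_card hlt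
  have h1 : (Fintype.card X : ℤ) ≤ ∑ w ∈ Finset.univ.image P, w.ord t := by
    rw [← Finset.card_univ, Finset.card_eq_sum_card_image P Finset.univ, Nat.cast_sum]
    refine Finset.sum_le_sum fun w hw => ?_
    obtain ⟨x, -, rfl⟩ := Finset.mem_image.mp hw
    exact hfib_le x
  have h2 : v.ord t + ∑ w ∈ Finset.univ.image P, w.ord t ≤ ∑ w ∈ Z, w.ord t := by
    rw [← Finset.sum_insert (f := fun w : Place K F => w.ord t) hv]
    refine Finset.sum_le_sum_of_subset_of_nonneg (Finset.insert_subset hvZ hsub) fun w hw _ => ?_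
    exact le_of_lt (by simpa [Z] using hw)
  have h3 : 0 < v.ord t := by simpa [Z] using hvZ
  omega

/-- Zeros of `t` correspond to the orbits of the rotation `g`. -/
theorem zeros_eq_orbits (φ : X → F →ₐ[K] LaurentSeries ℂ) (hinj : Function.Injective φ)
    {t : F} (ht : Transcendental K t) (hdeg : Module.finrank K⟮t⟯ F = Fintype.card X)
    (T : LaurentSeries ℂ) (hT : ∀ x, φ x t = T) {e : ℕ} (he : 0 < e) (hTe : T.order = e)
    (g : G) {ζ : ℂ} (hζ : IsPrimitiveRoot ζ e)
    (hrot : ∀ x f, φ (g • x) f = rotSeries ζ (hζ.ne_zero he.ne') (φ x f)) :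
    (finite_setOf_ord_pos (K := K) t).toFinset.card =
      Nat.card (MulAction.orbitRel.Quotient (Subgroup.zpowers g) X) ∧
    ∑ v ∈ (finite_setOf_ord_pos (K := K) t).toFinset, v.ord t = Fintype.card X := by
  classical
  obtain ⟨P, k, hPemb, hk, hord, hpos, hfib_le, himage, hsum⟩ :=
    zeros_eq_places_of_expansions φ hinj ht hdeg T hT he hTe
  refine ⟨?_, hsum⟩
  have hPg : ∀ x, P (g • x) = P x := fun x => by
    refine Place.ext ?_
    rw [hPemb, hPemb]
    ext f
    rw [mem_embRing, mem_embRing, hrot, rotSeries_order]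
  have hkP : ∀ x, (e : ℤ) = k x * (P x).ord t := fun x => by
    rw [← hord x t (fun h => ht (h ▸ isAlgebraic_zero)), hT, hTe]
  have hiter : ∀ (i : ℕ) (x : X) (f : F), ∀ m : ℤ,
      (φ (g ^ i • x) f).coeff m = (ζ ^ i) ^ m * (φ x f).coeff m := by
    intro i
    induction i with
    | zero => intro x f m; simp
    | succ i ih =>
      intro x f m
      rw [pow_succ', mul_smul, hrot, rotSeries_coeff, ih, pow_succ', mul_zpow, mul_assoc]
  have hPpow : ∀ (i : ℕ) x, P (g ^ i • x) = P x := by
    intro i
    induction i with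
    | zero => simp
    | succ i ih => intro x; rw [pow_succ', mul_smul, hPg, ih]
  -- an orbit fills its fibre
  have hfib : ∀ x, (Finset.univ.filter fun y => P y = P x) =
      (Finset.range ((P x).ord t).toNat).image (fun i => g ^ i • x) := by
    intro x
    refine (Finset.eq_of_subset_of_card_le ?_ ?_).symm
    · intro y hy
      obtain ⟨i, -, rfl⟩ := Finset.mem_image.mp hy
      simp [hPpow]
    · rw [Finset.card_image_of_injOn, Finset.card_range]
      · have := hfib_le x
        omega
      · obtain ⟨π, hπ0, hπ⟩ := exists_ord_eq (P x) 1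
        have hordπ : (φ x π).order = k x := by rw [hord x π hπ0, hπ, mul_one]
        have hlead : (φ x π).coeff (k x) ≠ 0 := by
          rw [← hordπ]
          exact HahnSeries.coeff_order_eq_zero.not.mpr ((map_ne_zero _).mpr hπ0)
        intro i hi j hj hij
        have hc := congrArg (fun y => (φ y π).coeff (k x)) hij
        simp only [hiter] at hc
        have hc' := mul_right_cancel₀ hlead hc
        obtain ⟨κ, hκ⟩ : ∃ κ : ℕ, k x = κ := ⟨(k x).toNat, (Int.toNat_of_nonneg (hk x).le).symm⟩
        obtain ⟨ν, hν⟩ : ∃ ν : ℕ, (P x).ord t = ν :=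
          ⟨((P x).ord t).toNat, (Int.toNat_of_nonneg (hpos x).le).symm⟩
        have hekν : e = κ * ν := by
          have := hkP x
          rw [hκ, hν] at this
          exact_mod_cast this
        have hκ0 : 0 < κ := by
          have := hk x
          omega
        simp only [Finset.coe_range, Set.mem_Iio, hν, Int.toNat_natCast] at hi hj
        rw [hκ, zpow_natCast, zpow_natCast, ← pow_mul, ← pow_mul] at hc'
        exact Nat.eq_of_mul_eq_mul_right hκ0 (hζ.pow_inj
          (by rw [hekν, mul_comm κ]; exact Nat.mul_lt_mul_of_pos_right hi hκ0)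
          (by rw [hekν, mul_comm κ]; exact Nat.mul_lt_mul_of_pos_right hj hκ0) hc')
  rw [← himage, ← Nat.card_eq_finsetCard]
  have hsym : ∀ x y : X, P x = P y ↔
      MulAction.orbitRel (Subgroup.zpowers g) X x y := by
    intro x y
    rw [MulAction.orbitRel_apply, MulAction.mem_orbit_iff]
    constructor
    · intro h
      have hx : x ∈ Finset.univ.filter fun z => P z = P y := by simp [h]
      rw [hfib] at hx
      obtain ⟨i, -, rfl⟩ := Finset.mem_image.mp hx
      exact ⟨⟨g ^ i, Subgroup.pow_mem _ (Subgroup.mem_zpowers g) i⟩, rfl⟩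
    · rintro ⟨⟨h, hh⟩, rfl⟩
      obtain ⟨i, rfl⟩ := Subgroup.mem_zpowers_iff.mp hh
      show P (g ^ i • y) = P y
      rcases Int.eq_nat_or_neg i with ⟨j, rfl | rfl⟩
      · rw [zpow_natCast, hPpow]
      · conv_rhs => rw [← smul_inv_smul (g ^ j) y, hPpow]
        rw [zpow_neg, zpow_natCast]
  symm
  refine Nat.card_eq_of_bijective
    (Quotient.lift (fun x => (⟨P x, Finset.mem_image_of_mem P (Finset.mem_univ x)⟩ :
      {v // v ∈ Finset.univ.image P})) fun x y h => Subtype.ext ((hsym x y).mpr h)) ⟨?_, ?_⟩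
  · intro a b hab
    induction a using Quotient.inductionOn with
    | h x =>
      induction b using Quotient.inductionOn with
      | h y => exact Quotient.sound ((hsym x y).mp (congrArg Subtype.val hab))
  · rintro ⟨v, hv⟩
    obtain ⟨x, -, rfl⟩ := Finset.mem_image.mp hv
    exact ⟨Quotient.mk _ x, rfl⟩

end FLTAgent.ModularFF
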