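import Mathlib.Analysis.Analytic.Order
import Mathlib.RingTheory.RootsOfUnity.PrimitiveRoots
import Fermat.Agent.ModularFF.Rules

/-!
# The elliptic points and the vanishing orders of `j - c`

Analytic orders of `j - c` at points of `ℍ` (two at `i`, three at `ρ`, one elsewhere), their
transfer to disc coordinates (`HasDisc.order_eq`), and the stabilisers and rotation factors at
`i` and `ρ`.
-/

set_option autoImplicit false

noncomputable section

open UpperHalfPlane Complex Filter Function Derivative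
open scoped Topology Manifold MatrixGroups ModularForm

namespace FLTAgent.ModularFF

theorem analyticOnNhd_of_mdiff {f : ℍ → ℂ} (hf : MDiff f) :
    AnalyticOnNhd ℂ (f ∘ ofComplex) upperHalfPlaneSet :=
  (UpperHalfPlane.mdifferentiable_iff.mp hf).analyticOnNhd isOpen_upperHalfPlaneSet

theorem analyticAt_of_mdiff {f : ℍ → ℂ} (hf : MDiff f) (τ : ℍ) :
    AnalyticAt ℂ (f ∘ ofComplex) (τ : ℂ) := analyticOnNhd_of_mdiff hf _ τ.im_pos

theorem analyticOrderAt_ne_top_of_exists {f : ℍ → ℂ} (hf : MDiff f) (h : ∃ τ, f τ ≠ 0) (τ₀ : ℍ) :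
    analyticOrderAt (f ∘ ofComplex) (τ₀ : ℂ) ≠ ⊤ := by
  obtain ⟨τ, hτ⟩ := h
  refine (analyticOnNhd_of_mdiff hf).analyticOrderAt_ne_top_of_isPreconnected
    (convex_halfSpace_im_gt 0).isPreconnected τ.im_pos τ₀.im_pos ?_
  rw [(analyticOrderAt_eq_zero).mpr (.inr (by simpa using hτ))]
  simp

theorem exists_E₄_ne_zero : ∃ τ : ℍ, ModularForm.E₄ τ ≠ 0 := by
  obtain ⟨τ, hτ⟩ := exists_jFun_eq 1
  exact ⟨τ, fun h => by simp [jFun, h] at hτ⟩

theorem jFun_sub_1728 (τ : ℍ) :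
    jFun τ - 1728 = ModularForm.E₆ τ ^ 2 / ModularForm.discriminant τ := by
  have h := ModularForm.discriminant_eq_E₄_cube_sub_E₆_sq τ
  have hΔ := ModularForm.discriminant_ne_zero τ
  rw [jFun, eq_div_iff hΔ, sub_mul, div_mul_cancel₀ _ hΔ]
  linear_combination (-1728 : ℂ) * h

theorem exists_E₆_ne_zero : ∃ τ : ℍ, ModularForm.E₆ τ ≠ 0 := by
  obtain ⟨τ, hτ⟩ := exists_jFun_eq 1
  refine ⟨τ, fun h => ?_⟩
  have := jFun_sub_1728 τ
  rw [hτ, h] at this
  norm_num at this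

theorem analyticOrderAt_jFun_sub {τ₀ : ℍ} {c : ℂ} (hc : jFun τ₀ = c) (h0 : c ≠ 0)
    (h1728 : c ≠ 1728) :
    analyticOrderAt ((fun τ => jFun τ - c) ∘ ofComplex) (τ₀ : ℂ) = 1 := by
  obtain ⟨K, hK, hD⟩ := exists_D_jFun
  have han := analyticAt_of_mdiff (mdiff_jFun.sub (mdifferentiable_const (c := c))) τ₀
  refine AnalyticAt.analyticOrderAt_eq_one_of_zero_deriv_ne_zero han (by simp [hc]) ?_
  show deriv (fun z => (jFun ∘ ofComplex) z - c) _ ≠ 0
  rw [deriv_sub_const]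
  intro hd
  have h := hD τ₀
  rw [Derivative.normalizedDerivOfComplex, hd, mul_zero] at h
  rcases mul_eq_zero.mp ((div_eq_zero_iff.mp h.symm).resolve_right
    (ModularForm.discriminant_ne_zero τ₀)) with h' | h'
  · rcases mul_eq_zero.mp h' with h'' | h''
    · exact hK h''
    · have : ModularForm.E₄ τ₀ = 0 := pow_eq_zero_iff (n := 2) two_ne_zero |>.mp h''
      exact h0 (by rw [← hc, jFun, this]; simp)
  · have := jFun_sub_1728 τ₀
    rw [h', hc] at this
    exact h1728 (sub_eq_zero.mp (by simpa using this))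

/-- The common computation: `f = a^e/Δ` vanishes at `τ₀`, `f' = K a^(e-1) b`, `b τ₀ ≠ 0`. -/
theorem order_eq_of_pow_div {f a b : ℍ → ℂ} (ha : MDiff a) (hb : MDiff b) (hane : ∃ τ, a τ ≠ 0)
    {τ₀ : ℍ} (hb0 : b τ₀ ≠ 0) {e : ℕ} (he : 2 ≤ e) (ha0 : a τ₀ = 0)
    (hf : ∀ τ, f τ = a τ ^ e / ModularForm.discriminant τ)
    (hd : ∀ τ : ℍ, deriv (f ∘ ofComplex) (τ : ℂ) = b τ * a τ ^ (e - 1)) :
    analyticOrderAt (f ∘ ofComplex) (τ₀ : ℂ) = e := by
  set A := a ∘ ofComplex
  have hA : AnalyticAt ℂ A (τ₀ : ℂ) := analyticAt_of_mdiff ha τ₀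
  have hB : AnalyticAt ℂ (b ∘ ofComplex) (τ₀ : ℂ) := analyticAt_of_mdiff hb τ₀
  have hΔ : AnalyticAt ℂ ((fun τ => (ModularForm.discriminant τ)⁻¹) ∘ ofComplex) (τ₀ : ℂ) := by
    have := analyticAt_of_mdiff (ModularFormClass.holo CuspForm.discriminant) τ₀
    rw [CuspForm.coe_discriminant] at this
    exact this.inv (by simpa using ModularForm.discriminant_ne_zero τ₀)
  obtain ⟨m, hm⟩ := ENat.ne_top_iff_exists.mp (analyticOrderAt_ne_top_of_exists ha hane τ₀)
  have hm0 : m ≠ 0 := by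
    intro h0
    rw [h0, Nat.cast_zero, eq_comm, analyticOrderAt_eq_zero] at hm
    rcases hm with hm | hm
    · exact hm hA
    · exact hm (by simpa using ha0)
  have hfeq : f ∘ ofComplex = A ^ e * ((fun τ => (ModularForm.discriminant τ)⁻¹) ∘ ofComplex) :=
    funext fun z => by simp [A, hf, div_eq_mul_inv]
  have hford : analyticOrderAt (f ∘ ofComplex) (τ₀ : ℂ) = (e * m : ℕ) := by
    rw [hfeq, analyticOrderAt_mul (hA.pow e) hΔ, analyticOrderAt_pow hA, ← hm,
      analyticOrderAt_eq_zero.mpr (.inr (by simpa using ModularForm.discriminant_ne_zero τ₀))]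
    simp
  have hfan : AnalyticAt ℂ (f ∘ ofComplex) (τ₀ : ℂ) := by
    rw [hfeq]; exact (hA.pow e).mul hΔ
  have hd' : deriv (f ∘ ofComplex) =ᶠ[𝓝 (τ₀ : ℂ)] (b ∘ ofComplex) * A ^ (e - 1) := by
    filter_upwards [isOpen_upperHalfPlaneSet.mem_nhds τ₀.im_pos] with z hz
    simpa [A, ofComplex_apply_of_im_pos hz] using hd ⟨z, hz⟩
  have h := hfan.analyticOrderAt_deriv_add_one
  have hz : (fun z => (f ∘ ofComplex) z - (f ∘ ofComplex) (τ₀ : ℂ)) = f ∘ ofComplex := by
    funext z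
    simp [hf τ₀, ha0, zero_pow (show e ≠ 0 by omega)]
  rw [hz, hford, analyticOrderAt_congr hd', analyticOrderAt_mul hB (hA.pow _),
    analyticOrderAt_pow hA, ← hm,
    analyticOrderAt_eq_zero.mpr (.inr (by simpa using hb0)), zero_add] at h
  rw [hford]
  have h' : (e - 1) * m + 1 = e * m := by
    rw [nsmul_eq_mul] at h
    exact_mod_cast h
  obtain ⟨e', rfl⟩ : ∃ e', e = e' + 1 := ⟨e - 1, by omega⟩
  simp only [Nat.add_sub_cancel, add_mul, one_mul] at h'
  have : m = 1 := by omega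
  subst this
  simp

theorem analyticOrderAt_jFun_of_E₄ {τ₀ : ℍ} (h : ModularForm.E₄ τ₀ = 0) :
    analyticOrderAt (jFun ∘ ofComplex) (τ₀ : ℂ) = 3 := by
  obtain ⟨K, hK, hD⟩ := exists_D_jFun
  have h6 : ModularForm.E₆ τ₀ ≠ 0 := by
    intro h6
    have := ModularForm.discriminant_eq_E₄_cube_sub_E₆_sq τ₀
    exact ModularForm.discriminant_ne_zero τ₀ (by rw [this, h, h6]; simp)
  have hΔ := ModularFormClass.holo CuspForm.discriminant
  rw [CuspForm.coe_discriminant] at hΔ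
  refine order_eq_of_pow_div (f := jFun) (e := 3)
    (b := fun τ => 2 * Real.pi * Complex.I * K * ModularForm.E₆ τ / ModularForm.discriminant τ)
    (ModularFormClass.holo ModularForm.E₄)
    ((mdifferentiable_const.mul (ModularFormClass.holo ModularForm.E₆)).div hΔ
      ModularForm.discriminant_ne_zero) exists_E₄_ne_zero
    (div_ne_zero (mul_ne_zero (mul_ne_zero Complex.two_pi_I_ne_zero hK) h6)
      (ModularForm.discriminant_ne_zero τ₀)) (by norm_num) h (fun _ => rfl) fun τ => ?_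
  have h' := hD τ
  rw [Derivative.normalizedDerivOfComplex, inv_mul_eq_iff_eq_mul₀ Complex.two_pi_I_ne_zero] at h'
  rw [h']
  ring

theorem analyticOrderAt_jFun_sub_of_E₆ {τ₀ : ℍ} (h : ModularForm.E₆ τ₀ = 0) :
    analyticOrderAt ((fun τ => jFun τ - 1728) ∘ ofComplex) (τ₀ : ℂ) = 2 := by
  obtain ⟨K, hK, hD⟩ := exists_D_jFun
  have h4 : ModularForm.E₄ τ₀ ≠ 0 := by
    intro h4
    have := ModularForm.discriminant_eq_E₄_cube_sub_E₆_sq τ₀
    exact ModularForm.discriminant_ne_zero τ₀ (by rw [this, h, h4]; simp)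
  have hΔ := ModularFormClass.holo CuspForm.discriminant
  rw [CuspForm.coe_discriminant] at hΔ
  refine order_eq_of_pow_div (f := fun τ => jFun τ - 1728) (e := 2)
    (b := fun τ => 2 * Real.pi * Complex.I * K * ModularForm.E₄ τ ^ 2 / ModularForm.discriminant τ)
    (ModularFormClass.holo ModularForm.E₆)
    ((mdifferentiable_const.mul ((ModularFormClass.holo ModularForm.E₄).pow 2)).div hΔ
      ModularForm.discriminant_ne_zero) exists_E₆_ne_zero
    (div_ne_zero (mul_ne_zero (mul_ne_zero Complex.two_pi_I_ne_zero hK) (pow_ne_zero _ h4))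
      (ModularForm.discriminant_ne_zero τ₀)) le_rfl h jFun_sub_1728 fun τ => ?_
  have h' := hD τ
  rw [Derivative.normalizedDerivOfComplex, inv_mul_eq_iff_eq_mul₀ Complex.two_pi_I_ne_zero] at h'
  show deriv (fun z => (jFun ∘ ofComplex) z - 1728) _ = _
  rw [deriv_sub_const, h']
  ring

/-- The Taylor series in the disc coordinate has the same order. -/
theorem HasDisc.order_eq {τ₀ : ℍ} {f : ℍ → ℂ} {S : LaurentSeries ℂ} (hf : MDiff f)
    (hS : HasDisc τ₀ f S) {e : ℕ} (he : analyticOrderAt (f ∘ ofComplex) (τ₀ : ℂ) = e) :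
    S.order = e := by
  set s : ℂ → ℂ := fun z => ((τ₀ : ℂ) - (starRingEnd ℂ) τ₀ * z) / (1 - z) with hs
  set F : ℂ → ℂ := fun z => f (cayley τ₀ z) with hF
  set P : PowerSeries ℂ := PowerSeries.mk fun m => (m.factorial : ℂ)⁻¹ * iteratedDeriv m F 0
    with hP
  have hPS : HasDisc τ₀ f (HahnSeries.ofPowerSeries ℤ ℂ P) := ⟨P, rfl, fun z hz => by
    have := Complex.hasSum_taylorSeries_on_ball (differentiableOn_comp_cayley τ₀ hf) (z := z)
      (by simpa using hz)
    simpa [hP, hF, mul_comm, mul_left_comm] using this⟩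
  have hSP : S = HahnSeries.ofPowerSeries ℤ ℂ P := (pointRule 1 τ₀).unique hS hPS
  have hsan : AnalyticAt ℂ s 0 := by
    refine AnalyticAt.div (by fun_prop) (by fun_prop) (by simp)
  have hs' : deriv s 0 ≠ 0 := by
    have hd : deriv s 0 = (τ₀ : ℂ) - (starRingEnd ℂ) τ₀ := by
      rw [hs, deriv_fun_div (by fun_prop) (by fun_prop) (by simp)]
      simp
      ring
    rw [hd]
    exact sub_conj_ne_zero τ₀ τ₀
  have hFord : analyticOrderAt F 0 = e := by
    have hFeq : F = (f ∘ ofComplex) ∘ s := rfl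
    rw [hFeq, analyticOrderAt_comp_of_deriv_ne_zero hsan hs', show s 0 = (τ₀ : ℂ) by simp [hs], he]
  have hFan : AnalyticAt ℂ F 0 :=
    (differentiableOn_comp_cayley τ₀ hf).analyticAt (Metric.ball_mem_nhds 0 one_pos)
  obtain ⟨hlo, hne⟩ := (analyticOrderAt_eq_nat_iff_iteratedDeriv_eq_zero hFan).mp hFord
  have hcoeff : ∀ m : ℕ, PowerSeries.coeff m P = (m.factorial : ℂ)⁻¹ * iteratedDeriv m F 0 :=
    fun m => by rw [hP, PowerSeries.coeff_mk]
  have hce : S.coeff (e : ℤ) ≠ 0 := by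
    rw [hSP, HahnSeries.ofPowerSeries_apply_coeff, hcoeff]
    exact mul_ne_zero (inv_ne_zero (Nat.cast_ne_zero.mpr (Nat.factorial_ne_zero e))) hne
  refine le_antisymm (HahnSeries.order_le_of_coeff_ne_zero hce) ?_
  by_contra hlt
  push Not at hlt
  have hS0 : S ≠ 0 := fun h => hce (by rw [h, HahnSeries.coeff_zero])
  refine HahnSeries.coeff_order_eq_zero.not.mpr hS0 ?_
  rcases le_or_gt 0 S.order with h | h
  · obtain ⟨m, hm⟩ := Int.eq_ofNat_of_zero_le h
    rw [hm, hSP, HahnSeries.ofPowerSeries_apply_coeff, hcoeff, hlo m (by omega), mul_zero]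
  · conv_lhs => arg 1; rw [hSP]
    exact ModularCurve.ofPowerSeries_coeff_of_neg _ h

/-- The point `ρ`. -/
def rhoPt : ℍ := ⟨(-1 + (Real.sqrt 3 : ℝ) * Complex.I) / 2, by
  simp only [Complex.div_ofNat_im, Complex.add_im, Complex.neg_im, Complex.one_im, neg_zero,
    Complex.mul_im, Complex.ofReal_re, Complex.I_im, mul_one, Complex.ofReal_im, Complex.I_re,
    mul_zero, add_zero, zero_add]
  positivity⟩

theorem rhoPt_sq : (rhoPt : ℂ) ^ 2 + rhoPt + 1 = 0 := by
  have h3 : ((Real.sqrt 3 : ℝ) : ℂ) ^ 2 = 3 := by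
    rw [← Complex.ofReal_pow, Real.sq_sqrt (by norm_num)]; norm_num
  show ((-1 + (Real.sqrt 3 : ℝ) * Complex.I) / 2) ^ 2 + ((-1 + (Real.sqrt 3 : ℝ) * Complex.I) / 2)
    + 1 = 0
  linear_combination (Complex.I ^ 2 / 4) * h3 + (3 / 4 : ℂ) * Complex.I_sq

theorem rhoPt_ne_zero : (rhoPt : ℂ) ≠ 0 := rhoPt.ne_zero

theorem rhoPt_ne_one : (rhoPt : ℂ) ≠ 1 := fun h => by
  have := rhoPt.im_pos
  rw [← UpperHalfPlane.coe_im, h] at this
  simp at this

theorem isPrimitiveRoot_rhoPt : IsPrimitiveRoot (rhoPt : ℂ) 3 := by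
  have : Fact (Nat.Prime 3) := ⟨Nat.prime_three⟩
  exact (IsPrimitiveRoot.iff_orderOf).mpr (orderOf_eq_prime
    (by linear_combination ((rhoPt : ℂ) - 1) * rhoPt_sq) rhoPt_ne_one)

theorem inv_ST_apply :
    ((ModularGroup.S * ModularGroup.T)⁻¹ : SL(2, ℤ)).1 = !![1, 1; -1, 0] := by
  simp [Matrix.SpecialLinearGroup.coe_inv, ModularGroup.coe_S, ModularGroup.coe_T,
    Matrix.adjugate_fin_two]

theorem inv_ST_smul_rho : (ModularGroup.S * ModularGroup.T)⁻¹ • rhoPt = rhoPt := by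
  apply UpperHalfPlane.ext
  rw [coe_smul_SL, inv_ST_apply]
  simp only [Matrix.of_apply, Matrix.cons_val', Matrix.cons_val_zero, Matrix.cons_val_one,
    Matrix.cons_val_fin_one, Int.cast_one, Int.cast_neg, Int.cast_zero, one_mul, add_zero]
  rw [div_eq_iff (by simpa using rhoPt_ne_zero)]
  linear_combination rhoPt_sq

theorem E₄_rhoPt : ModularForm.E₄ rhoPt = 0 := by
  have h := slash_eqn_SL ModularForm.E₄ (ModularGroup.S * ModularGroup.T)⁻¹ rhoPt
  rw [inv_ST_smul_rho] at h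
  have hd : UpperHalfPlane.denom ((ModularGroup.S * ModularGroup.T)⁻¹ : SL(2, ℤ)) rhoPt
      = -(rhoPt : ℂ) := by
    rw [ModularGroup.denom_apply, inv_ST_apply]
    simp
  rw [hd, zpow_ofNat] at h
  have : ((rhoPt : ℂ) - 1) * ModularForm.E₄ rhoPt = 0 := by
    linear_combination -h - (rhoPt : ℂ) * ((rhoPt : ℂ) - 1) * ModularForm.E₄ rhoPt * rhoPt_sq
  exact (mul_eq_zero.mp this).resolve_left (sub_ne_zero.mpr rhoPt_ne_one)

theorem rotFactor_rhoPt :
    rotFactor ((ModularGroup.S * ModularGroup.T)⁻¹) rhoPt = (rhoPt : ℂ) := by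
  have hconj : (starRingEnd ℂ) (rhoPt : ℂ) = (rhoPt : ℂ) ^ 2 := by
    have h := congrArg (starRingEnd ℂ) rhoPt_sq
    simp only [map_add, map_pow, map_one, map_zero] at h
    have hne := sub_conj_ne_zero rhoPt rhoPt
    have h1 : (rhoPt : ℂ) + (starRingEnd ℂ) (rhoPt : ℂ) + 1 = 0 := by
      refine mul_left_cancel₀ hne ?_
      linear_combination rhoPt_sq - h
    linear_combination h1 - rhoPt_sq
  rw [rotFactor, inv_ST_apply]
  simp only [Matrix.of_apply, Matrix.cons_val', Matrix.cons_val_zero, Matrix.cons_val_one,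
    Matrix.cons_val_fin_one, Int.cast_one, Int.cast_neg, Int.cast_zero, add_zero, hconj]
  rw [div_eq_iff (by simpa using rhoPt_ne_zero)]
  ring

theorem inv_S_apply : (ModularGroup.S⁻¹ : SL(2, ℤ)).1 = !![0, 1; -1, 0] := by
  simp [Matrix.SpecialLinearGroup.coe_inv, ModularGroup.coe_S, Matrix.adjugate_fin_two]

theorem inv_S_smul_I : ModularGroup.S⁻¹ • UpperHalfPlane.I = UpperHalfPlane.I := by
  apply UpperHalfPlane.ext
  rw [coe_smul_SL, inv_S_apply]
  simp

theorem E₆_I : ModularForm.E₆ UpperHalfPlane.I = 0 := by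
  have h := slash_eqn_SL ModularForm.E₆ ModularGroup.S⁻¹ UpperHalfPlane.I
  rw [inv_S_smul_I] at h
  have hd : UpperHalfPlane.denom (ModularGroup.S⁻¹ : SL(2, ℤ)) UpperHalfPlane.I
      = -Complex.I := by
    rw [ModularGroup.denom_apply, inv_S_apply]
    simp
  rw [hd, zpow_ofNat] at h
  have h6 : (-Complex.I) ^ 6 = (-1 : ℂ) := by
    linear_combination (Complex.I ^ 4 - Complex.I ^ 2 + 1) * Complex.I_sq
  rw [h6] at h
  linear_combination (1 / 2 : ℂ) * h

theorem rotFactor_I : rotFactor ModularGroup.S⁻¹ UpperHalfPlane.I = -1 := by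
  rw [rotFactor, inv_S_apply]
  simp only [Matrix.of_apply, Matrix.cons_val', Matrix.cons_val_zero, Matrix.cons_val_one,
    Matrix.cons_val_fin_one, Int.cast_neg, Int.cast_one, Int.cast_zero, add_zero,
    UpperHalfPlane.coe_I, Complex.conj_I]
  field_simp

end FLTAgent.ModularFF
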