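import Fermat.Agent.FFDifferential.Canonical
import Fermat.Agent.MFDim.Numerics
import Fermat.Agent.ModularFF.Degree
import Fermat.Agent.ModularFF.PlaceOrbit
import Fermat.Agent.ModularFF.Points

/-!
# The genus of the function field of `X₀(N)`

Riemann–Hurwitz for `j : X₀(N) → P¹` (`two_mul_genusFF_modField`), giving the genus formula
`genus_modField` used for S24.
-/

set_option autoImplicit false

noncomputable section

open UpperHalfPlane Complex Filter Function ModularCurve IntermediateField AlgebraicCurve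
open FLTAgent.FFBasic FLTAgent.FFDifferential
open scoped Topology Manifold MatrixGroups

namespace FLTAgent.ModularFF

local notation "𝕢" => Function.Periodic.qParam

theorem order_qExpand_jqModC (N : ℕ) [NeZero N] :
    (qExpand ℂ N (jqModC ℂ)).order = -(N : ℤ) := by
  have h1 : (qExpand ℂ N (jqModC ℂ)).coeff (-(N : ℤ)) ≠ 0 := by
    rw [show -(N : ℤ) = (N : ℤ) * (-1) by ring, qExpand_coeff_mul]
    have := coeff_jqModC_pow_self ℂ 1
    simp only [pow_one, Nat.cast_one] at this
    rw [this]
    exact one_ne_zero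
  refine le_antisymm (HahnSeries.order_le_of_coeff_ne_zero h1) ?_
  by_contra hlt
  push Not at hlt
  have hne : qExpand ℂ N (jqModC ℂ) ≠ 0 := fun h => h1 (by rw [h, HahnSeries.coeff_zero])
  have h2 := HahnSeries.coeff_order_eq_zero.not.mpr hne
  obtain ⟨k, hk⟩ : (N : ℤ) ∣ (qExpand ℂ N (jqModC ℂ)).order := by
    by_contra hd
    exact h2 (qExpand_coeff_of_not_dvd N _ hd)
  rw [hk, qExpand_coeff_mul] at h2
  refine h2 ?_
  have hk1 : k < -1 := by
    rw [hk] at hlt
    have : (0 : ℤ) < N := by exact_mod_cast NeZero.pos N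
    nlinarith
  simpa using coeff_jqModC_pow_of_lt ℂ (b := 1) (m := k) (by simpa using hk1)

theorem hasLaurent_jFun_width (N : ℕ) [NeZero N] :
    HasLaurent (N : ℝ) jFun (qExpand ℂ N (jqModC ℂ)) := by
  refine hasLaurent_jFun.spread N id fun τ => ?_
  simp only [Function.Periodic.qParam, id_eq, ← Complex.exp_nat_mul]
  congr 1
  have : (N : ℂ) ≠ 0 := Nat.cast_ne_zero.mpr (NeZero.ne N)
  push_cast
  field_simp

theorem card_orbits_one {G X : Type*} [Group G] [MulAction G X] :
    Nat.card (MulAction.orbitRel.Quotient (Subgroup.zpowers (1 : G)) X) = Nat.card X := by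
  refine (Nat.card_eq_of_bijective (fun x : X => (Quotient.mk'' x :
    MulAction.orbitRel.Quotient (Subgroup.zpowers (1 : G)) X)) ⟨fun x y h => ?_, ?_⟩).symm
  · obtain ⟨⟨g, hg⟩, hgx⟩ := MulAction.orbitRel_apply.mp (Quotient.exact h)
    obtain ⟨k, rfl⟩ := Subgroup.mem_zpowers_iff.mp hg
    simpa using hgx.symm
  · exact Quotient.mk''_surjective

variable (L : Type*) [Field L] [Algebra ℚ L] [Algebra L ℂ] [IsAlgClosed L] [CharZero L]
variable (N : ℕ) [NeZero N]

omit [Algebra L ℂ] [IsAlgClosed L] [CharZero L] in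
theorem transcendental_jElt_sub (c : L) :
    Transcendental L (jElt L N - algebraMap L (modField L N) c) := by
  intro h
  have h' := h.add (isAlgebraic_algebraMap (A := modField L N) c)
  rw [sub_add_cancel] at h'
  exact transcendental_jElt L N h'

omit [Algebra L ℂ] [IsAlgClosed L] [CharZero L] in
theorem adjoin_jElt_sub (c : L) :
    L⟮jElt L N - algebraMap L (modField L N) c⟯ = L⟮jElt L N⟯ := by
  apply le_antisymm <;> rw [adjoin_simple_le_iff]
  · exact sub_mem (mem_adjoin_simple_self L _) (IntermediateField.algebraMap_mem _ _)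
  · have h := add_mem (mem_adjoin_simple_self L (jElt L N - algebraMap L (modField L N) c))
      (IntermediateField.algebraMap_mem _ c)
    rwa [sub_add_cancel] at h

omit [Algebra L ℂ] [IsAlgClosed L] [CharZero L] in
theorem adjoin_jElt_inv : L⟮(jElt L N)⁻¹⟯ = L⟮jElt L N⟯ := by
  apply le_antisymm <;> rw [adjoin_simple_le_iff]
  · exact inv_mem (mem_adjoin_simple_self L _)
  · have h := inv_mem (mem_adjoin_simple_self L (jElt L N)⁻¹)
    rwa [inv_inv] at h

/-- The zeros of `j - c`. -/
def zerosAt (c : L) : Finset (Place L (modField L N)) :=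
  (finite_setOf_ord_pos (K := L) (jElt L N - algebraMap L (modField L N) c)).toFinset

/-- The poles of `j`. -/
def polesJ : Finset (Place L (modField L N)) :=
  (finite_setOf_ord_pos (K := L) (jElt L N)⁻¹).toFinset

variable {L N}

omit [IsAlgClosed L] [CharZero L] in
theorem mem_zerosAt {c : L} {w : Place L (modField L N)} :
    w ∈ zerosAt L N c ↔ 0 < w.ord (jElt L N - algebraMap L (modField L N) c) := by
  simp [zerosAt]

omit [IsAlgClosed L] [CharZero L] in
theorem mem_polesJ {w : Place L (modField L N)} :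
    w ∈ polesJ L N ↔ w.ord (jElt L N) < 0 := by
  simp [polesJ, w.ord_inv]

omit [CharZero L] in
theorem zerosAt_spec {c : L} {τ₀ : ℍ} {e : ℕ} (he : 0 < e)
    (hord : analyticOrderAt ((fun τ => jFun τ - algebraMap L ℂ c) ∘ ofComplex) (τ₀ : ℂ) = e)
    (g : SL(2, ℤ)) (hfix : g⁻¹ • τ₀ = τ₀) (hζ : IsPrimitiveRoot (rotFactor g⁻¹ τ₀) e) :
    (zerosAt L N c).card = MFDim.orbCount (Cosets N) g ∧
      ∑ v ∈ zerosAt L N c, v.ord (jElt L N - algebraMap L (modField L N) c)
        = ((CongruenceSubgroup.Gamma0 N).index : ℤ) := by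
  classical
  have : Fintype (Cosets N) := Fintype.ofFinite _
  set R := pointRule N τ₀
  set t := jElt L N - algebraMap L (modField L N) c
  have hcard : Fintype.card (Cosets N) = (CongruenceSubgroup.Gamma0 N).index := by
    rw [Subgroup.index, Nat.card_eq_fintype_card]
  have hrel : ∀ x, R.Rel (fun τ => jFun τ - algebraMap L ℂ c) (cosetHom L R x t) := by
    intro x
    rw [map_sub, AlgHom.commutes, algebraMap_laurent_complex]
    exact R.sub (cosetHom_jElt R x) (R.const (algebraMap L ℂ c))
  have h := zeros_eq_orbits (cosetHom L R) (cosetHom_injective R) (transcendental_jElt_sub L N c)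
    (by
      rw [adjoin_jElt_sub, hcard]
      exact finrank_adjoin_jElt L N)
    (cosetHom L R (QuotientGroup.mk 1) t) (fun x => R.unique (hrel x) (hrel _)) he
    (HasDisc.order_eq (mdiff_jFun.sub mdifferentiable_const) (hrel _) hord) g hζ
    (fun x f => cosetHom_smul R g _ (fun f' S hf' => HasDisc.rot hf' (fun τ => g⁻¹ • τ)
      (rotFactor g⁻¹ τ₀) (rotFactor_ne_zero _ _) (norm_rotFactor _ _)
      (fun z hz => smul_cayley g⁻¹ τ₀ hfix hz)) x f)
  rw [hcard] at h
  exact h

omit [CharZero L] in
theorem polesJ_spec :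
    (polesJ L N).card = MFDim.orbCount (Cosets N) ModularGroup.T ∧
      ∑ v ∈ polesJ L N, v.ord (jElt L N)⁻¹ = ((CongruenceSubgroup.Gamma0 N).index : ℤ) := by
  classical
  have : Fintype (Cosets N) := Fintype.ofFinite _
  set R := cuspRule N
  have hcard : Fintype.card (Cosets N) = (CongruenceSubgroup.Gamma0 N).index := by
    rw [Subgroup.index, Nat.card_eq_fintype_card]
  have hj : ∀ x, cosetHom L R x (jElt L N) = qExpand ℂ N (jqModC ℂ) := fun x =>
    R.unique (cosetHom_jElt R x) (hasLaurent_jFun_width N)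
  have hne : qExpand ℂ N (jqModC ℂ) ≠ 0 := fun h => by
    have := order_qExpand_jqModC N
    rw [h, HahnSeries.order_zero] at this
    exact NeZero.ne N (by omega)
  have hζ : IsPrimitiveRoot (Complex.exp (2 * Real.pi * Complex.I * ((-1 : ℤ) : ℂ) / N)) N := by
    have := (Complex.isPrimitiveRoot_exp N (NeZero.ne N)).inv
    rw [← Complex.exp_neg] at this
    convert! this using 2
    push_cast
    ring
  have h := zeros_eq_orbits (cosetHom L R) (cosetHom_injective R)
    (t := (jElt L N)⁻¹) (fun h => transcendental_jElt L N (inv_inv (jElt L N) ▸ h.inv))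
    (by
      rw [adjoin_jElt_inv, hcard]
      exact finrank_adjoin_jElt L N)
    (qExpand ℂ N (jqModC ℂ))⁻¹ (fun x => by rw [map_inv₀, hj x]) (NeZero.pos N)
    (by rw [order_inv_series hne, order_qExpand_jqModC, neg_neg]) ModularGroup.T hζ
    (fun x f => cosetHom_smul R ModularGroup.T _ (fun f' S hf' =>
      HasLaurent.rot hf' (fun τ => ModularGroup.T⁻¹ • τ) _ (Complex.exp_ne_zero _) (fun τ => by
        have := qParam_T_zpow_smul N (-1) τ
        rwa [zpow_neg_one] at this)) x f)
  rw [hcard] at h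
  exact h

theorem sum_ord_sub_one {ι : Type*} (s : Finset ι) (f : ι → ℤ) :
    ∑ i ∈ s, (f i - 1) = ∑ i ∈ s, f i - (s.card : ℤ) := by
  rw [Finset.sum_sub_distrib]
  simp

omit [CharZero L] in
theorem ord_eq_one_of_generic {c : L} (h0 : c ≠ 0) (h1728 : c ≠ 1728)
    {w : Place L (modField L N)} (hw : w ∈ zerosAt L N c) :
    w.ord (jElt L N - algebraMap L (modField L N) c) = 1 := by
  obtain ⟨τ₀, hτ⟩ := exists_jFun_eq (algebraMap L ℂ c)
  have hone : rotFactor (1 : SL(2, ℤ))⁻¹ τ₀ = 1 := by simp [rotFactor]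
  have h := zerosAt_spec (N := N) one_pos
    (analyticOrderAt_jFun_sub hτ (by simpa using h0)
      (fun h => h1728 ((algebraMap L ℂ).injective
        (h.trans (map_ofNat (algebraMap L ℂ) 1728).symm))))
    1 (by simp) (by rw [hone]; exact IsPrimitiveRoot.one)
  obtain ⟨hcard, hsum⟩ := h
  replace hcard : (zerosAt L N c).card = Nat.card (Cosets N) := hcard.trans card_orbits_one
  have hzero : ∑ v ∈ zerosAt L N c, (v.ord (jElt L N - algebraMap L (modField L N) c) - 1) = 0 := by
    rw [sum_ord_sub_one, hsum, hcard, sub_eq_zero]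
    rfl
  have := (Finset.sum_eq_zero_iff_of_nonneg fun v hv => by
    have := mem_zerosAt.mp hv
    omega).mp hzero w hw
  omega

omit [IsAlgClosed L] [CharZero L] in
theorem ord_jElt_nonneg_of_mem_zerosAt {c : L} {w : Place L (modField L N)}
    (hw : w ∈ zerosAt L N c) : 0 ≤ w.ord (jElt L N) := by
  have h1 : jElt L N - algebraMap L (modField L N) c ∈ filt w 0 :=
    mem_filt_of_le (le_of_lt (mem_zerosAt.mp hw))
  have h2 : algebraMap L (modField L N) c ∈ filt w 0 := mem_filt_zero.mpr (w.algebraMap_mem' c)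
  have h := add_mem h1 h2
  rw [sub_add_cancel] at h
  exact le_ord_of_mem_filt h fun h0 => transcendental_jElt L N (h0 ▸ isAlgebraic_zero)

omit [IsAlgClosed L] in
theorem disjoint_zerosAt {c d : L} (hcd : c ≠ d) :
    Disjoint (zerosAt L N c) (zerosAt L N d) := by
  classical
  rw [Finset.disjoint_left]
  intro w hc hd
  have h1 : jElt L N - algebraMap L (modField L N) c ∈ filt w 1 :=
    mem_filt_of_le (mem_zerosAt.mp hc)
  have h2 : jElt L N - algebraMap L (modField L N) d ∈ filt w 1 :=
    mem_filt_of_le (mem_zerosAt.mp hd)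
  have h := sub_mem h2 h1
  rw [sub_sub_sub_cancel_left, ← map_sub] at h
  have := le_ord_of_mem_filt h ((map_ne_zero _).mpr (sub_ne_zero.mpr hcd))
  rw [ord_algebraMap] at this
  omega

omit [IsAlgClosed L] [CharZero L] in
theorem disjoint_zerosAt_polesJ (c : L) : Disjoint (zerosAt L N c) (polesJ L N) := by
  classical
  rw [Finset.disjoint_left]
  intro w hc hd
  have := ord_jElt_nonneg_of_mem_zerosAt hc
  have := mem_polesJ.mp hd
  omega

theorem ordDifferential_eq_zero_of_notMem {w : Place L (modField L N)}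
    (h0 : w ∉ zerosAt L N 0) (h1 : w ∉ zerosAt L N 1728) (h2 : w ∉ polesJ L N) :
    w.ordDifferential (KaehlerDifferential.D L (modField L N) (jElt L N)) = 0 := by
  rw [mem_polesJ, not_lt] at h2
  have hj0 : jElt L N ≠ 0 := fun h0 => transcendental_jElt L N (h0 ▸ isAlgebraic_zero)
  have hmem : jElt L N ∈ w.toValuationSubring := mem_filt_zero.mp (mem_filt_of_le h2)
  obtain ⟨c, hc⟩ := exists_sub_mem_filt_one w hmem
  have hne : jElt L N - algebraMap L (modField L N) c ≠ 0 := fun h =>
    transcendental_jElt_sub L N c (h ▸ isAlgebraic_zero)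
  have hpos : 0 < w.ord (jElt L N - algebraMap L (modField L N) c) :=
    le_ord_of_mem_filt hc hne
  have hwc : w ∈ zerosAt L N c := mem_zerosAt.mpr hpos
  rw [ordDifferential_dx_of_pos w hpos, ord_eq_one_of_generic ?_ ?_ hwc, sub_self]
  · rintro rfl; exact h0 hwc
  · rintro rfl; exact h1 hwc

variable (L N)

/-- Riemann–Hurwitz for `j : X₀(N) → P¹`, in natural numbers. -/
theorem two_mul_genusFF_modField :
    2 * (genusFF L (modField L N) : ℤ) - 2 =
      (dedekindPsi N : ℤ) - MFDim.orbCount (Cosets N) (ModularGroup.S * ModularGroup.T)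
        - MFDim.orbCount (Cosets N) ModularGroup.S - MFDim.orbCount (Cosets N) ModularGroup.T := by
  classical
  have h0 := zerosAt_spec (L := L) (N := N) (c := 0) (τ₀ := rhoPt)
    (e := 3) (by norm_num)
    (by simpa [Function.comp_def] using analyticOrderAt_jFun_of_E₄ E₄_rhoPt)
    (ModularGroup.S * ModularGroup.T) inv_ST_smul_rho
    (by rw [rotFactor_rhoPt]; exact isPrimitiveRoot_rhoPt)
  have hI : jFun UpperHalfPlane.I = 1728 := by
    have := jFun_sub_1728 UpperHalfPlane.I
    rw [E₆_I] at this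
    simpa [sub_eq_zero] using this
  have h1 := zerosAt_spec (L := L) (N := N) (c := 1728) (τ₀ := UpperHalfPlane.I)
    (e := 2) (by norm_num)
    (by rw [map_ofNat]; exact analyticOrderAt_jFun_sub_of_E₆ E₆_I)
    ModularGroup.S inv_S_smul_I
    (by rw [rotFactor_I]; exact IsPrimitiveRoot.neg_one 0 (by norm_num))
  have hinf := polesJ_spec (L := L) (N := N)
  have hne : (0 : L) ≠ 1728 := by norm_num
  rw [two_mul_genusFF_sub_two (transcendental_jElt L N)
    (zerosAt L N 0 ∪ zerosAt L N 1728 ∪ polesJ L N) (fun w hw => by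
      simp only [Finset.mem_union, not_or] at hw
      exact ordDifferential_eq_zero_of_notMem hw.1.1 hw.1.2 hw.2),
    Finset.sum_union (Finset.disjoint_union_left.mpr
      ⟨disjoint_zerosAt_polesJ _, disjoint_zerosAt_polesJ _⟩),
    Finset.sum_union (disjoint_zerosAt hne),
    Finset.sum_congr rfl fun w hw => ordDifferential_dx_of_pos w (mem_zerosAt.mp hw),
    Finset.sum_congr (s₁ := zerosAt L N 1728) rfl fun w hw =>
      ordDifferential_dx_of_pos w (mem_zerosAt.mp hw),
    Finset.sum_congr (s₁ := polesJ L N) rfl fun w hw =>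
      ordDifferential_dx_of_neg w (mem_polesJ.mp hw)]
  have hneg : ∑ w ∈ polesJ L N, w.ord (jElt L N) =
      -((CongruenceSubgroup.Gamma0 N).index : ℤ) := by
    rw [← hinf.2, ← Finset.sum_neg_distrib]
    exact Finset.sum_congr rfl fun w _ => by rw [w.ord_inv, neg_neg]
  rw [sum_ord_sub_one, sum_ord_sub_one, sum_ord_sub_one, hneg, h0.2, h1.2, h0.1, h1.1, hinf.1,
    MFDim.index_Gamma0_eq_dedekindPsi]
  ring

/-- The genus formula. -/
theorem genus_modField [HasCanonicalDivisor (K := L) (F := modField L N)] :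
    (AlgebraicCurve.genus L (modField L N) : ℚ) = genusFormula N := by
  rw [genus_eq_genusFF]
  have h := two_mul_genusFF_modField L N
  have h2 := MFDim.two_mul_orbCount_S_eq N
  have h3 := MFDim.three_mul_orbCount_ST_eq N
  rw [MFDim.orbCount_T_eq_cuspCount N] at h
  have hq := congrArg (fun z : ℤ => (z : ℚ)) h
  have h2q := congrArg (fun z : ℕ => (z : ℚ)) h2
  have h3q := congrArg (fun z : ℕ => (z : ℚ)) h3
  push_cast at hq h2q h3q
  rw [genusFormula]
  linarith

end FLTAgent.ModularFF
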