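import Fermat.Agent.ModularFF.DeltaRatioInfinity
import Fermat.Agent.SemistableHecke.Degeneracy
import Fermat.Agent.HeckeJacobian.HeckeCommute

/-!
# The Atkin–Lehner inputs of the semistable theory, over `ℚ̄`

Packages the automorphism and the Delta ratio with its properties (`exists_al_delta`) and deduces
`SemistableHecke.ALInputs` (`alInputs`).
-/

set_option autoImplicit false

noncomputable section

open ModularCurve Polynomial

namespace FLTAgent.ModularFF

local notation "Qbar" => AlgebraicClosure ℚ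

/-- Integrality over `ℤ[x]` gives integrality over `K[x]`. -/
theorem isIntegral_adjoin_of_adjoin_int {K F : Type*} [Field K] [Field F] [Algebra K F] {x y : F}
    (h : IsIntegral (Algebra.adjoin ℤ ({x} : Set F)) y) :
    IsIntegral (Algebra.adjoin K ({x} : Set F)) y := by
  obtain ⟨P, hP, hP0⟩ := h
  have hle : ∀ a : Algebra.adjoin ℤ ({x} : Set F), (a : F) ∈ Algebra.adjoin K ({x} : Set F) := by
    intro a
    exact (Subalgebra.mem_restrictScalars ℤ).1
      ((Algebra.adjoin_le (S := (Algebra.adjoin K ({x} : Set F)).restrictScalars ℤ)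
        fun _ hy => (Subalgebra.mem_restrictScalars ℤ).2 (Algebra.subset_adjoin hy)) a.2)
  refine ⟨P.map ((algebraMap (Algebra.adjoin ℤ ({x} : Set F)) F).codRestrict
    (Algebra.adjoin K ({x} : Set F)) hle), hP.map _, ?_⟩
  rw [Polynomial.eval₂_map]
  exact hP0

variable (M q : ℕ) [NeZero M] [NeZero q]

/-- The Atkin–Lehner automorphism, the function `h = Δ(τ)/Δ(qτ)` and its properties. -/
theorem exists_al_delta (hq : q.Prime) (hqM : ¬ q ∣ M) :
    ∃ w : modularFunctionFieldBar (M * q) →ₐ[Qbar] modularFunctionFieldBar (M * q),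
      w.comp (heckeAlphaBar Qbar M q) = heckeBetaBar Qbar M q ∧
      w.comp (heckeBetaBar Qbar M q) = heckeAlphaBar Qbar M q ∧
      w.comp w = AlgHom.id Qbar _ ∧
      w (jElt Qbar (M * q)) = gen Qbar (M * q) (divQ M q) ∧
      ∃ h : modularFunctionFieldBar (M * q),
        (h : LaurentSeries Qbar) = coeffEmb Qbar (modularUnitSeries q) ∧
        h * w h = (q : modularFunctionFieldBar (M * q)) ^ 12 ∧
        IsIntegral (Algebra.adjoin ℤ {jElt Qbar (M * q)}) h ∧
        IsIntegral (Algebra.adjoin ℤ {jElt Qbar (M * q)}) (w h) ∧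
        IsIntegral (Algebra.adjoin Qbar {jElt Qbar (M * q)}) h ∧
        IsIntegral (Algebra.adjoin Qbar {jElt Qbar (M * q)}) (w h) ∧
        IsIntegral (Algebra.adjoin Qbar {(jElt Qbar (M * q))⁻¹})
          (w h * gen Qbar (M * q) (divQ M q) / jElt Qbar (M * q)) := by
  let : Algebra Qbar ℂ := HeckeJacobian.qbarToC.toAlgebra
  have : Fact q.Prime := ⟨hq⟩
  have hj : alHom Qbar M q hq hqM (jElt Qbar (M * q)) = gen Qbar (M * q) (divQ M q) := by
    show alHom Qbar M q hq hqM (gen Qbar (M * q) (divOne (M * q))) = _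
    rw [alHom_gen]
    congr 1
    apply Subtype.ext
    rw [val_alSwap_of_not_dvd M q hq (by simp [divOne, hq.ne_one])]
    simp [divOne, divQ]
  have hwh := alHom_unitElt (L := Qbar) hq hqM
  refine ⟨alHom Qbar M q hq hqM, alHom_comp_alpha Qbar hq hqM, alHom_comp_beta Qbar hq hqM,
    alHom_alHom Qbar hq hqM, hj, unitElt Qbar M q hq hqM, coe_unitElt hq hqM,
    unitElt_mul_alHom hq hqM, isIntegral_unitElt hq hqM, ?_, ?_, ?_, ?_⟩
  · rw [hwh]; exact isIntegral_ratioElt
  · exact isIntegral_adjoin_of_adjoin_int (isIntegral_unitElt hq hqM)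
  · rw [hwh]; exact isIntegral_adjoin_of_adjoin_int isIntegral_ratioElt
  · rw [hwh]; exact isIntegral_ratioElt_infinity

/-- The input of the semistable Hecke theory. -/
theorem alInputs (hq : q.Prime) : SemistableHecke.ALInputs q := fun M _ hqM => by
  obtain ⟨w, h1, h2, -⟩ := exists_al_delta M q hq hqM
  exact ⟨w, h1, h2⟩

end FLTAgent.ModularFF
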