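import Mathlib.NumberTheory.ModularForms.QExpansion
import Mathlib.RingTheory.LaurentSeries
import Mathlib.Analysis.Normed.Ring.InfiniteSum

/-!
# Laurent `q`-expansions of functions on the upper half plane

`HasLaurent` says that a function is represented by a Laurent series in `exp (2 π i τ / h)` on all
of `ℍ`; expansions form a subalgebra of pairs (`laurentGraph`), determine and are determined by the
function, and exist for periodic holomorphic functions of exponential growth (`exists_hasLaurent`).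
-/

set_option autoImplicit false

noncomputable section

open UpperHalfPlane Complex Filter Function
open scoped Topology Manifold

namespace FLTAgent.ModularFF

local notation "𝕢" => Function.Periodic.qParam

/-- `f` is represented by the Laurent series `S` in `q_h = exp (2 π i τ / h)` on all of `ℍ`. -/
def HasLaurent (h : ℝ) (f : ℍ → ℂ) (S : LaurentSeries ℂ) : Prop :=
  ∃ (n : ℕ) (P : PowerSeries ℂ),
    HahnSeries.ofPowerSeries ℤ ℂ P = HahnSeries.single (n : ℤ) 1 * S ∧
      ∀ τ : ℍ, HasSum (fun m : ℕ => PowerSeries.coeff m P * 𝕢 h τ ^ m) (𝕢 h τ ^ n * f τ)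

/-- `P` converges to `g` on all of `ℍ`. -/
def PowerSum (h : ℝ) (g : ℍ → ℂ) (P : PowerSeries ℂ) : Prop :=
  ∀ τ : ℍ, HasSum (fun m : ℕ => PowerSeries.coeff m P * 𝕢 h τ ^ m) (g τ)

variable {h : ℝ}

theorem PowerSum.add {f g : ℍ → ℂ} {P Q : PowerSeries ℂ} (hf : PowerSum h f P)
    (hg : PowerSum h g Q) : PowerSum h (f + g) (P + Q) := fun τ => by
  simpa [add_mul] using (hf τ).add (hg τ)

theorem PowerSum.mul {f g : ℍ → ℂ} {P Q : PowerSeries ℂ} (hf : PowerSum h f P)
    (hg : PowerSum h g Q) : PowerSum h (f * g) (P * Q) := fun τ => by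
  set q := 𝕢 h τ
  have hF := (hf τ).summable.norm
  have hG := (hg τ).summable.norm
  have key : ∀ n : ℕ, (∑ kl ∈ Finset.HasAntidiagonal.antidiagonal n,
      (PowerSeries.coeff kl.1 P * q ^ kl.1) * (PowerSeries.coeff kl.2 Q * q ^ kl.2))
      = PowerSeries.coeff n (P * Q) * q ^ n := by
    intro n
    rw [PowerSeries.coeff_mul, Finset.sum_mul]
    refine Finset.sum_congr rfl fun kl hkl => ?_
    rw [← Finset.HasAntidiagonal.mem_antidiagonal.mp hkl, pow_add]
    ring
  have hs := (summable_norm_sum_mul_antidiagonal_of_summable_norm hF hG).of_norm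
  have ht := tsum_mul_tsum_eq_tsum_sum_antidiagonal_of_summable_norm hF hG
  rw [(hf τ).tsum_eq, (hg τ).tsum_eq] at ht
  have := hs.hasSum
  rw [← ht] at this
  rw [show (fun m : ℕ => PowerSeries.coeff m (P * Q) * q ^ m) = _ from funext fun n => (key n).symm]
  exact this

theorem powerSum_monomial (k : ℕ) (c : ℂ) :
    PowerSum h (fun τ => c * 𝕢 h τ ^ k) (PowerSeries.monomial k c) := fun τ => by
  have heq : (fun m : ℕ => PowerSeries.coeff m (PowerSeries.monomial k c) * 𝕢 h τ ^ m)
      = fun m => if m = k then c * 𝕢 h τ ^ k else 0 := by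
    funext m
    rw [PowerSeries.coeff_monomial]
    split_ifs with hm
    · rw [hm]
    · simp
  rw [heq]
  exact hasSum_ite_eq k _

theorem powerSum_const (c : ℂ) : PowerSum h (fun _ => c) (PowerSeries.C c) := by
  have := powerSum_monomial (h := h) 0 c
  rw [PowerSeries.monomial_zero_eq_C_apply] at this
  simpa using this

theorem PowerSum.qExpansion_eq {f : ℍ → ℂ} {P : PowerSeries ℂ} (hh : 0 < h)
    (hf : PowerSum h f P) (han : AnalyticAt ℂ (cuspFunction h f) 0) :
    qExpansion h f = P := by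
  ext m
  have hs : ∀ τ : ℍ, HasSum (fun m : ℕ => (PowerSeries.coeff m P) • 𝕢 h τ ^ m) (f τ) := by
    intro τ; simpa only [smul_eq_mul] using hf τ
  have h1 := (hasFPowerSeriesOnBall_cuspFunction hh han hs).hasFPowerSeriesAt
  have h2 := congr_arg (fun p => FormalMultilinearSeries.coeff p m)
    (h1.eq_formalMultilinearSeries han.hasFPowerSeriesAt)
  simp only [FormalMultilinearSeries.coeff_ofScalars] at h2
  rw [h2, qExpansion_coeff, div_eq_inv_mul]

theorem PowerSum.periodic {f : ℍ → ℂ} {P : PowerSeries ℂ} (hh : h ≠ 0) (hf : PowerSum h f P) :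
    Periodic (f ∘ ofComplex) h := by
  intro w
  by_cases hw : 0 < w.im
  · have hw' : 0 < (w + h).im := by simp [hw]
    simp only [Function.comp_apply, ofComplex_apply_of_im_pos hw, ofComplex_apply_of_im_pos hw']
    have hq : 𝕢 h (w + h) = 𝕢 h w := by
      simp only [Function.Periodic.qParam]
      rw [show 2 * (Real.pi : ℂ) * Complex.I * (w + h) / h
        = 2 * Real.pi * Complex.I * w / h + 2 * Real.pi * Complex.I by
          have : (h : ℂ) ≠ 0 := by exact_mod_cast hh
          field_simp, Complex.exp_add, Complex.exp_two_pi_mul_I, mul_one]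
    have h1 := hf ⟨w + h, hw'⟩
    have h2 := hf ⟨w, hw⟩
    simp only [hq] at h1
    exact h1.unique h2
  · have h1 : (w + h).im ≤ 0 := by simpa using hw
    simp [ofComplex_apply_of_im_nonpos h1, ofComplex_apply_of_im_nonpos (not_lt.mp hw)]

theorem PowerSum.isBoundedAtImInfty {f : ℍ → ℂ} {P : PowerSeries ℂ} (hh : 0 < h)
    (hf : PowerSum h f P) : IsBoundedAtImInfty f :=
  isBoundedAtImInfty_of_hasSum_qExpansion hh (c := fun m => PowerSeries.coeff m P)
    fun τ => by simpa only [smul_eq_mul] using hf τ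

theorem PowerSum.eq_zero {P : PowerSeries ℂ} (hh : 0 < h) (hf : PowerSum h 0 P) : P = 0 := by
  rw [← hf.qExpansion_eq hh, qExpansion_zero]
  refine analyticAt_cuspFunction_zero hh (hf.periodic hh.ne') ?_ (hf.isBoundedAtImInfty hh)
  exact mdifferentiable_const

theorem PowerSum.eq_zero_fun {f : ℍ → ℂ} (hf : PowerSum h f 0) : f = 0 := by
  funext τ
  exact (hf τ).unique (by simp)

theorem HasLaurent.of_powerSum {f : ℍ → ℂ} {S : LaurentSeries ℂ} (n : ℕ) (P : PowerSeries ℂ)
    (hS : HahnSeries.ofPowerSeries ℤ ℂ P = HahnSeries.single (n : ℤ) 1 * S)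
    (hP : PowerSum h (fun τ => 𝕢 h τ ^ n * f τ) P) : HasLaurent h f S :=
  ⟨n, P, hS, hP⟩

theorem HasLaurent.exists_ge {f : ℍ → ℂ} {S : LaurentSeries ℂ} (hf : HasLaurent h f S) :
    ∃ n₀ : ℕ, ∀ n, n₀ ≤ n → ∃ P : PowerSeries ℂ,
      HahnSeries.ofPowerSeries ℤ ℂ P = HahnSeries.single (n : ℤ) 1 * S ∧
        PowerSum h (fun τ => 𝕢 h τ ^ n * f τ) P := by
  obtain ⟨n₀, P, hS, hP⟩ := hf
  refine ⟨n₀, fun n hn => ?_⟩
  obtain ⟨k, rfl⟩ := Nat.exists_eq_add_of_le hn
  refine ⟨PowerSeries.monomial k 1 * P, ?_, ?_⟩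
  · rw [map_mul, hS, ← PowerSeries.X_pow_eq, HahnSeries.ofPowerSeries_X_pow, ← mul_assoc,
      HahnSeries.single_mul_single, one_mul]
    push_cast
    rw [add_comm]
  · intro τ
    have := ((powerSum_monomial (h := h) k 1).mul hP) τ
    simpa [pow_add, mul_assoc, mul_left_comm, mul_comm] using this

theorem HasLaurent.add {f g : ℍ → ℂ} {S T : LaurentSeries ℂ} (hf : HasLaurent h f S)
    (hg : HasLaurent h g T) : HasLaurent h (f + g) (S + T) := by
  obtain ⟨a, ha⟩ := hf.exists_ge
  obtain ⟨b, hb⟩ := hg.exists_ge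
  obtain ⟨P, hP, hP'⟩ := ha (max a b) (le_max_left _ _)
  obtain ⟨Q, hQ, hQ'⟩ := hb (max a b) (le_max_right _ _)
  refine .of_powerSum (max a b) (P + Q) (by rw [map_add, hP, hQ, mul_add]) ?_
  intro τ
  simpa [mul_add] using (hP'.add hQ') τ

theorem HasLaurent.mul {f g : ℍ → ℂ} {S T : LaurentSeries ℂ} (hf : HasLaurent h f S)
    (hg : HasLaurent h g T) : HasLaurent h (f * g) (S * T) := by
  obtain ⟨a, P, hP, hP'⟩ := hf
  obtain ⟨b, Q, hQ, hQ'⟩ := hg
  refine .of_powerSum (a + b) (P * Q) ?_ ?_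
  · rw [map_mul, hP, hQ, mul_mul_mul_comm, HahnSeries.single_mul_single, one_mul]
    push_cast
    rfl
  · intro τ
    have := (PowerSum.mul (hP' : PowerSum h (fun τ => 𝕢 h τ ^ a * f τ) P)
      (hQ' : PowerSum h (fun τ => 𝕢 h τ ^ b * g τ) Q)) τ
    simpa [pow_add, mul_assoc, mul_left_comm, mul_comm] using this

/-- The expansion of a constant. -/
theorem hasLaurent_const (c : ℂ) : HasLaurent h (fun _ => c) (HahnSeries.C c) := by
  refine .of_powerSum 0 (PowerSeries.C c) ?_ ?_
  · rw [HahnSeries.ofPowerSeries_C]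
    simp
  · simpa using powerSum_const (h := h) c

theorem HasLaurent.eq_zero {S : LaurentSeries ℂ} (hh : 0 < h) (hf : HasLaurent h 0 S) :
    S = 0 := by
  obtain ⟨n, P, hP, hP'⟩ := hf
  have h0 : P = 0 := PowerSum.eq_zero (h := h) hh fun τ => by simpa using hP' τ
  rw [h0, map_zero] at hP
  rcases mul_eq_zero.mp hP.symm with h1 | h1
  · exact absurd h1 (by simp)
  · exact h1

theorem HasLaurent.eq_zero_fun {f : ℍ → ℂ} (hf : HasLaurent h f 0) : f = 0 := by
  obtain ⟨n, P, hP, hP'⟩ := hf
  rw [mul_zero, ← map_zero (HahnSeries.ofPowerSeries ℤ ℂ)] at hP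
  have hP0 : P = 0 := HahnSeries.ofPowerSeries_injective hP
  subst hP0
  funext τ
  have := congrFun (PowerSum.eq_zero_fun (h := h) (f := fun τ => 𝕢 h τ ^ n * f τ) hP') τ
  simpa [Function.Periodic.qParam_ne_zero] using this

/-- The graph of the expansion map, as a subalgebra of pairs. -/
def laurentGraph (h : ℝ) : Subalgebra ℂ ((ℍ → ℂ) × LaurentSeries ℂ) where
  carrier := {p | HasLaurent h p.1 p.2}
  mul_mem' hp hq := hp.mul hq
  add_mem' hp hq := hp.add hq
  algebraMap_mem' c := by
    show HasLaurent h _ _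
    have : (algebraMap ℂ ((ℍ → ℂ) × LaurentSeries ℂ) c) = ((fun _ => c), HahnSeries.C c) := by
      refine Prod.ext rfl ?_
      rw [Prod.algebraMap_apply, HahnSeries.algebraMap_apply']
      simp
    rw [this]
    exact hasLaurent_const c

theorem HasLaurent.neg {f : ℍ → ℂ} {S : LaurentSeries ℂ} (hf : HasLaurent h f S) :
    HasLaurent h (-f) (-S) := (neg_mem (s := laurentGraph h) (x := (f, S)) hf :)

theorem HasLaurent.sub {f g : ℍ → ℂ} {S T : LaurentSeries ℂ} (hf : HasLaurent h f S)
    (hg : HasLaurent h g T) : HasLaurent h (f - g) (S - T) := by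
  simpa [sub_eq_add_neg] using hf.add hg.neg

theorem HasLaurent.unique {f : ℍ → ℂ} {S T : LaurentSeries ℂ} (hh : 0 < h)
    (hf : HasLaurent h f S) (hg : HasLaurent h f T) : S = T := by
  have := hf.sub hg
  rw [sub_self] at this
  exact sub_eq_zero.mp (this.eq_zero hh)

theorem HasLaurent.unique_fun {f g : ℍ → ℂ} {S : LaurentSeries ℂ}
    (hf : HasLaurent h f S) (hg : HasLaurent h g S) : f = g := by
  have := hf.sub hg
  rw [sub_self] at this
  exact sub_eq_zero.mp this.eq_zero_fun

/-- A periodic holomorphic function with at most exponential growth has a Laurent expansion. -/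
theorem exists_hasLaurent {f : ℍ → ℂ} (hh : 0 < h) (hper : Periodic (f ∘ ofComplex) h)
    (hhol : MDiff f) (n : ℕ) (hbdd : IsBoundedAtImInfty fun τ : ℍ => 𝕢 h τ ^ n * f τ) :
    ∃ S : LaurentSeries ℂ, HasLaurent h f S ∧ ∀ m : ℤ, m < -(n : ℤ) → S.coeff m = 0 := by
  set g : ℍ → ℂ := fun τ => 𝕢 h τ ^ n * f τ with hg
  have hgper : Periodic (g ∘ ofComplex) h := by
    intro w
    by_cases hw : 0 < w.im
    · have hw' : 0 < (w + h).im := by simp [hw]
      have := hper w
      simp only [Function.comp_apply, ofComplex_apply_of_im_pos hw,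
        ofComplex_apply_of_im_pos hw'] at this ⊢
      simp only [hg]
      rw [this]
      congr 1
      simp only [Function.Periodic.qParam]
      rw [show 2 * (Real.pi : ℂ) * Complex.I * (w + h) / h
        = 2 * Real.pi * Complex.I * w / h + 2 * Real.pi * Complex.I by
          have : (h : ℂ) ≠ 0 := by exact_mod_cast hh.ne'
          field_simp, Complex.exp_add, Complex.exp_two_pi_mul_I, mul_one]
    · have h1 : (w + h).im ≤ 0 := by simpa using hw
      simp [ofComplex_apply_of_im_nonpos h1, ofComplex_apply_of_im_nonpos (not_lt.mp hw)]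
  have hghol : MDiff g := by
    rw [UpperHalfPlane.mdifferentiable_iff] at hhol ⊢
    have hq : DifferentiableOn ℂ (fun z => 𝕢 h z ^ n) upperHalfPlaneSet := by fun_prop
    refine (hq.mul hhol).congr ?_
    intro z hz
    simp [hg, Function.comp_apply, ofComplex_apply_of_im_pos hz]
  refine ⟨HahnSeries.single (-(n : ℤ)) 1 * HahnSeries.ofPowerSeries ℤ ℂ (qExpansion h g),
    .of_powerSum n (qExpansion h g) ?_ ?_, ?_⟩
  · rw [← mul_assoc, HahnSeries.single_mul_single, add_neg_cancel, mul_one,
      HahnSeries.single_zero_one, one_mul]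
  · intro τ
    simpa only [smul_eq_mul] using hasSum_qExpansion hh hgper hghol hbdd τ
  · intro m hm
    rw [HahnSeries.coeff_single_mul, one_mul, HahnSeries.ofPowerSeries_apply]
    refine HahnSeries.embDomain_of_notMem_range ?_
    rintro ⟨k, hk⟩
    simp at hk
    omega

end FLTAgent.ModularFF
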