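import Mathlib.NumberTheory.ModularForms.LevelOne.GradedRing
import Mathlib.Analysis.Complex.LocallyUniformLimit
import Fermat.Prelude.Def_ModularCurve_JqCoeff
import Fermat.Prelude.Def_ModularCurve_LaurentCoeff
import Fermat.Agent.ModularFF.Expansion

/-!
# The analytic `j`-function and its `q`-expansion

The eta product converges to its formal series (`hasSum_etaProd`); hence `jFun = E₄³/Δ` has the
Prelude series `jqModC ℂ` as its `q`-expansion (`hasLaurent_jFun`).
-/

set_option autoImplicit false

noncomputable section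

open UpperHalfPlane Complex Filter Function
open scoped Topology Manifold MatrixGroups ModularForm

namespace FLTAgent.ModularFF

local notation "𝕢" => Function.Periodic.qParam

section Eta

open scoped PowerSeries.WithPiTopology

theorem coeff_one_sub_X_pow_prod (m : ℕ) {n : ℕ} (hn : m ≤ n) :
    PowerSeries.coeff m (∏ i ∈ Finset.range n, (1 - PowerSeries.X ^ (i + 1) : PowerSeries ℤ)) =
      PowerSeries.coeff m
        (∏ i ∈ Finset.range m, (1 - PowerSeries.X ^ (i + 1) : PowerSeries ℤ)) := by
  induction n, hn using Nat.le_induction with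
  | base => rfl
  | succ n hn ih =>
    rw [Finset.prod_range_succ, mul_sub, mul_one, map_sub,
      PowerSeries.coeff_mul_X_pow', if_neg (by omega), sub_zero, ih]

theorem coeff_etaProd (m : ℕ) :
    PowerSeries.coeff m ModularCurve.etaProd =
      PowerSeries.coeff m
        (∏ i ∈ Finset.range m, (1 - PowerSeries.X ^ (i + 1) : PowerSeries ℤ)) := by
  have h := ((PowerSeries.WithPiTopology.multipliable_one_sub_X_pow ℤ).hasProd).tendsto_prod_nat
  have hc := ((PowerSeries.WithPiTopology.continuous_coeff ℤ m).tendsto _).comp h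
  refine tendsto_nhds_unique hc ?_
  exact tendsto_const_nhds.congr' (eventually_atTop.mpr
    ⟨m, fun n hn => (coeff_one_sub_X_pow_prod m hn).symm⟩)

end Eta

/-- The polynomial partial products of the eta product. -/
def etaPartial (n : ℕ) (q : ℂ) : ℂ := ∏ i ∈ Finset.range n, (1 - q ^ (i + 1))

theorem differentiable_etaPartial (n : ℕ) : Differentiable ℂ (etaPartial n) := by
  unfold etaPartial
  fun_prop

theorem etaPartial_eq_eval (n : ℕ) :
    etaPartial n = fun q => (∏ i ∈ Finset.range n,
      (1 - Polynomial.X ^ (i + 1) : Polynomial ℂ)).eval q := by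
  funext q
  simp [etaPartial, Polynomial.eval_prod]

theorem iteratedDeriv_eval_zero (m : ℕ) : ∀ p : Polynomial ℂ,
    iteratedDeriv m (fun q => p.eval q) 0 = (m.factorial : ℂ) * p.coeff m := by
  induction m with
  | zero => intro p; simp [Polynomial.coeff_zero_eq_eval_zero]
  | succ m ih =>
    intro p
    rw [iteratedDeriv_succ']
    have : deriv (fun q => p.eval q) = fun q => p.derivative.eval q := by
      funext q; exact p.deriv
    rw [this, ih, Polynomial.coeff_derivative, Nat.factorial_succ]
    push_cast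
    ring

theorem tendsto_iteratedDeriv_etaPartial (m : ℕ) :
    TendstoLocallyUniformlyOn (fun n => iteratedDeriv m (etaPartial n))
      (iteratedDeriv m (fun q => ∏' i : ℕ, (1 - q ^ (i + 1)))) atTop (Metric.ball (0 : ℂ) 1) := by
  induction m with
  | zero =>
    simp only [iteratedDeriv_zero]
    exact ModularForm.multipliableLocallyUniformlyOn_one_sub_pow.hasProdLocallyUniformlyOn
      |>.tendstoLocallyUniformlyOn_finsetRange
  | succ m ih =>
    simp only [iteratedDeriv_succ]
    refine (ih.deriv (.of_forall fun n => ?_) Metric.isOpen_ball)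
    exact (((differentiable_etaPartial n).contDiff (n := ⊤)).differentiable_iteratedDeriv m
      (by exact_mod_cast WithTop.coe_lt_top _)).differentiableOn

theorem iteratedDeriv_etaTprod_zero (m : ℕ) :
    iteratedDeriv m (fun q : ℂ => ∏' i : ℕ, (1 - q ^ (i + 1))) 0
      = (m.factorial : ℂ) * (PowerSeries.coeff m ModularCurve.etaProd : ℤ) := by
  have h := (tendsto_iteratedDeriv_etaPartial m).tendsto_at (Metric.mem_ball_self one_pos)
  refine tendsto_nhds_unique h ?_
  refine tendsto_const_nhds.congr' (eventually_atTop.mpr ⟨m, fun n hn => ?_⟩)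
  show _ = iteratedDeriv m (etaPartial n) 0
  rw [etaPartial_eq_eval, iteratedDeriv_eval_zero, coeff_etaProd, ← coeff_one_sub_X_pow_prod m hn]
  congr 1
  rw [← Polynomial.coeff_coe]
  have : ((∏ i ∈ Finset.range n, (1 - Polynomial.X ^ (i + 1) : Polynomial ℂ) : Polynomial ℂ) :
      PowerSeries ℂ) = PowerSeries.map (Int.castRingHom ℂ)
        (∏ i ∈ Finset.range n, (1 - PowerSeries.X ^ (i + 1) : PowerSeries ℤ)) := by
    rw [← Polynomial.coeToPowerSeries.ringHom_apply, map_prod, map_prod]
    simp
  rw [this, PowerSeries.coeff_map]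
  rfl

/-- The eta product converges to its formal series. -/
theorem hasSum_etaProd {q : ℂ} (hq : ‖q‖ < 1) :
    HasSum (fun m : ℕ => ((PowerSeries.coeff m ModularCurve.etaProd : ℤ) : ℂ) * q ^ m)
      (∏' i : ℕ, (1 - q ^ (i + 1))) := by
  have h := Complex.hasSum_taylorSeries_on_ball
    ModularForm.differentiableOn_tprod_one_sub_pow (z := q) (by simpa using hq)
  convert! h using 2 with m
  rw [iteratedDeriv_etaTprod_zero]
  simp only [sub_zero, smul_eq_mul]
  field_simp [Nat.factorial_ne_zero]

theorem powerSum_eta_pow (k : ℕ) :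
    PowerSum 1 (fun τ : ℍ => (∏' i : ℕ, (1 - 𝕢 1 τ ^ (i + 1))) ^ k)
      (PowerSeries.map (Int.castRingHom ℂ) (ModularCurve.etaProd ^ k)) := by
  induction k with
  | zero => simpa using powerSum_const (h := 1) 1
  | succ k ih =>
    have h1 : PowerSum 1 (fun τ : ℍ => ∏' i : ℕ, (1 - 𝕢 1 τ ^ (i + 1)))
        (PowerSeries.map (Int.castRingHom ℂ) ModularCurve.etaProd) := fun τ => by
      simpa using hasSum_etaProd (Function.Periodic.norm_qParam_lt_one one_pos τ.im_pos)
    have := ih.mul h1
    simpa [pow_succ, map_mul, Pi.mul_def] using this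

theorem powerSum_discriminant :
    PowerSum 1 ModularForm.discriminant
      (PowerSeries.X * PowerSeries.map (Int.castRingHom ℂ) ModularCurve.dedekindEtaUnit) := by
  have hX : PowerSum 1 (fun τ : ℍ => 𝕢 1 τ) (PowerSeries.X : PowerSeries ℂ) := by
    simpa [← PowerSeries.X_eq] using powerSum_monomial (h := 1) 1 1
  have := hX.mul (powerSum_eta_pow 24)
  intro τ
  have hval : ModularForm.discriminant τ
      = 𝕢 1 τ * (∏' i : ℕ, (1 - 𝕢 1 τ ^ (i + 1))) ^ 24 := by
    rw [ModularForm.discriminant_eq_q_prod, Multipliable.tprod_pow]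
    exact ModularForm.multipliable_one_sub_pow
      (Function.Periodic.norm_qParam_lt_one one_pos τ.im_pos)
  rw [hval]
  exact this τ

theorem powerSum_E₄ :
    PowerSum 1 ModularForm.E₄ (PowerSeries.map (Int.castRingHom ℂ) ModularCurve.eisenstein4) := by
  intro τ
  have := ModularForm.hasSum_qExpansion (f := ModularForm.E₄) one_pos
    one_mem_strictPeriods_SL τ
  convert! this using 2 with m
  congr 1
  have hb : bernoulli 4 = -1 / 30 := by decide +kernel
  rw [show (ModularForm.E₄ : ModularForm 𝒮ℒ 4) = ModularForm.E (k := 4) (by norm_num) from rfl,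
    EisensteinSeries.E_qExpansion_coeff _ ⟨2, rfl⟩, PowerSeries.coeff_map,
    ModularCurve.eisenstein4, PowerSeries.coeff_mk, hb]
  rcases eq_or_ne m 0 with hm | hm
  · simp [hm]
  · simp [hm, ArithmeticFunction.sigma_apply]
    norm_num

/-- The analytic `j`-function. -/
def jFun (τ : ℍ) : ℂ := ModularForm.E₄ τ ^ 3 / ModularForm.discriminant τ

/-- Formal identity `single (-1) * jNum` for the series of `jqModC`. -/
theorem coeffEmb_jq (L : Type*) [Field L] [Algebra ℚ L] :
    ModularCurve.coeffEmb L ModularCurve.jq = ModularCurve.jqModC L :=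
  ModularCurve.map_jqModC (K := ℚ) (algebraMap ℚ L)

theorem powerSum_q_mul_jFun :
    PowerSum 1 (fun τ : ℍ => 𝕢 1 τ * jFun τ)
      (PowerSeries.map (Int.castRingHom ℂ) ModularCurve.jNum) := by
  have h4 : PowerSum 1 (fun τ : ℍ => ModularForm.E₄ τ ^ 3)
      (PowerSeries.map (Int.castRingHom ℂ) (ModularCurve.eisenstein4 ^ 3)) := by
    have := (powerSum_E₄.mul powerSum_E₄).mul powerSum_E₄
    simpa [pow_succ, map_mul, Pi.mul_def] using this
  have hinv : ∀ τ : ℍ, HasSum
      (fun m : ℕ => PowerSeries.coeff m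
        (PowerSeries.map (Int.castRingHom ℂ) ModularCurve.dedekindEtaUnitInv) * 𝕢 1 τ ^ m)
      ((∏' i : ℕ, (1 - 𝕢 1 τ ^ (i + 1))) ^ 24)⁻¹ := by
    set g : ℍ → ℂ := fun τ => ((∏' i : ℕ, (1 - 𝕢 1 τ ^ (i + 1))) ^ 24)⁻¹ with hg
    -- the inverse has some convergent expansion, which must be the formal inverse
    have hd : DifferentiableOn ℂ (fun q : ℂ => ((∏' i : ℕ, (1 - q ^ (i + 1))) ^ 24)⁻¹)
        (Metric.ball (0 : ℂ) 1) := by
      refine ((ModularForm.differentiableOn_tprod_one_sub_pow).pow 24).inv fun q hq => ?_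
      refine pow_ne_zero _ ?_
      refine tprod_one_add_ne_zero_of_summable (f := fun i : ℕ => -q ^ (i + 1)) (fun i => ?_) ?_
      · have hq' : ‖q‖ < 1 := by simpa using hq
        intro h0
        have h1 : q ^ (i + 1) = 1 := by linear_combination -h0
        have := congrArg norm h1
        rw [norm_pow, norm_one] at this
        exact absurd this (pow_lt_one₀ (norm_nonneg _) hq' (by omega)).ne
      · simpa using (summable_nat_add_iff 1).mpr
          (summable_geometric_of_lt_one (norm_nonneg _) (by simpa using hq))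
    set P : PowerSeries ℂ := PowerSeries.mk fun m => (m.factorial : ℂ)⁻¹ *
      iteratedDeriv m (fun q : ℂ => ((∏' i : ℕ, (1 - q ^ (i + 1))) ^ 24)⁻¹) 0 with hP
    have hPg : PowerSum 1 g P := fun τ => by
      have := Complex.hasSum_taylorSeries_on_ball hd (z := 𝕢 1 τ)
        (by simpa using Function.Periodic.norm_qParam_lt_one one_pos τ.im_pos)
      simpa [hP, hg, mul_comm, mul_left_comm] using this
    have hone := hPg.mul (powerSum_eta_pow 24)
    have h1 : PowerSum 1 1
        (P * PowerSeries.map (Int.castRingHom ℂ) ModularCurve.dedekindEtaUnit) := fun τ => by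
      have hne : (∏' i : ℕ, (1 - 𝕢 1 τ ^ (i + 1))) ^ 24 ≠ 0 :=
        pow_ne_zero _ (ModularForm.eta_tprod_ne_zero τ.im_pos)
      have := hone τ
      simp only [Pi.mul_apply, hg, inv_mul_cancel₀ hne] at this
      exact this
    have hz : P * PowerSeries.map (Int.castRingHom ℂ) ModularCurve.dedekindEtaUnit - 1 = 0 := by
      refine PowerSum.eq_zero (h := 1) one_pos fun τ => ?_
      have := (h1 τ).sub (powerSum_const (h := 1) 1 τ)
      simpa [sub_mul] using this
    have hPe : P = PowerSeries.map (Int.castRingHom ℂ) ModularCurve.dedekindEtaUnitInv := by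
      calc P = P * PowerSeries.map (Int.castRingHom ℂ)
            (ModularCurve.dedekindEtaUnit * ModularCurve.dedekindEtaUnitInv) := by
            rw [ModularCurve.dedekindEtaUnit_mul_inv, map_one, mul_one]
        _ = _ := by rw [map_mul, ← mul_assoc, sub_eq_zero.mp hz, one_mul]
    intro τ
    rw [← hPe]
    exact hPg τ
  have := h4.mul hinv
  intro τ
  have hval : 𝕢 1 τ * jFun τ
      = ModularForm.E₄ τ ^ 3 * ((∏' i : ℕ, (1 - 𝕢 1 τ ^ (i + 1))) ^ 24)⁻¹ := by
    rw [jFun, ModularForm.discriminant_eq_q_prod, Multipliable.tprod_pow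
      (ModularForm.multipliable_one_sub_pow
        (Function.Periodic.norm_qParam_lt_one one_pos τ.im_pos))]
    have := Function.Periodic.qParam_ne_zero (h := 1) (τ : ℂ)
    field_simp
  have h' := this τ
  simp only [Pi.mul_apply, ← hval, ← map_mul] at h'
  exact h'

/-- The `q`-expansion of `j` is the Prelude's series `jqModC ℂ`. -/
theorem hasLaurent_jFun : HasLaurent 1 jFun (ModularCurve.jqModC ℂ) := by
  refine .of_powerSum 1 (PowerSeries.map (Int.castRingHom ℂ) ModularCurve.jNum) ?_ ?_
  · rw [ModularCurve.jqModC, ← mul_assoc, HahnSeries.single_mul_single]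
    simp
  · simpa using powerSum_q_mul_jFun

end FLTAgent.ModularFF
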