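import Mathlib.NumberTheory.ModularForms.Derivative
import Fermat.Agent.ModularFF.JExpansion

/-!
# Properties of the analytic `j`-function

`jFun` is holomorphic (`mdiff_jFun`), invariant under `SL(2, ℤ)` (`jFun_smul`), grows like `1/q` at
infinity, has derivative `c E₄² E₆ / Δ` (`exists_D_jFun`) and takes every value (`exists_jFun_eq`).
-/

set_option autoImplicit false

noncomputable section

open UpperHalfPlane Complex Filter Function Derivative
open scoped Topology Manifold MatrixGroups ModularForm

namespace FLTAgent.ModularFF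

local notation "𝕢" => Function.Periodic.qParam

/-- `j` is holomorphic on the upper half plane. -/
theorem mdiff_jFun : MDiff jFun := by
  rw [UpperHalfPlane.mdifferentiable_iff]
  have h4 := UpperHalfPlane.mdifferentiable_iff.mp (ModularFormClass.holo ModularForm.E₄)
  have hD := UpperHalfPlane.mdifferentiable_iff.mp (ModularFormClass.holo CuspForm.discriminant)
  refine ((h4.pow 3).div hD fun z hz => ?_).congr fun z hz => ?_
  · simpa [Function.comp_apply, ofComplex_apply_of_im_pos hz] using
      ModularForm.discriminant_ne_zero (⟨z, hz⟩ : ℍ)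
  · simp [jFun, Function.comp_apply]

theorem slash_eqn_SL {F : Type*} [FunLike F ℍ ℂ] {k : ℤ} [SlashInvariantFormClass F 𝒮ℒ k]
    (f : F) (γ : SL(2, ℤ)) (τ : ℍ) :
    f (γ • τ) = UpperHalfPlane.denom γ τ ^ k * f τ := by
  have h : (⇑f) ∣[k] γ = ⇑f :=
    SlashInvariantFormClass.slash_action_eq f (Matrix.SpecialLinearGroup.mapGL ℝ γ) ⟨γ, rfl⟩
  have := congrFun h τ
  rw [ModularForm.SL_slash_apply] at this
  rw [← this, mul_comm (f (γ • τ)), ← mul_assoc, ← zpow_add₀ (UpperHalfPlane.denom_ne_zero γ τ),
    add_neg_cancel, zpow_zero, one_mul]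

/-- `j` is invariant under `SL(2, ℤ)`. -/
theorem jFun_smul (γ : SL(2, ℤ)) (τ : ℍ) : jFun (γ • τ) = jFun τ := by
  have h1 := slash_eqn_SL ModularForm.E₄ γ τ
  have h2 := slash_eqn_SL CuspForm.discriminant γ τ
  rw [CuspForm.coe_discriminant] at h2
  have hd : (UpperHalfPlane.denom γ τ) ≠ 0 := UpperHalfPlane.denom_ne_zero γ τ
  simp only [jFun, h1, h2]
  rw [mul_pow, ← zpow_natCast ((UpperHalfPlane.denom γ τ) ^ (4 : ℤ)) 3, ← zpow_mul]
  norm_num
  exact mul_div_mul_left _ _ (pow_ne_zero _ hd)

theorem tendsto_q_mul_jFun :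
    Tendsto (fun τ : ℍ => 𝕢 1 τ * jFun τ) atImInfty (𝓝 1) := by
  have hP := powerSum_q_mul_jFun
  have han : AnalyticAt ℂ (cuspFunction 1 fun τ : ℍ => 𝕢 1 τ * jFun τ) 0 := by
    refine analyticAt_cuspFunction_zero one_pos (hP.periodic one_ne_zero) ?_
      (hP.isBoundedAtImInfty one_pos)
    have hq : MDiff (fun τ : ℍ => 𝕢 1 τ) := by
      rw [UpperHalfPlane.mdifferentiable_iff]
      have : DifferentiableOn ℂ (fun z => 𝕢 1 z) upperHalfPlaneSet := by fun_prop
      refine this.congr fun z hz => ?_
      simp [Function.comp_apply, ofComplex_apply_of_im_pos hz]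
    exact hq.mul mdiff_jFun
  have h0 : cuspFunction 1 (fun τ : ℍ => 𝕢 1 τ * jFun τ) 0 = 1 := by
    have := congrArg (fun P => PowerSeries.coeff 0 P) (hP.qExpansion_eq one_pos han)
    simp only [qExpansion_coeff] at this
    simpa [ModularCurve.constantCoeff_jNum] using this
  have := han.continuousAt.tendsto.comp (qParam_tendsto_atImInfty one_pos)
  rw [h0] at this
  refine this.congr fun τ => ?_
  exact eq_cuspFunction τ one_ne_zero (hP.periodic one_ne_zero)

theorem tendsto_norm_jFun_mul_exp :
    Tendsto (fun τ : ℍ => ‖jFun τ‖ * Real.exp (-2 * Real.pi * τ.im)) atImInfty (𝓝 1) := by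
  have := tendsto_q_mul_jFun.norm
  rw [norm_one] at this
  refine this.congr fun τ => ?_
  rw [norm_mul, mul_comm, Function.Periodic.norm_qParam]
  simp

theorem isBoundedAtImInfty_D {f : ℍ → ℂ} (hper : Periodic (f ∘ ofComplex) (1 : ℝ))
    (hhol : MDiff f) (hbdd : IsBoundedAtImInfty f) :
    IsBoundedAtImInfty (Derivative.normalizedDerivOfComplex f) := by
  set F := cuspFunction 1 f with hF
  have hdiff : DifferentiableOn ℂ F (Metric.ball 0 1) :=
    differentiableOn_cuspFunction_ball one_pos hper hhol hbdd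
  have hcont : ContinuousAt (fun q => (2 * Real.pi * Complex.I)⁻¹ *
      (deriv F q * (2 * Real.pi * Complex.I * q))) 0 := by
    refine continuousAt_const.mul (ContinuousAt.mul ?_ (by fun_prop))
    exact ((hdiff.deriv Metric.isOpen_ball).continuousOn).continuousAt
      (Metric.ball_mem_nhds 0 one_pos)
  have ht := hcont.tendsto.comp (qParam_tendsto_atImInfty one_pos)
  refine (ht.congr fun τ => ?_).isBigO_one ℝ
  have hq : ‖𝕢 1 (τ : ℂ)‖ < 1 := Function.Periodic.norm_qParam_lt_one one_pos τ.im_pos
  have hFd : DifferentiableAt ℂ F (𝕢 1 τ) :=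
    differentiableAt_cuspFunction one_pos hper hhol hbdd hq
  have heq : f ∘ ofComplex =ᶠ[𝓝 (τ : ℂ)] fun z => F (𝕢 1 z) := by
    filter_upwards [isOpen_upperHalfPlaneSet.mem_nhds τ.im_pos] with z hz
    simp only [Function.comp_apply, ofComplex_apply_of_im_pos hz, hF]
    exact (eq_cuspFunction ⟨z, hz⟩ one_ne_zero hper).symm
  have hq' : HasDerivAt (fun z => 𝕢 1 z) (2 * Real.pi * Complex.I * 𝕢 1 τ) (τ : ℂ) := by
    have h1 : HasDerivAt (fun z : ℂ => 2 * Real.pi * Complex.I * z)
        (2 * Real.pi * Complex.I) (τ : ℂ) := by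
      simpa using (hasDerivAt_id (τ : ℂ)).const_mul (2 * Real.pi * Complex.I)
    have h2 : (fun z => 𝕢 1 z) = fun z : ℂ => Complex.exp (2 * Real.pi * Complex.I * z) := by
      funext z; simp [Function.Periodic.qParam]
    rw [h2]
    simpa [Function.Periodic.qParam, mul_comm] using h1.cexp
  simp only [Function.comp_apply, Derivative.normalizedDerivOfComplex]
  rw [heq.deriv_eq]
  congr 1
  exact ((hFd.hasDerivAt.comp (τ : ℂ) hq').deriv).symm

/-- `D j = c E₄² E₆ / Δ` with `c ≠ 0`. -/
theorem exists_D_jFun : ∃ c : ℂ, c ≠ 0 ∧ ∀ τ : ℍ,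
    Derivative.normalizedDerivOfComplex jFun τ =
      c * ModularForm.E₄ τ ^ 2 * ModularForm.E₆ τ / ModularForm.discriminant τ := by
  set G : ℍ → ℂ := fun τ => ModularForm.E₄ τ ^ 3 with hG
  have hpow : ((ModularForm.E₄.pow 3 : ModularForm 𝒮ℒ _) : ℍ → ℂ) = G := ModularForm.coe_pow _ 3
  have hGhol : MDiff G := by
    have := ModularFormClass.holo (ModularForm.E₄.pow 3)
    rwa [hpow] at this
  set W : ℍ → ℂ := serreDerivative ((12 : ℤ) : ℂ) G with hW
  have hGinv : ∀ γ : SL(2, ℤ), G ∣[(12 : ℤ)] γ = G := by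
    intro γ
    have := SlashInvariantFormClass.slash_action_eq (ModularForm.E₄.pow 3)
      (γ : GL (Fin 2) ℝ) ⟨γ, rfl⟩
    rw [hpow] at this
    exact this
  have hWinv : ∀ γ : SL(2, ℤ), W ∣[(14 : ℤ)] γ = W := fun γ =>
    serreDerivative_slash_invariant (k := 12) hGhol (hGinv γ)
  have hGbdd : IsBoundedAtImInfty G := by
    have := ModularFormClass.bdd_at_infty (ModularForm.E₄.pow 3)
    rwa [hpow] at this
  have hGper : Periodic (G ∘ ofComplex) (1 : ℝ) := by
    have := SlashInvariantFormClass.periodic_comp_ofComplex (ModularForm.E₄.pow 3)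
      (h := (1 : ℝ)) (one_mem_strictPeriods_SL)
    rwa [hpow] at this
  have hWbdd : IsBoundedAtImInfty W := by
    have h1 := isBoundedAtImInfty_D hGper hGhol hGbdd
    have h2 : IsBoundedAtImInfty
        (fun τ => ((12 : ℤ) : ℂ) * 12⁻¹ * EisensteinSeries.E2 τ * G τ) := by
      refine Filter.BoundedAtFilter.mul
        (Filter.BoundedAtFilter.mul ?_ EisensteinSeries.isBoundedAtImInfty_E2) hGbdd
      exact Filter.const_boundedAtFilter _ _
    exact h1.sub h2
  let F : ModularForm 𝒮ℒ 14 :=
    { toFun := W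
      slash_action_eq' := fun _ ⟨γ, hγ⟩ => hγ ▸ hWinv γ
      holo' := serreDerivative_mdifferentiable _ hGhol
      bdd_at_cusps' := fun {c} hc => by
        rw [Subgroup.IsArithmetic.isCusp_iff_isCusp_SL2Z] at hc
        rw [OnePoint.isBoundedAt_iff_forall_SL2Z hc]
        intro γ _
        rw [hWinv γ]
        exact hWbdd }
  let E14 : ModularForm 𝒮ℒ 14 :=
    ModularForm.mcast (by norm_num) ((ModularForm.E₄.mul ModularForm.E₄).mul ModularForm.E₆)
  have hE14 : ∀ τ, E14 τ = ModularForm.E₄ τ ^ 2 * ModularForm.E₆ τ := fun τ => by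
    simp [E14, ModularForm.coe_mcast, pow_two]
    rfl
  have hE14ne : E14 ≠ 0 := by
    intro h0
    have hq : qExpansion 1 (E14 : ℍ → ℂ) = qExpansion 1 ModularForm.E₄ *
        qExpansion 1 ModularForm.E₄ * qExpansion 1 ModularForm.E₆ := by
      simp only [E14, ModularForm.coe_mcast]
      rw [ModularForm.qExpansion_mul one_pos one_mem_strictPeriods_SL,
        ModularForm.qExpansion_mul one_pos one_mem_strictPeriods_SL]
    rw [h0] at hq
    have := congrArg PowerSeries.constantCoeff hq
    rw [map_mul, map_mul] at this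
    simp only [← PowerSeries.coeff_zero_eq_constantCoeff_apply,
      EisensteinSeries.E_qExpansion_coeff_zero _ ⟨2, rfl⟩,
      EisensteinSeries.E_qExpansion_coeff_zero _ ⟨3, rfl⟩] at this
    simp [qExpansion_zero] at this
  have hr : Module.rank ℂ (ModularForm 𝒮ℒ 14) = 1 := by
    have := ModularForm.dimension_level_one 14 ⟨7, rfl⟩
    rw [if_pos (by decide)] at this
    simpa using this
  obtain ⟨c, hc⟩ := (finrank_eq_one_iff_of_nonzero' E14 hE14ne).mp
    (Module.rank_eq_one_iff_finrank_eq_one.mp hr) F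
  have hWc : ∀ τ, W τ = c * (ModularForm.E₄ τ ^ 2 * ModularForm.E₆ τ) := fun τ => by
    have := congrArg (fun f : ModularForm 𝒮ℒ 14 => f τ) hc
    simp only [FunLike.coe_smul, Pi.smul_apply, smul_eq_mul, hE14] at this
    exact this.symm
  have hmain : ∀ τ : ℍ, Derivative.normalizedDerivOfComplex jFun τ =
      W τ / ModularForm.discriminant τ := by
    intro τ
    have hd := ModularForm.discriminant_ne_zero
    have hGd := UpperHalfPlane.mdifferentiableAt_iff.mp (hGhol τ)
    have hDd : DifferentiableAt ℂ (ModularForm.discriminant ∘ ofComplex) (τ : ℂ) :=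
      UpperHalfPlane.mdifferentiableAt_iff.mp (ModularFormClass.holo CuspForm.discriminant τ)
    have hj : jFun ∘ ofComplex = fun z => (G ∘ ofComplex) z /
        (ModularForm.discriminant ∘ ofComplex) z := rfl
    have hlog : deriv (ModularForm.discriminant ∘ ofComplex) (τ : ℂ) =
        2 * Real.pi * Complex.I * EisensteinSeries.E2 τ * ModularForm.discriminant τ := by
      have he : (ModularForm.discriminant ∘ ofComplex) =ᶠ[𝓝 (τ : ℂ)]
          fun z => ModularForm.eta z ^ 24 := by
        filter_upwards [isOpen_upperHalfPlaneSet.mem_nhds τ.im_pos] with z hz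
        simp [ModularForm.discriminant, ofComplex_apply_of_im_pos hz]
      rw [he.deriv_eq, deriv_fun_pow
        (ModularForm.differentiableAt_eta_of_mem_upperHalfPlaneSet τ.im_pos)]
      have hl := ModularForm.logDeriv_eta_eq_E2 τ
      rw [logDeriv_apply, div_eq_iff (ModularForm.eta_ne_zero τ.im_pos)] at hl
      rw [hl, ModularForm.discriminant]
      push_cast
      ring
    rw [hW, serreDerivative_apply]
    simp only [Derivative.normalizedDerivOfComplex]
    rw [hj, deriv_fun_div hGd hDd (by simpa using hd τ), hlog]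
    simp only [Function.comp_apply, ofComplex_apply]
    have := hd τ
    have hpi : (2 * Real.pi * Complex.I : ℂ) ≠ 0 := Complex.two_pi_I_ne_zero
    field_simp
    push_cast
    ring
  refine ⟨c, ?_, fun τ => by rw [hmain, hWc, mul_assoc]⟩
  rintro rfl
  -- otherwise `j` would be constant
  have hD0 : ∀ z ∈ upperHalfPlaneSet, deriv (jFun ∘ ofComplex) z = 0 := by
    intro z hz
    have := hmain ⟨z, hz⟩
    rw [hWc, zero_mul, zero_div, Derivative.normalizedDerivOfComplex] at this
    simpa [Complex.two_pi_I_ne_zero] using this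
  obtain ⟨a, ha⟩ := IsOpen.exists_is_const_of_deriv_eq_zero isOpen_upperHalfPlaneSet
    (convex_halfSpace_im_gt 0).isPreconnected
    (UpperHalfPlane.mdifferentiable_iff.mp mdiff_jFun) hD0
  have hconst : ∀ τ : ℍ, jFun τ = a := fun τ => by simpa using ha τ τ.im_pos
  have h0 : Tendsto (fun τ : ℍ => 𝕢 1 τ * jFun τ) atImInfty (𝓝 0) := by
    simp only [hconst]
    simpa using (qParam_tendsto_atImInfty one_pos).mul_const a
  exact one_ne_zero (tendsto_nhds_unique tendsto_q_mul_jFun h0)

/-- `j` takes every value. -/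
theorem exists_jFun_eq (c : ℂ) : ∃ τ : ℍ, jFun τ = c := by
  by_contra hne
  push Not at hne
  let E12 : ModularForm 𝒮ℒ 12 :=
    ModularForm.mcast (by norm_num) (ModularForm.E₄.pow 3) -
      c • (CuspForm.discriminant : ModularForm 𝒮ℒ 12)
  have hval : ∀ τ : ℍ, E12 τ = ModularForm.E₄ τ ^ 3 - c * ModularForm.discriminant τ := fun τ => by
    simp [E12, ModularForm.coe_mcast]
    exact congrFun (ModularForm.coe_pow _ 3) τ
  have hne' : ∀ τ : ℍ, E12 τ ≠ 0 := fun τ h0 => hne τ <| by
    rw [hval, sub_eq_zero] at h0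
    rw [jFun, h0, mul_div_assoc, div_self (ModularForm.discriminant_ne_zero τ), mul_one]
  have hlim : Tendsto E12 atImInfty (𝓝 1) := by
    have h1 : Tendsto (fun τ : ℍ => 𝕢 1 τ * jFun τ - c * 𝕢 1 τ) atImInfty (𝓝 1) := by
      simpa using tendsto_q_mul_jFun.sub ((qParam_tendsto_atImInfty one_pos).const_mul c)
    have h2 := ModularForm.tendsto_atImInfty_tprod_one_sub_eta_q_pow
    have h3 := h1.mul h2
    rw [one_mul] at h3
    refine h3.congr fun τ => ?_
    rw [hval, jFun]
    have h4 := ModularForm.discriminant_eq_q_prod τ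
    have h5 := ModularForm.discriminant_ne_zero τ
    set P : ℂ := ∏' n : ℕ, (1 - ModularForm.eta_q n τ) ^ 24
    field_simp
    rw [h4]
    ring
  -- `Δ / E12` is a modular function, holomorphic and bounded
  let Q : CuspForm 𝒮ℒ 0 :=
    { toFun := fun τ => ModularForm.discriminant τ / E12 τ
      slash_action_eq' := fun A hA => by
        obtain ⟨γ, rfl⟩ := hA
        funext τ
        have h1 := slash_eqn_SL E12 γ τ
        have h2 := slash_eqn_SL CuspForm.discriminant γ τ
        rw [CuspForm.coe_discriminant] at h2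
        show ((fun τ => ModularForm.discriminant τ / E12 τ) ∣[(0 : ℤ)] γ) τ = _
        rw [ModularForm.SL_slash_apply]
        simp only [neg_zero, zpow_zero, mul_one, h1, h2]
        exact mul_div_mul_left _ _ (zpow_ne_zero _ (UpperHalfPlane.denom_ne_zero γ τ))
      holo' := (CuspForm.discriminant.holo').div E12.holo' hne'
      zero_at_cusps' := fun {d} hd => by
        rw [Subgroup.IsArithmetic.isCusp_iff_isCusp_SL2Z] at hd
        rw [OnePoint.isZeroAt_iff_forall_SL2Z hd]
        intro γ _
        have hinv : (fun τ => ModularForm.discriminant τ / E12 τ) ∣[(0 : ℤ)] γ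
            = fun τ => ModularForm.discriminant τ / E12 τ := by
          funext τ
          have h1 := slash_eqn_SL E12 γ τ
          have h2 := slash_eqn_SL CuspForm.discriminant γ τ
          rw [CuspForm.coe_discriminant] at h2
          rw [ModularForm.SL_slash_apply]
          simp only [neg_zero, zpow_zero, mul_one, h1, h2]
          exact mul_div_mul_left _ _ (zpow_ne_zero _ (UpperHalfPlane.denom_ne_zero γ τ))
        rw [hinv]
        have := ModularForm.discriminant_isZeroAtImInfty
        have h0 := Tendsto.div this hlim one_ne_zero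
        rw [zero_div] at h0
        exact h0 }
  have hQ : Q = 0 := by
    have := CuspForm.rank_eq_zero_of_weight_lt_twelve (k := 0) (by norm_num)
    exact rank_zero_iff_forall_zero.mp this Q
  have := congrArg (fun f : CuspForm 𝒮ℒ 0 => f UpperHalfPlane.I) hQ
  have h0 : ModularForm.discriminant UpperHalfPlane.I / E12 UpperHalfPlane.I = 0 := this
  rcases div_eq_zero_iff.mp h0 with h0 | h0
  · exact ModularForm.discriminant_ne_zero _ h0
  · exact hne' _ h0

end FLTAgent.ModularFF
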