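import Mathlib.NumberTheory.ModularForms.CongruenceSubgroups
import Fermat.Prelude.Thm_ModularCurve_coeffMap_qExpand
import Fermat.Agent.ModularFF.JFunction

/-!
# The functions `τ ↦ j(dτ)` and their translates

`jAt d` and its translates under `SL(2, ℤ)`: holomorphy, reduction to affine substitutions by
Hermite normal form, invariance under `Γ₀(N)`, Laurent expansions
(`exists_hasLaurent_jAt_smul`), and separation of cosets by `j(Nτ)`
(`mem_Gamma0_of_jAt_smul_eq`).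
-/

set_option autoImplicit false

noncomputable section

open UpperHalfPlane Complex Filter Function
open scoped Topology Manifold MatrixGroups ModularForm

namespace FLTAgent.ModularFF

local notation "𝕢" => Function.Periodic.qParam

/-- `τ ↦ d τ`. -/
def scaleH (d : ℕ) [NeZero d] (τ : ℍ) : ℍ :=
  ⟨(d : ℂ) * τ, by simpa using τ.im_pos.trans_le' le_rfl |>
    fun h => mul_pos (Nat.cast_pos.mpr (NeZero.pos d)) h⟩

/-- Scaling multiplies by `d`. -/
@[simp] theorem coe_scaleH (d : ℕ) [NeZero d] (τ : ℍ) : (scaleH d τ : ℂ) = (d : ℂ) * τ := rfl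

/-- `τ ↦ j (d τ)`. -/
def jAt (d : ℕ) [NeZero d] (τ : ℍ) : ℂ := jFun (scaleH d τ)

/-- The power series with `P`'s coefficients in the degrees divisible by `d`. -/
def spreadSeries (d : ℕ) (P : PowerSeries ℂ) : PowerSeries ℂ :=
  PowerSeries.mk fun m => if d ∣ m then PowerSeries.coeff (m / d) P else 0

theorem ofPowerSeries_spreadSeries (d : ℕ) [NeZero d] (P : PowerSeries ℂ) :
    HahnSeries.ofPowerSeries ℤ ℂ (spreadSeries d P) =
      ModularCurve.qExpand ℂ d (HahnSeries.ofPowerSeries ℤ ℂ P) := by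
  ext k
  by_cases hk : (d : ℤ) ∣ k
  · obtain ⟨j, rfl⟩ := hk
    rw [ModularCurve.qExpand_coeff_mul]
    rcases le_or_gt 0 j with hj | hj
    · lift j to ℕ using hj
      rw [HahnSeries.ofPowerSeries_apply_coeff, ← Nat.cast_mul,
        HahnSeries.ofPowerSeries_apply_coeff, spreadSeries, PowerSeries.coeff_mk,
        if_pos (dvd_mul_right d j), Nat.mul_div_cancel_left j (NeZero.pos d)]
    · rw [ModularCurve.ofPowerSeries_coeff_of_neg _ hj, ModularCurve.ofPowerSeries_coeff_of_neg]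
      exact mul_neg_of_pos_of_neg (by exact_mod_cast NeZero.pos d) hj
  · rw [ModularCurve.qExpand_coeff_of_not_dvd d _ hk]
    rcases le_or_gt 0 k with hk0 | hk0
    · lift k to ℕ using hk0
      rw [HahnSeries.ofPowerSeries_apply_coeff, spreadSeries, PowerSeries.coeff_mk,
        if_neg fun h => hk (Int.natCast_dvd_natCast.mpr h)]
    · rw [ModularCurve.ofPowerSeries_coeff_of_neg _ hk0]

/-- Substituting `q_h ↦ q_{h'}^d`. -/
theorem HasLaurent.spread {h h' : ℝ} {f : ℍ → ℂ} {S : LaurentSeries ℂ} (hf : HasLaurent h f S)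
    (d : ℕ) [NeZero d] (σ : ℍ → ℍ) (hσ : ∀ τ : ℍ, 𝕢 h (σ τ) = 𝕢 h' τ ^ d) :
    HasLaurent h' (f ∘ σ) (ModularCurve.qExpand ℂ d S) := by
  obtain ⟨n, P, hP, hP'⟩ := hf
  refine .of_powerSum (d * n) (spreadSeries d P) ?_ ?_
  · rw [ofPowerSeries_spreadSeries, hP, map_mul, ModularCurve.qExpand_single]
    push_cast
    rfl
  · intro τ
    have h1 := hP' (σ τ)
    rw [hσ] at h1
    have hinj : Function.Injective fun m : ℕ => d * m :=
      mul_right_injective₀ (NeZero.ne d)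
    simp only [Function.comp_apply, pow_mul]
    refine (hinj.hasSum_iff fun m hm => ?_).mp ?_
    · have hd : ¬ d ∣ m := fun ⟨c, hc⟩ => hm ⟨c, hc.symm⟩
      simp [spreadSeries, hd]
    · simpa [Function.comp_def, spreadSeries, pow_mul,
        Nat.mul_div_cancel_left _ (NeZero.pos d)] using h1

theorem hasLaurent_jAt (d : ℕ) [NeZero d] :
    HasLaurent 1 (jAt d) (ModularCurve.jqNModC ℂ d) := by
  refine hasLaurent_jFun.spread d (scaleH d) fun τ => ?_
  simp only [Function.Periodic.qParam, coe_scaleH, ← Complex.exp_nat_mul]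
  congr 1
  push_cast
  ring

theorem mdiff_comp_of_differentiableOn {f : ℍ → ℂ} (hf : MDiff f) (σ : ℍ → ℍ) (s : ℂ → ℂ)
    (hs : DifferentiableOn ℂ s upperHalfPlaneSet) (hσ : ∀ τ : ℍ, (σ τ : ℂ) = s τ) :
    MDiff (f ∘ σ) := by
  rw [UpperHalfPlane.mdifferentiable_iff] at hf ⊢
  refine (hf.comp hs fun z hz => ?_).congr fun z hz => ?_
  · have := (σ ⟨z, hz⟩).im_pos
    rwa [← coe_im, hσ] at this
  · have h1 := hσ ⟨z, hz⟩
    simp only at h1
    simp [Function.comp_apply, ofComplex_apply_of_im_pos hz, ← h1]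

theorem mdiff_jAt (d : ℕ) [NeZero d] : MDiff (jAt d) :=
  mdiff_comp_of_differentiableOn mdiff_jFun (scaleH d) (fun z => (d : ℂ) * z) (by fun_prop)
    fun _ => rfl

theorem coe_smul_SL (γ : SL(2, ℤ)) (τ : ℍ) : ((γ • τ : ℍ) : ℂ) =
    ((γ 0 0 : ℂ) * τ + (γ 0 1 : ℂ)) / ((γ 1 0 : ℂ) * τ + (γ 1 1 : ℂ)) := by
  rw [UpperHalfPlane.coe_specialLinearGroup_apply]
  simp

theorem mdiff_jAt_smul (d : ℕ) [NeZero d] (γ : SL(2, ℤ)) : MDiff fun τ => jAt d (γ • τ) := by
  refine mdiff_comp_of_differentiableOn (mdiff_jAt d) (fun τ => γ • τ)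
    (fun z => ((γ 0 0 : ℂ) * z + (γ 0 1 : ℂ)) / ((γ 1 0 : ℂ) * z + (γ 1 1 : ℂ))) ?_ ?_
  · refine DifferentiableOn.div (by fun_prop) (by fun_prop) fun z hz => ?_
    exact UpperHalfPlane.denom_ne_zero γ ⟨z, hz⟩ |> fun h => by
      simpa [UpperHalfPlane.denom] using h
  · intro τ
    exact coe_smul_SL γ τ

theorem denom_SL_ne_zero (γ : SL(2, ℤ)) (τ : ℍ) : (γ 1 0 : ℂ) * τ + (γ 1 1 : ℂ) ≠ 0 := by
  simpa [UpperHalfPlane.denom] using UpperHalfPlane.denom_ne_zero γ τ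

/-- `τ ↦ (A τ + B) / C` for `A, C > 0`. -/
def affineH (A C : ℕ) [NeZero A] [NeZero C] (B : ℤ) (τ : ℍ) : ℍ :=
  ⟨((A : ℂ) * τ + B) / C, by
    have hA : (0 : ℝ) < A := Nat.cast_pos.mpr (NeZero.pos A)
    have hC : (0 : ℝ) < C := Nat.cast_pos.mpr (NeZero.pos C)
    simp only [div_natCast_im, add_im, mul_im, natCast_re, natCast_im, zero_mul, add_zero,
      intCast_im]
    exact div_pos (mul_pos hA τ.im_pos) hC⟩

theorem im_affineH (A C : ℕ) [NeZero A] [NeZero C] (B : ℤ) (τ : ℍ) :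
    (affineH A C B τ).im = (A : ℝ) * τ.im / C := by
  show ((((A : ℂ) * τ + B) / C)).im = _
  simp

/-- Hermite normal form of `diag(d,1) γ`. -/
theorem exists_hnf (d : ℕ) [NeZero d] (γ : SL(2, ℤ)) :
    ∃ (σ : SL(2, ℤ)) (A C : ℕ) (B : ℤ) (_ : NeZero A) (_ : NeZero C),
      A * C = d ∧ (A : ℤ) ∣ γ 1 0 ∧ ∀ τ : ℍ, scaleH d (γ • τ) = σ • affineH A C B τ := by
  have hdet : γ 0 0 * γ 1 1 - γ 0 1 * γ 1 0 = 1 := by
    have := γ.det_coe
    rwa [Matrix.det_fin_two] at this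
  set a := γ 0 0
  set b := γ 0 1
  set c := γ 1 0
  set e := γ 1 1
  have hd : (0 : ℤ) < d := by exact_mod_cast NeZero.pos d
  set g : ℕ := Int.gcd ((d : ℤ) * a) c
  have hg : 0 < g := by
    refine Nat.pos_of_ne_zero fun h0 => ?_
    obtain ⟨h1, h2⟩ := Int.gcd_eq_zero_iff.mp h0
    rcases mul_eq_zero.mp h1 with h3 | h3
    · omega
    · rw [h3, h2] at hdet; simp at hdet
  have hgz : (g : ℤ) ≠ 0 := by exact_mod_cast hg.ne'
  obtain ⟨A', hA'⟩ := Int.gcd_dvd_left ((d : ℤ) * a) c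
  obtain ⟨C', hC'⟩ := Int.gcd_dvd_right ((d : ℤ) * a) c
  change (d : ℤ) * a = (g : ℤ) * A' at hA'
  change c = (g : ℤ) * C' at hC'
  set u := Int.gcdA ((d : ℤ) * a) c
  set v := Int.gcdB ((d : ℤ) * a) c
  have hbez : (g : ℤ) = (d : ℤ) * a * u + c * v := Int.gcd_eq_gcd_ab _ _
  have huv : A' * u + C' * v = 1 := by
    apply mul_left_cancel₀ hgz
    linear_combination -hbez - u * hA' - v * hC'
  set B := u * (d : ℤ) * b + v * e
  set Cz := A' * e - C' * (d : ℤ) * b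
  have hgC : (g : ℤ) * Cz = d := by
    simp only [Cz]
    linear_combination -e * hA' + (d : ℤ) * b * hC' + (d : ℤ) * hdet
  have hCpos : 0 < Cz := by
    rcases lt_trichotomy Cz 0 with h | h | h
    · nlinarith [hgC, mul_neg_of_pos_of_neg (show (0 : ℤ) < g by exact_mod_cast hg) h]
    · rw [h] at hgC; omega
    · exact h
  let σ : SL(2, ℤ) := ⟨!![A', -v; C', u], by rw [Matrix.det_fin_two_of]; linear_combination huv⟩
  have : NeZero g := ⟨hg.ne'⟩
  have : NeZero Cz.toNat := ⟨by omega⟩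
  refine ⟨σ, g, Cz.toNat, B, inferInstance, inferInstance, ?_, ⟨C', hC'⟩, fun τ => ?_⟩
  · zify
    rw [Int.toNat_of_nonneg hCpos.le]
    exact hgC
  have h1 : A' * B - v * Cz = (d : ℤ) * b := by
    simp only [B, Cz]; linear_combination (d : ℤ) * b * huv
  have h2 : C' * B + u * Cz = e := by
    simp only [B, Cz]; linear_combination e * huv
  apply UpperHalfPlane.ext
  rw [coe_scaleH, coe_smul_SL, coe_smul_SL]
  have hval : (σ 0 0 = A') ∧ (σ 0 1 = -v) ∧ (σ 1 0 = C') ∧ (σ 1 1 = u) := by simp [σ]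
  obtain ⟨e1, e2, e3, e4⟩ := hval
  rw [e1, e2, e3, e4]
  show (d : ℂ) * _ = ((A' : ℂ) * (((g : ℂ) * τ + B) / (Cz.toNat : ℕ)) + (-v : ℤ)) /
    ((C' : ℂ) * (((g : ℂ) * τ + B) / (Cz.toNat : ℕ)) + (u : ℂ))
  have hcast : ((Cz.toNat : ℕ) : ℂ) = (Cz : ℂ) := by
    rw [← Int.cast_natCast, Int.toNat_of_nonneg hCpos.le]
  rw [hcast]
  have hCne : (Cz : ℂ) ≠ 0 := by exact_mod_cast hCpos.ne'
  have k1 : (A' : ℂ) * B - (v : ℂ) * Cz = (d : ℂ) * b := by exact_mod_cast h1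
  have k2 : (C' : ℂ) * B + (u : ℂ) * Cz = (e : ℂ) := by exact_mod_cast h2
  have k3 : (d : ℂ) * a = (g : ℂ) * A' := by exact_mod_cast hA'
  have k4 : (c : ℂ) = (g : ℂ) * C' := by exact_mod_cast hC'
  have hden : (c : ℂ) * τ + e ≠ 0 := denom_SL_ne_zero γ τ
  have hnum : (A' : ℂ) * (((g : ℂ) * τ + B) / (Cz : ℂ)) + ((-v : ℤ) : ℂ) =
      ((d : ℂ) * ((a : ℂ) * τ + b)) / Cz := by
    rw [eq_div_iff hCne, add_mul, mul_assoc, div_mul_cancel₀ _ hCne]
    push_cast
    linear_combination k1 - (τ : ℂ) * k3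
  have hdn : (C' : ℂ) * (((g : ℂ) * τ + B) / (Cz : ℂ)) + (u : ℂ) = ((c : ℂ) * τ + e) / Cz := by
    rw [eq_div_iff hCne, add_mul, mul_assoc, div_mul_cancel₀ _ hCne]
    linear_combination k2 - (τ : ℂ) * k4
  rw [hnum, hdn, div_div_div_cancel_right₀ hCne, mul_div_assoc]

theorem exists_jAt_smul_eq (d : ℕ) [NeZero d] (γ : SL(2, ℤ)) :
    ∃ (A C : ℕ) (B : ℤ) (_ : NeZero A) (_ : NeZero C),
      A * C = d ∧ (A : ℤ) ∣ γ 1 0 ∧ ∀ τ : ℍ, jAt d (γ • τ) = jFun (affineH A C B τ) := by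
  obtain ⟨σ, A, C, B, hA, hC, h1, h2, h3⟩ := exists_hnf d γ
  exact ⟨A, C, B, hA, hC, h1, h2, fun τ => by rw [jAt, h3, jFun_smul]⟩

theorem jAt_smul_of_mem_Gamma0 {N d : ℕ} [NeZero d] (hd : d ∣ N) {γ : SL(2, ℤ)}
    (hγ : γ ∈ CongruenceSubgroup.Gamma0 N) (τ : ℍ) : jAt d (γ • τ) = jAt d τ := by
  have hdet : γ 0 0 * γ 1 1 - γ 0 1 * γ 1 0 = 1 := by
    have := γ.det_coe
    rwa [Matrix.det_fin_two] at this
  rw [CongruenceSubgroup.Gamma0_mem, ZMod.intCast_zmod_eq_zero_iff_dvd] at hγ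
  obtain ⟨k, hk⟩ := (Int.natCast_dvd_natCast.mpr hd).trans hγ
  let σ : SL(2, ℤ) := ⟨!![γ 0 0, (d : ℤ) * γ 0 1; k, γ 1 1], by
    rw [Matrix.det_fin_two_of]; linear_combination hdet + γ 0 1 * hk⟩
  have : scaleH d (γ • τ) = σ • scaleH d τ := by
    apply UpperHalfPlane.ext
    rw [coe_scaleH, coe_smul_SL, coe_smul_SL, coe_scaleH]
    simp only [σ]
    have hkc : (γ 1 0 : ℂ) = (d : ℂ) * k := by exact_mod_cast hk
    simp [hkc]
    ring_nf
  rw [jAt, this, jFun_smul, jAt]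

theorem tendsto_affineH (A C : ℕ) [NeZero A] [NeZero C] (B : ℤ) :
    Tendsto (affineH A C B) atImInfty atImInfty := by
  rw [atImInfty, tendsto_comap_iff, ← atImInfty]
  have hfun : UpperHalfPlane.im ∘ affineH A C B = fun τ : ℍ => (A : ℝ) * τ.im / C :=
    funext fun τ => im_affineH A C B τ
  rw [hfun]
  refine Tendsto.atTop_div_const (Nat.cast_pos.mpr (NeZero.pos C)) ?_
  exact (tendsto_comap : Tendsto UpperHalfPlane.im atImInfty atTop).const_mul_atTop
    (Nat.cast_pos.mpr (NeZero.pos A))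

theorem tendsto_norm_jFun_affineH (A C : ℕ) [NeZero A] [NeZero C] (B : ℤ) :
    Tendsto (fun τ : ℍ => ‖jFun (affineH A C B τ)‖ *
      Real.exp (-2 * Real.pi * ((A : ℝ) * τ.im / C))) atImInfty (𝓝 1) := by
  have := tendsto_norm_jFun_mul_exp.comp (tendsto_affineH A C B)
  simpa only [Function.comp_def, im_affineH] using this

/-- A translate of `j(dτ)` grows at most like `|q|^{-d}`. -/
theorem isBoundedAtImInfty_jAt_smul (N d : ℕ) [NeZero N] [NeZero d] (γ : SL(2, ℤ)) :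
    IsBoundedAtImInfty fun τ : ℍ => 𝕢 N τ ^ (d * N) * jAt d (γ • τ) := by
  obtain ⟨A, C, B, _, _, hAC, -, hj⟩ := exists_jAt_smul_eq d γ
  have h := tendsto_norm_jFun_affineH A C B
  have hle : ∀ τ : ℍ, ‖𝕢 N τ ^ (d * N) * jAt d (γ • τ)‖ ≤
      ‖jFun (affineH A C B τ)‖ * Real.exp (-2 * Real.pi * ((A : ℝ) * τ.im / C)) := by
    intro τ
    rw [norm_mul, norm_pow, Function.Periodic.norm_qParam, hj, mul_comm, ← Real.exp_nat_mul]
    refine mul_le_mul_of_nonneg_left (Real.exp_le_exp.mpr ?_) (norm_nonneg _)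
    have hN : (0 : ℝ) < N := Nat.cast_pos.mpr (NeZero.pos N)
    have hC : (1 : ℝ) ≤ C := by exact_mod_cast NeZero.one_le
    have hA : (A : ℝ) ≤ d := by
      exact_mod_cast Nat.le_of_dvd (NeZero.pos d) ⟨C, hAC.symm⟩
    have h0 : (A : ℝ) * τ.im / C ≤ (d : ℝ) * τ.im := by
      refine le_trans (div_le_self (by positivity) hC) ?_
      exact mul_le_mul_of_nonneg_right hA τ.im_pos.le
    rw [coe_im]
    push_cast
    field_simp
    nlinarith [Real.pi_pos, mul_le_mul_of_nonneg_left h0 Real.pi_pos.le]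
  exact (Asymptotics.isBigO_of_le _ (fun τ => (hle τ).trans (le_abs_self _))).trans
    (h.isBigO_one ℝ)

theorem T_zpow_conj_mem_Gamma0 (N : ℕ) (γ : SL(2, ℤ)) :
    γ * ModularGroup.T ^ (N : ℤ) * γ⁻¹ ∈ CongruenceSubgroup.Gamma0 N := by
  have h1 : ModularGroup.T ^ (N : ℤ) ∈ CongruenceSubgroup.Gamma N :=
    CongruenceSubgroup.ModularGroup_T_pow_mem_Gamma N N dvd_rfl
  have h2 := (CongruenceSubgroup.Gamma_normal N).conj_mem _ h1 γ
  rw [CongruenceSubgroup.Gamma_mem] at h2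
  exact CongruenceSubgroup.Gamma0_mem.mpr h2.2.2.1

theorem periodic_jAt_smul {N d : ℕ} [NeZero d] (hd : d ∣ N) (γ : SL(2, ℤ)) :
    Periodic ((fun τ => jAt d (γ • τ)) ∘ ofComplex) ((N : ℝ) : ℂ) := by
  intro w
  by_cases hw : 0 < w.im
  · have hw' : 0 < (w + ((N : ℝ) : ℂ)).im := by simp [hw]
    simp only [Function.comp_apply, ofComplex_apply_of_im_pos hw, ofComplex_apply_of_im_pos hw']
    have : (⟨w + ((N : ℝ) : ℂ), hw'⟩ : ℍ) = ModularGroup.T ^ (N : ℤ) • (⟨w, hw⟩ : ℍ) := by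
      apply UpperHalfPlane.ext
      rw [ModularGroup.coe_T_zpow_smul_eq]
      simp
    rw [this, ← mul_smul,
      show γ * ModularGroup.T ^ (N : ℤ) = (γ * ModularGroup.T ^ (N : ℤ) * γ⁻¹) * γ by group,
      mul_smul, jAt_smul_of_mem_Gamma0 hd (T_zpow_conj_mem_Gamma0 N γ)]
  · have h1 : (w + ((N : ℝ) : ℂ)).im ≤ 0 := by simpa using hw
    simp only [Function.comp_apply, ofComplex_apply_of_im_nonpos h1,
      ofComplex_apply_of_im_nonpos (not_lt.mp hw)]

theorem exists_hasLaurent_jAt_smul {N d : ℕ} [NeZero N] [NeZero d] (hd : d ∣ N) (γ : SL(2, ℤ)) :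
    ∃ S : LaurentSeries ℂ, HasLaurent (N : ℝ) (fun τ => jAt d (γ • τ)) S := by
  obtain ⟨S, hS, -⟩ := exists_hasLaurent (h := (N : ℝ)) (f := fun τ => jAt d (γ • τ))
    (Nat.cast_pos.mpr (NeZero.pos N)) (periodic_jAt_smul hd γ) (mdiff_jAt_smul d γ) (d * N)
    (isBoundedAtImInfty_jAt_smul N d γ)
  exact ⟨S, hS⟩

/-- `j(Nτ)` separates the cosets of `Γ₀(N)`. -/
theorem mem_Gamma0_of_jAt_smul_eq {N : ℕ} [NeZero N] {γ : SL(2, ℤ)}
    (h : ∀ τ : ℍ, jAt N (γ • τ) = jAt N τ) : γ ∈ CongruenceSubgroup.Gamma0 N := by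
  obtain ⟨A, C, B, _, _, hAC, hdvd, hj⟩ := exists_jAt_smul_eq N γ
  have h1 := tendsto_norm_jFun_affineH A C B
  have h2 := tendsto_norm_jFun_affineH N 1 0
  have h3 := h2.div h1 one_ne_zero
  rw [div_one] at h3
  have hAC' : (A : ℝ) / C = N := by
    by_contra hne
    set r : ℝ := (A : ℝ) / C - N
    have hr : r ≠ 0 := sub_ne_zero.mpr hne
    have h4 : Tendsto (fun τ : ℍ => Real.exp (2 * Real.pi * r * τ.im)) atImInfty (𝓝 1) := by
      refine h3.congr' ?_
      have hne0 : ∀ᶠ τ : ℍ in atImInfty, ‖jFun (affineH A C B τ)‖ ≠ 0 := by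
        filter_upwards [h1.eventually_ne one_ne_zero] with τ hτ h0
        exact hτ (by rw [h0, zero_mul])
      filter_upwards [hne0] with τ hτ
      have heq : affineH N 1 0 τ = scaleH N τ := by
        apply UpperHalfPlane.ext
        simp [affineH]
      simp only [Pi.div_apply, heq]
      rw [show jFun (scaleH N τ) = jFun (affineH A C B τ) from (h τ).symm.trans (hj τ),
        mul_div_mul_left _ _ hτ, ← Real.exp_sub]
      congr 1
      simp only [r, Nat.cast_one, div_one]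
      ring
    have ht := (tendsto_comap : Tendsto UpperHalfPlane.im atImInfty atTop)
    rcases lt_or_gt_of_ne hr with hneg | hpos
    · have := Real.tendsto_exp_atBot.comp
        (ht.const_mul_atTop_of_neg (show 2 * Real.pi * r < 0 by nlinarith [Real.pi_pos]))
      exact zero_ne_one (tendsto_nhds_unique (l := atImInfty) this h4)
    · have := Real.tendsto_exp_atTop.comp
        (ht.const_mul_atTop (show 0 < 2 * Real.pi * r by positivity))
      exact not_tendsto_nhds_of_tendsto_atTop (l := atImInfty) this 1 h4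
  rw [div_eq_iff (Nat.cast_ne_zero.mpr (NeZero.ne C))] at hAC'
  have hA : A = N * C := by exact_mod_cast hAC'
  have hCle : A * C = N := hAC
  have hC1 : C = 1 := by
    have h5 : N * (C * C) = N * 1 := by rw [← mul_assoc, ← hA, hCle, mul_one]
    exact Nat.eq_one_of_mul_eq_one_left (Nat.eq_of_mul_eq_mul_left (NeZero.pos N) h5)
  rw [hC1, mul_one] at hA
  subst hA
  rw [CongruenceSubgroup.Gamma0_mem, ZMod.intCast_zmod_eq_zero_iff_dvd]
  exact hdvd

end FLTAgent.ModularFF
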