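import Fermat.Agent.ModularFF.Degree
import Fermat.Agent.Igusa.ModularPolynomial
import Fermat.Agent.Igusa.Integrality
import Fermat.Prelude.Def_ModularCurve_HeckeOperator
import Fermat.Prelude.Def_ModularCurve_ModularUnit

/-!
# The Atkin–Lehner automorphism of the modular function field

For `q ∤ M`, the automorphism `alHom` of the function field of level `M q` given by
`τ ↦ (q τ + b) / (M q τ + q u)`: it is an involution (`alHom_alHom`) and exchanges the two
degeneracy embeddings (`alHom_comp_alpha`, `alHom_comp_beta`).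
-/

set_option autoImplicit false

noncomputable section

open UpperHalfPlane Complex Function ModularCurve
open scoped Manifold MatrixGroups

namespace FLTAgent.ModularFF

variable (L : Type) [Field L] [Algebra ℚ L] [Algebra L ℂ]
variable (M q : ℕ) [NeZero M] [NeZero q]

/-! ### The automorphism -/

/-- The Atkin–Lehner bijection of the divisors of `M q`. -/
def alSwap (hq : q.Prime) (i : Divs (M * q)) : Divs (M * q) :=
  if h : q ∣ i.1 then ⟨i.1 / q, Nat.mem_divisors.mpr
      ⟨(Nat.div_dvd_of_dvd h).trans (Nat.dvd_of_mem_divisors i.2), NeZero.ne _⟩⟩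
  else ⟨i.1 * q, Nat.mem_divisors.mpr ⟨Nat.mul_dvd_mul_right
      (((hq.coprime_iff_not_dvd.mpr h).symm).dvd_of_dvd_mul_right
        (Nat.dvd_of_mem_divisors i.2)) q, NeZero.ne _⟩⟩

theorem val_alSwap_of_not_dvd (hq : q.Prime) {i : Divs (M * q)} (h : ¬ q ∣ i.1) :
    (alSwap M q hq i).1 = i.1 * q := by
  rw [alSwap, dif_neg h]

theorem val_alSwap_of_mul (hq : q.Prime) {i : Divs (M * q)} {e : ℕ}
    (h : i.1 = e * q) : (alSwap M q hq i).1 = e := by
  rw [alSwap, dif_pos ⟨e, h.trans (mul_comm e q)⟩]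
  show i.1 / q = e
  rw [h, Nat.mul_div_cancel _ hq.pos]

omit [NeZero M] [NeZero q] in
theorem exists_alCoeffs (hq : q.Prime) (hqM : ¬ q ∣ M) :
    ∃ u b : ℤ, (q : ℤ) * u - b * M = 1 := by
  obtain ⟨u, v, h⟩ := Int.isCoprime_iff_gcd_eq_one.mpr
    (show Int.gcd (q : ℤ) (M : ℤ) = 1 by
      rw [Int.gcd_natCast_natCast]; exact hq.coprime_iff_not_dvd.mpr hqM)
  exact ⟨u, -v, by linear_combination h⟩

/-- A matrix `(1 b; M q u)` of determinant one. -/
def alGamma (hq : q.Prime) (hqM : ¬ q ∣ M) : SL(2, ℤ) :=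
  ⟨!![1, (exists_alCoeffs M q hq hqM).choose_spec.choose;
      (M : ℤ), (q : ℤ) * (exists_alCoeffs M q hq hqM).choose], by
    have := (exists_alCoeffs M q hq hqM).choose_spec.choose_spec
    rw [Matrix.det_fin_two_of]
    linear_combination this⟩

/-- The point `w_q τ`. -/
def alPoint (hq : q.Prime) (hqM : ¬ q ∣ M) (τ : ℍ) : ℍ := alGamma M q hq hqM • scaleH q τ

variable {M q}

theorem jAt_alPoint (hq : q.Prime) (hqM : ¬ q ∣ M) (i : Divs (M * q)) (τ : ℍ) :
    jAt i.1 (alPoint M q hq hqM τ) = jAt (alSwap M q hq i).1 τ := by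
  have hdiv := Nat.dvd_of_mem_divisors i.2
  set b := (exists_alCoeffs M q hq hqM).choose_spec.choose with hb
  set u := (exists_alCoeffs M q hq hqM).choose with hu
  have hub : (q : ℤ) * u - b * M = 1 := (exists_alCoeffs M q hq hqM).choose_spec.choose_spec
  have hq0 : (q : ℂ) ≠ 0 := NeZero.ne _
  by_cases h : q ∣ i.1
  · obtain ⟨e, he⟩ := h
    replace he := he.trans (mul_comm q e)
    obtain ⟨c, hc⟩ : e ∣ M := Nat.dvd_of_mul_dvd_mul_right hq.pos (he ▸ hdiv)
    have : NeZero e := ⟨fun h0 => NeZero.ne M (by rw [hc, h0, zero_mul])⟩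
    let σ : SL(2, ℤ) := ⟨!![(q : ℤ), (e : ℤ) * b; (c : ℤ), u], by
      rw [Matrix.det_fin_two_of]
      have hc' : (M : ℤ) = e * c := by exact_mod_cast hc
      linear_combination hub + b * hc'⟩
    have key : scaleH i.1 (alPoint M q hq hqM τ) = σ • scaleH e τ := by
      apply UpperHalfPlane.ext
      rw [alPoint, coe_scaleH, coe_smul_SL, coe_smul_SL, coe_scaleH, coe_scaleH]
      have hden : (c : ℂ) * ((e : ℂ) * τ) + (u : ℂ) ≠ 0 := by
        simpa [σ] using denom_SL_ne_zero σ (scaleH e τ)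
      have hden' : (M : ℂ) * ((q : ℂ) * τ) + (q : ℂ) * (u : ℂ) ≠ 0 := by
        simpa [alGamma, ← hu] using denom_SL_ne_zero (alGamma M q hq hqM) (scaleH q τ)
      simp [alGamma, σ, ← hb, ← hu, he]
      field_simp
      push_cast [hc]
      ring
    rw [jAt, key, jFun_smul]
    simp only [val_alSwap_of_mul M q hq he, jAt]
  · obtain ⟨c, hc⟩ : i.1 ∣ M :=
      ((hq.coprime_iff_not_dvd.mpr h).symm).dvd_of_dvd_mul_right hdiv
    let σ : SL(2, ℤ) := ⟨!![1, (i.1 : ℤ) * b; (c : ℤ), (q : ℤ) * u], by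
      rw [Matrix.det_fin_two_of]
      have hc' : (M : ℤ) = i.1 * c := by exact_mod_cast hc
      linear_combination hub + b * hc'⟩
    have key : scaleH i.1 (alPoint M q hq hqM τ) = σ • scaleH (i.1 * q) τ := by
      apply UpperHalfPlane.ext
      rw [alPoint, coe_scaleH, coe_smul_SL, coe_smul_SL, coe_scaleH, coe_scaleH]
      have hden : (c : ℂ) * (((i.1 * q : ℕ) : ℂ) * τ) + (q : ℂ) * (u : ℂ) ≠ 0 := by
        simpa [σ] using denom_SL_ne_zero σ (scaleH (i.1 * q) τ)
      have hden' : (M : ℂ) * ((q : ℂ) * τ) + (q : ℂ) * (u : ℂ) ≠ 0 := by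
        simpa [alGamma, ← hu] using denom_SL_ne_zero (alGamma M q hq hqM) (scaleH q τ)
      simp [alGamma, σ, ← hb, ← hu] at hden ⊢
      field_simp
      push_cast [hc]
      ring
    rw [jAt, key, jFun_smul]
    simp only [val_alSwap_of_not_dvd M q hq h, jAt]

omit [Algebra ℚ L] in
theorem evalFun_rename_alSwap (hq : q.Prime) (hqM : ¬ q ∣ M)
    (P : MvPolynomial (Divs (M * q)) L) (τ : ℍ) :
    evalFun L (M * q) (MvPolynomial.rename (alSwap M q hq) P) τ =
      evalFun L (M * q) P (alPoint M q hq hqM τ) := by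
  induction P using MvPolynomial.induction_on with
  | C c => simp [← MvPolynomial.algebraMap_eq]
  | add p p' hp hp' => simp only [map_add, Pi.add_apply, hp, hp']
  | mul_X p i hp =>
    simp only [map_mul, Pi.mul_apply, hp]
    simp only [MvPolynomial.rename_X, evalFun, MvPolynomial.aeval_X]
    rw [jAt_alPoint hq hqM i τ]

theorem evalField_rename_eq_zero (hq : q.Prime) (hqM : ¬ q ∣ M)
    {P : MvPolynomial (Divs (M * q)) L} (hP : evalField L (M * q) P = 0) :
    evalField L (M * q) (MvPolynomial.rename (alSwap M q hq) P) = 0 := by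
  rw [← evalFun_eq_zero_iff] at hP ⊢
  funext τ
  rw [evalFun_rename_alSwap L hq hqM P τ, hP]
  rfl

theorem alSwap_alSwap (hq : q.Prime) (hqM : ¬ q ∣ M) (i : Divs (M * q)) :
    alSwap M q hq (alSwap M q hq i) = i := by
  apply Subtype.ext
  by_cases h : q ∣ i.1
  · obtain ⟨e, he⟩ := h
    replace he := he.trans (mul_comm q e)
    have he' := val_alSwap_of_mul M q hq he
    have hne : ¬ q ∣ e := fun hqe => hqM <| hqe.trans <|
      Nat.dvd_of_mul_dvd_mul_right hq.pos (he ▸ Nat.dvd_of_mem_divisors i.2)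
    rw [val_alSwap_of_not_dvd M q hq (by rw [he']; exact hne), he', he]
  · exact val_alSwap_of_mul M q hq (val_alSwap_of_not_dvd M q hq h)

theorem evalField_rename_eq_zero_iff (hq : q.Prime) (hqM : ¬ q ∣ M)
    {P : MvPolynomial (Divs (M * q)) L} :
    evalField L (M * q) (MvPolynomial.rename (alSwap M q hq) P) = 0 ↔
      evalField L (M * q) P = 0 := by
  refine ⟨fun h => ?_, evalField_rename_eq_zero L hq hqM⟩
  have h2 := evalField_rename_eq_zero L hq hqM h
  rwa [MvPolynomial.rename_rename, show alSwap M q hq ∘ alSwap M q hq = id from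
    funext (alSwap_alSwap hq hqM), MvPolynomial.rename_id_apply] at h2

variable (M q) in
/-- The automorphism on polynomial expressions. -/
def alRange (hq : q.Prime) (hqM : ¬ q ∣ M) :
    (evalField L (M * q)).range →ₐ[L] modField L (M * q) :=
  (Ideal.Quotient.liftₐ _ ((evalField L (M * q)).comp (MvPolynomial.rename (alSwap M q hq)))
      fun _ hP => evalField_rename_eq_zero L hq hqM (RingHom.mem_ker.mp hP)).comp
    (Ideal.quotientKerEquivRange (evalField L (M * q))).symm.toAlgHom

theorem alRange_apply (hq : q.Prime) (hqM : ¬ q ∣ M) (P : MvPolynomial (Divs (M * q)) L) :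
    alRange L M q hq hqM ⟨evalField L (M * q) P, ⟨P, rfl⟩⟩ =
      evalField L (M * q) (MvPolynomial.rename (alSwap M q hq) P) := by
  set e := Ideal.quotientKerEquivRange (evalField L (M * q)) with he
  have h : e.symm ⟨evalField L (M * q) P, ⟨P, rfl⟩⟩
      = Ideal.Quotient.mk (RingHom.ker (evalField L (M * q))) P := by
    rw [AlgEquiv.symm_apply_eq]
    rfl
  show Ideal.Quotient.liftₐ _ ((evalField L (M * q)).comp
      (MvPolynomial.rename (alSwap M q hq)))
    (fun _ hP => evalField_rename_eq_zero L hq hqM (RingHom.mem_ker.mp hP))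
    (e.symm ⟨evalField L (M * q) P, ⟨P, rfl⟩⟩) = _
  rw [h]
  rfl

theorem alRange_injective (hq : q.Prime) (hqM : ¬ q ∣ M) :
    Injective (alRange L M q hq hqM) := by
  rw [injective_iff_map_eq_zero]
  rintro ⟨_, P, rfl⟩ h
  have h' : evalField L (M * q) (MvPolynomial.rename (alSwap M q hq) P) = 0 := by
    rw [← alRange_apply]; exact h
  exact Subtype.ext ((evalField_rename_eq_zero_iff L hq hqM).mp h')

variable (M q) in
/-- The Atkin–Lehner automorphism. -/
def alHom (hq : q.Prime) (hqM : ¬ q ∣ M) : modField L (M * q) →ₐ[L] modField L (M * q) :=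
  have := isFractionRing_range L (M * q)
  IsFractionRing.liftAlgHom (A := (evalField L (M * q)).range) (alRange_injective L hq hqM)

theorem alHom_evalField (hq : q.Prime) (hqM : ¬ q ∣ M) (P : MvPolynomial (Divs (M * q)) L) :
    alHom L M q hq hqM (evalField L (M * q) P) =
      evalField L (M * q) (MvPolynomial.rename (alSwap M q hq) P) := by
  have := isFractionRing_range L (M * q)
  rw [← alRange_apply]
  exact IsFractionRing.lift_algebraMap (A := (evalField L (M * q)).range)
    (alRange_injective L hq hqM) ⟨evalField L (M * q) P, ⟨P, rfl⟩⟩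

attribute [irreducible] alHom

theorem alHom_gen (hq : q.Prime) (hqM : ¬ q ∣ M) (i : Divs (M * q)) :
    alHom L M q hq hqM (gen L (M * q) i) = gen L (M * q) (alSwap M q hq i) := by
  simpa using alHom_evalField L hq hqM (MvPolynomial.X i)

theorem alHom_comp_alpha (hq : q.Prime) (hqM : ¬ q ∣ M) :
    (alHom L M q hq hqM).comp (heckeAlphaBar L M q) = heckeBetaBar L M q := by
  refine algHom_ext_gen fun d => ?_
  have hd : ¬ q ∣ d.1 := fun h => hqM (h.trans (Nat.dvd_of_mem_divisors d.2))
  let d' : Divs (M * q) := ⟨d.1, Nat.mem_divisors.mpr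
    ⟨(Nat.dvd_of_mem_divisors d.2).trans (dvd_mul_right M q), NeZero.ne _⟩⟩
  have h1 : heckeAlphaBar L M q (gen L M d) = gen L (M * q) d' :=
    Subtype.ext (coe_heckeAlphaBar M q (gen L M d))
  rw [AlgHom.comp_apply, h1, alHom_gen]
  refine Subtype.ext ?_
  rw [coe_gen, coe_heckeBetaBar, coe_gen, jqNModC, jqNModC, qExpand_qExpand]
  congr 2
  rw [val_alSwap_of_not_dvd M q hq hd, mul_comm]

theorem alHom_alHom (hq : q.Prime) (hqM : ¬ q ∣ M) :
    (alHom L M q hq hqM).comp (alHom L M q hq hqM) = AlgHom.id L _ := by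
  refine algHom_ext_gen fun i => ?_
  rw [AlgHom.comp_apply, alHom_gen, alHom_gen, alSwap_alSwap hq hqM, AlgHom.id_apply]

theorem alHom_comp_beta (hq : q.Prime) (hqM : ¬ q ∣ M) :
    (alHom L M q hq hqM).comp (heckeBetaBar L M q) = heckeAlphaBar L M q := by
  rw [← alHom_comp_alpha L hq hqM, ← AlgHom.comp_assoc, alHom_alHom, AlgHom.id_comp]

end FLTAgent.ModularFF
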