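import Fermat.Agent.ModularFF.AtkinLehner
import Mathlib.RingTheory.RootsOfUnity.AlgebraicallyClosed

/-!
# The functions `Δ(τ)/Δ(qτ)` and `q¹² Δ(qτ)/Δ(τ)`

As elements `unitElt` and `ratioElt` of the function field of level `M q`: membership, exchange by
the Atkin–Lehner automorphism (`alHom_unitElt`, `ratioElt_mul_alHom`) and integrality over `ℤ[j]`
(`isIntegral_ratioElt`, `isIntegral_unitElt`).
-/

set_option autoImplicit false

noncomputable section

open UpperHalfPlane Complex Function ModularCurve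
open scoped Manifold MatrixGroups

namespace FLTAgent.ModularFF

variable (L : Type) [Field L] [Algebra ℚ L]
variable (M q : ℕ) [NeZero M] [NeZero q]

/-- The series of `q¹² Δ(qτ)/Δ(τ)`. -/
def ratioSeries : LaurentSeries L :=
  (q : LaurentSeries L) ^ 12 * coeffEmb L (modularUnitSeries q)⁻¹

theorem coeffEmb_deltaSeries : coeffEmb L deltaSeries = Igusa.discSeries L :=
  (Igusa.coeffMap_discSeries (R := ℚ) (S := L) (algebraMap ℚ L)).1

theorem coeffEmb_inv_modularUnitSeries : coeffEmb L (modularUnitSeries q)⁻¹ =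
    qExpand L q (Igusa.discSeries L) * Igusa.discInvSeries L := by
  rw [modularUnitSeries, mul_inv_rev, inv_inv, map_mul, deltaSeriesN]
  congr 1
  · rw [coeffEmb, coeffMap_qExpand, ← coeffEmb, coeffEmb_deltaSeries]
  · rw [map_inv₀, coeffEmb_deltaSeries]
    exact (eq_inv_of_mul_eq_one_right (Igusa.discSeries_mul_inv L)).symm

theorem ratioSeries_eq : ratioSeries L q = (q : LaurentSeries L) ^ 12 *
    (qExpand L q (Igusa.discSeries L) * Igusa.discInvSeries L) := by
  rw [ratioSeries, coeffEmb_inv_modularUnitSeries]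

theorem qExpand_ratioSeries : qExpand L q (ratioSeries L q) =
    (q : LaurentSeries L) ^ 12 * Igusa.deltaQ L q := by
  rw [ratioSeries_eq, map_mul, map_mul, map_pow, map_natCast, qExpand_qExpand, ← Igusa.qx_eq,
    ← Igusa.qx_eq]
  have hpp : q * q ≠ 0 := mul_ne_zero (NeZero.ne q) (NeZero.ne q)
  congr 1
  rw [Igusa.discSeries, Igusa.discInvSeries, map_mul, map_mul, Igusa.qx_single hpp,
    Igusa.qx_single (NeZero.ne q), Igusa.deltaQ,
    show HahnSeries.single ((q : ℤ) * q - q) (1 : L) =
      HahnSeries.single (((q * q : ℕ) : ℤ) * 1) 1 * HahnSeries.single ((q : ℤ) * (-1)) 1 by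
        rw [HahnSeries.single_mul_single, mul_one, mul_one]
        congr 1
        push_cast
        ring]
  ring_nf

/-- The divisor `q` of `M q`. -/
def divQ : Divs (M * q) := ⟨q, Nat.mem_divisors.mpr ⟨dvd_mul_left q M, NeZero.ne _⟩⟩

variable {L M q}

/-- Evaluation at `j` of polynomials over `ℤ[ζ_q]`. -/
def evJ (f : Igusa.ZetaRing q →+* L) : Polynomial (Igusa.ZetaRing q) →+* modField L (M * q) :=
  Polynomial.eval₂RingHom ((algebraMap L (modField L (M * q))).comp f) (jElt L (M * q))

/-- The embedding in series in `q^(1/q)`. -/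
def widthEmb : modField L (M * q) →+* LaurentSeries L :=
  (qExpand L q).comp (modField L (M * q)).val.toRingHom

omit [NeZero M] in
theorem widthEmb_apply (x : modField L (M * q)) :
    widthEmb (q := q) x = qExpand L q (x : LaurentSeries L) := rfl

theorem widthEmb_jElt : widthEmb (jElt L (M * q)) = Igusa.jv (1 : Lˣ) q := by
  rw [widthEmb_apply, coe_jElt, Igusa.jv_one_eq]

theorem widthEmb_gen_divQ : widthEmb (gen L (M * q) (divQ M q)) = Igusa.jv (1 : Lˣ) (q * q) := by
  rw [widthEmb_apply, coe_gen, Igusa.jv_one_eq]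
  exact qExpand_qExpand q q (jqModC L)

theorem widthEmb_comp_evJ (f : Igusa.ZetaRing q →+* L) :
    (widthEmb (M := M) (q := q)).comp (evJ f) =
      (coeffMap f).comp (Igusa.ev (Igusa.jv (1 : (Igusa.ZetaRing q)ˣ) q)) := by
  refine Polynomial.ringHom_ext (fun a => ?_) ?_
  · simp only [RingHom.comp_apply, evJ, Igusa.ev, Polynomial.coe_eval₂RingHom, Polynomial.eval₂_C,
      HahnSeries.C_apply, coeffMap_single]
    rw [widthEmb_apply]
    show qExpand L q (algebraMap L (LaurentSeries L) (f a)) = _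
    rw [algebraMap_laurentSeries_eq_single, qExpand_single, mul_zero]
  · simp only [RingHom.comp_apply, evJ, Igusa.ev, Polynomial.coe_eval₂RingHom, Polynomial.eval₂_X]
    rw [widthEmb_jElt, Igusa.coeffMap_jv f 1 (NeZero.ne q), map_one]

theorem widthEmb_eval (f : Igusa.ZetaRing q →+* L)
    (P : Polynomial (Polynomial (Igusa.ZetaRing q))) (x : modField L (M * q))
    {X : LaurentSeries (Igusa.ZetaRing q)} (hx : widthEmb x = coeffMap f X) :
    widthEmb ((P.map (evJ f)).eval x) =
      coeffMap f ((P.map (Igusa.ev (Igusa.jv (1 : (Igusa.ZetaRing q)ˣ) q))).eval X) := by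
  rw [Polynomial.eval_map, Polynomial.eval_map, Polynomial.hom_eval₂, widthEmb_comp_evJ, hx,
    Polynomial.hom_eval₂]

omit [NeZero M] in
theorem widthEmb_injective : Injective (widthEmb (L := L) (M := M) (q := q)) :=
  RingHom.injective _

variable (L) in
theorem exists_zetaHom [IsAlgClosed L] :
    ∃ ζ : Lˣ, ∃ hζ : IsPrimitiveRoot (ζ : L) q,
      Units.map (Igusa.zetaHom (ζ : L) hζ : Igusa.ZetaRing q →* L) (Igusa.zetaU q) = ζ := by
  have : CharZero L := algebraRat.charZero L
  have : NeZero (q : L) := ⟨Nat.cast_ne_zero.mpr (NeZero.ne q)⟩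
  obtain ⟨z, hz⟩ := HasEnoughRootsOfUnity.exists_primitiveRoot L q
  refine ⟨(hz.isUnit (NeZero.ne q)).unit, by rwa [IsUnit.unit_spec], Igusa.zetaHom_zetaU _⟩

section Membership

variable [IsAlgClosed L] [Fact q.Prime]

theorem exists_ratio : ∃ y : modField L (M * q), (y : LaurentSeries L) = ratioSeries L q := by
  obtain ⟨D⟩ := Igusa.exists_polyData q
  obtain ⟨ζ, hζ, hU⟩ := exists_zetaHom L (q := q)
  set f := Igusa.zetaHom (ζ : L) hζ with hf
  set x := gen L (M * q) (divQ M q)
  have hx : widthEmb x = coeffMap f (Igusa.jv 1 (q * q)) := by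
    rw [widthEmb_gen_divQ, Igusa.coeffMap_jv f 1 (mul_ne_zero (NeZero.ne q) (NeZero.ne q)), map_one]
  refine ⟨(D.G.map (evJ f)).eval x / (D.Φ.derivative.map (evJ f)).eval x, ?_⟩
  apply (qExpand L q).injective
  rw [qExpand_ratioSeries, ← widthEmb_apply, map_div₀, widthEmb_eval f _ x hx,
    widthEmb_eval f _ x hx, D.G_eq, ← Polynomial.derivative_map, D.Φ_eq,
    Polynomial.derivative_mul, Polynomial.eval_add, Polynomial.eval_mul, Polynomial.eval_mul,
    Polynomial.derivative_sub, Polynomial.derivative_X, Polynomial.derivative_C, sub_zero,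
    Polynomial.eval_one, one_mul, Polynomial.eval_sub, Polynomial.eval_X, Polynomial.eval_C,
    sub_self, zero_mul, add_zero, Polynomial.eval_prod, map_mul, map_mul, map_pow, map_natCast,
    Igusa.coeffMap_deltaQ]
  simp only [Polynomial.eval_sub, Polynomial.eval_X, Polynomial.eval_C]
  rw [mul_div_assoc, div_self, mul_one]
  rw [map_prod, Finset.prod_ne_zero_iff]
  intro a _
  rw [map_sub, sub_ne_zero, Igusa.coeffMap_jv f _ (mul_ne_zero (NeZero.ne q) (NeZero.ne q)),
    Igusa.coeffMap_jv f _ one_ne_zero]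
  intro h
  have := (Igusa.jv_inj (mul_ne_zero (NeZero.ne q) (NeZero.ne q)) one_ne_zero h).1
  nlinarith [(Fact.out : q.Prime).two_le]

variable (L M q) in
/-- `q¹² Δ(qτ)/Δ(τ)` as an element of the field. -/
def ratioElt : modField L (M * q) := (exists_ratio (L := L) (M := M) (q := q)).choose

theorem coe_ratioElt : (ratioElt L M q : LaurentSeries L) = ratioSeries L q :=
  (exists_ratio (L := L) (M := M) (q := q)).choose_spec

theorem isIntegral_ratioElt :
    IsIntegral (Algebra.adjoin ℤ {jElt L (M * q)}) (ratioElt L M q) := by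
  obtain ⟨D⟩ := Igusa.exists_polyData q
  obtain ⟨ζ, hζ, -⟩ := exists_zetaHom L (q := q)
  set f := Igusa.zetaHom (ζ : L) hζ with hf
  set A := Algebra.adjoin ℤ {jElt L (M * q)}
  have : Module.Finite ℤ (Igusa.ZetaRing q) :=
    (Polynomial.cyclotomic.monic q ℤ).finite_adjoinRoot
  have hg : ∀ P, evJ (M := M) f P ∈ integralClosure A (modField L (M * q)) := by
    intro P
    induction P using Polynomial.induction_on' with
    | add P Q hP hQ => rw [map_add]; exact add_mem hP hQ
    | monomial n r =>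
      rw [show evJ (M := M) f (Polynomial.monomial n r) =
        ((algebraMap L (modField L (M * q))).comp f) r * jElt L (M * q) ^ n by
          simp [evJ, Polynomial.eval₂_monomial]]
      refine mul_mem ?_ (pow_mem ?_ n)
      · obtain ⟨P, hP, hP0⟩ := Algebra.IsIntegral.isIntegral (R := ℤ) r
        refine ⟨P.map (algebraMap ℤ A), hP.map _, ?_⟩
        have h0 := congrArg ((algebraMap L (modField L (M * q))).comp f) hP0
        rw [map_zero, Polynomial.hom_eval₂] at h0
        rw [Polynomial.eval₂_map]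
        convert! h0 using 3
        exact Subsingleton.elim _ _
      · exact isIntegral_algebraMap (x := (⟨_, Algebra.subset_adjoin rfl⟩ : A))
  refine isIntegral_trans (A := integralClosure A (modField L (M * q))) _ ?_
  refine ⟨D.Ψ.map ((evJ f).codRestrict _ hg), D.Ψ_monic.map _, ?_⟩
  rw [Polynomial.eval₂_map,
    show (algebraMap (integralClosure A (modField L (M * q))) (modField L (M * q))).comp
      ((evJ f).codRestrict _ hg) = evJ f from rfl, ← Polynomial.eval_map]
  apply widthEmb_injective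
  have hy : widthEmb (ratioElt L M q) =
      coeffMap f ((q : LaurentSeries (Igusa.ZetaRing q)) ^ 12 * Igusa.deltaQ _ q) := by
    rw [widthEmb_apply, coe_ratioElt, qExpand_ratioSeries, map_mul, map_pow, map_natCast,
      Igusa.coeffMap_deltaQ]
  rw [widthEmb_eval f _ _ hy, D.Ψ_eq, map_zero, map_zero]

section Complex

variable [Algebra L ℂ]

variable (q) in
/-- `τ ↦ q¹² Δ(qτ)/Δ(τ)`. -/
def ratioFun (τ : ℍ) : ℂ :=
  (q : ℂ) ^ 12 * ModularForm.discriminant (scaleH q τ) * (ModularForm.discriminant τ)⁻¹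

omit [IsAlgClosed L] [Fact (Nat.Prime q)] in
theorem hasLaurent_ratioFun :
    HasLaurent 1 (ratioFun q) (toComplexSeries L (ratioSeries L q)) := by
  have h := ((hasLaurent_const (h := (1 : ℝ)) ((q : ℂ) ^ 12)).mul
    (Igusa.hasLaurent_disc.spread (h' := (1 : ℝ)) q (scaleH q) fun τ => by
      simp only [Function.Periodic.qParam, coe_scaleH, ← Complex.exp_nat_mul]
      congr 1
      push_cast
      ring)).mul Igusa.hasLaurent_disc_inv
  have hS : toComplexSeries L (ratioSeries L q) = HahnSeries.C ((q : ℂ) ^ 12) *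
      qExpand ℂ q (Igusa.discSeries ℂ) * Igusa.discInvSeries ℂ := by
    rw [ratioSeries_eq, toComplexSeries, map_mul, map_mul, map_pow, map_natCast, coeffMap_qExpand,
      (Igusa.coeffMap_discSeries (algebraMap L ℂ)).1,
        (Igusa.coeffMap_discSeries (algebraMap L ℂ)).2,
      map_pow, map_natCast, mul_assoc]
  rw [hS]
  exact h

theorem denom_SL_apply (γ : SL(2, ℤ)) (τ : ℍ) :
    UpperHalfPlane.denom γ τ = (γ 1 0 : ℂ) * τ + (γ 1 1 : ℂ) := by
  simp [UpperHalfPlane.denom]

omit [Fact (Nat.Prime q)] in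
omit [NeZero M] in
theorem ratioFun_alPoint (hq : q.Prime) (hqM : ¬ q ∣ M) (τ : ℍ) :
    ratioFun q (alPoint M q hq hqM τ) * ratioFun q τ = (q : ℂ) ^ 12 := by
  set b := (exists_alCoeffs M q hq hqM).choose_spec.choose with hb
  set u := (exists_alCoeffs M q hq hqM).choose with hu
  have hub : (q : ℤ) * u - b * M = 1 := (exists_alCoeffs M q hq hqM).choose_spec.choose_spec
  let σ : SL(2, ℤ) := ⟨!![(q : ℤ), b; (M : ℤ), u], by
    rw [Matrix.det_fin_two_of]; linear_combination hub⟩
  have hden : (M : ℂ) * τ + (u : ℂ) ≠ 0 := by simpa [σ] using denom_SL_ne_zero σ τ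
  have hden' : (M : ℂ) * ((q : ℂ) * τ) + (q : ℂ) * (u : ℂ) ≠ 0 := by
    simpa [alGamma, ← hu] using denom_SL_ne_zero (alGamma M q hq hqM) (scaleH q τ)
  have hq0 : (q : ℂ) ≠ 0 := NeZero.ne _
  have key : scaleH q (alPoint M q hq hqM τ) = σ • τ := by
    apply UpperHalfPlane.ext
    rw [alPoint, coe_scaleH, coe_smul_SL, coe_smul_SL, coe_scaleH]
    simp [alGamma, σ, ← hb, ← hu]
    field_simp
  have h1 : UpperHalfPlane.denom σ τ = (M : ℂ) * τ + u := by
    rw [denom_SL_apply]
    simp [σ]
  have h2 : UpperHalfPlane.denom (alGamma M q hq hqM) (scaleH q τ) =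
      (q : ℂ) * ((M : ℂ) * τ + u) := by
    rw [denom_SL_apply, coe_scaleH]
    simp [alGamma, ← hu]
    ring
  have hΔ := ModularForm.discriminant_ne_zero τ
  have hΔ' := ModularForm.discriminant_ne_zero (scaleH q τ)
  simp only [ratioFun]
  rw [key, alPoint, Igusa.disc_smul, Igusa.disc_smul, h1, h2]
  field_simp

theorem ratioElt_mul_alHom (hq : q.Prime) (hqM : ¬ q ∣ M) :
    ratioElt L M q * alHom L M q hq hqM (ratioElt L M q) = (q : modField L (M * q)) ^ 12 := by
  obtain ⟨P, Q, hQ, hy⟩ := exists_eq_div L (M * q) (ratioElt L M q)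
  have hQ' : evalField L (M * q) (MvPolynomial.rename (alSwap M q hq) Q) ≠ 0 :=
    fun h => hQ ((evalField_rename_eq_zero_iff L hq hqM).mp h)
  have h1 : ratioFun q * evalFun L (M * q) Q = evalFun L (M * q) P := by
    refine HasLaurent.unique_fun (h := (1 : ℝ))
      ((hasLaurent_ratioFun (L := L)).mul (hasLaurent_evalFun Q)) ?_
    convert! hasLaurent_evalFun P using 1
    rw [← map_mul, ← coe_ratioElt (L := L) (M := M), ← MulMemClass.coe_mul, hy,
      div_mul_cancel₀ _ hQ]
  have h2 : (fun _ => (q : ℂ) ^ 12) *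
      evalFun L (M * q) (MvPolynomial.rename (alSwap M q hq) Q) =
      ratioFun q * evalFun L (M * q) (MvPolynomial.rename (alSwap M q hq) P) := by
    funext τ
    have := congrFun h1 (alPoint M q hq hqM τ)
    simp only [Pi.mul_apply] at this ⊢
    rw [evalFun_rename_alSwap L hq hqM, evalFun_rename_alSwap L hq hqM, ← this,
      ← ratioFun_alPoint hq hqM τ]
    ring
  have h3 := ((hasLaurent_const (h := (1 : ℝ)) ((q : ℂ) ^ 12)).mul
    (hasLaurent_evalFun (MvPolynomial.rename (alSwap M q hq) Q) (L := L)))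
  rw [h2] at h3
  have h4 := h3.unique one_pos ((hasLaurent_ratioFun (L := L)).mul (hasLaurent_evalFun _))
  rw [show HahnSeries.C ((q : ℂ) ^ 12) = toComplexSeries L ((q : LaurentSeries L) ^ 12) by
    rw [map_pow, map_natCast, map_pow, map_natCast], ← map_mul, ← map_mul,
      ← coe_ratioElt (L := L) (M := M)] at h4
  have h5 : (q : modField L (M * q)) ^ 12 *
      evalField L (M * q) (MvPolynomial.rename (alSwap M q hq) Q) =
      ratioElt L M q * evalField L (M * q) (MvPolynomial.rename (alSwap M q hq) P) :=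
    Subtype.ext (by push_cast; exact toComplexSeries_injective h4)
  conv_lhs => arg 2; rw [hy, map_div₀, alHom_evalField, alHom_evalField]
  rw [← mul_div_assoc, ← h5, mul_div_assoc, div_self hQ', mul_one]

variable (L M q) in
/-- `Δ(τ)/Δ(qτ)` as an element of the field. -/
def unitElt (hq : q.Prime) (hqM : ¬ q ∣ M) : modField L (M * q) :=
  alHom L M q hq hqM (ratioElt L M q)

theorem coe_unitElt (hq : q.Prime) (hqM : ¬ q ∣ M) :
    (unitElt L M q hq hqM : LaurentSeries L) = coeffEmb L (modularUnitSeries q) := by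
  have : CharZero L := algebraRat.charZero L
  have h := congrArg (fun x : modField L (M * q) => (x : LaurentSeries L))
    (ratioElt_mul_alHom (L := L) hq hqM)
  simp only [MulMemClass.coe_mul, SubmonoidClass.coe_pow, coe_ratioElt] at h
  have hq0 : ((q : LaurentSeries L)) ^ 12 ≠ 0 := by
    refine pow_ne_zero _ ?_
    rw [← map_natCast (HahnSeries.C (R := L) (Γ := ℤ))]
    exact fun h => (Nat.cast_ne_zero.mpr (NeZero.ne q) : (q : L) ≠ 0)
      (HahnSeries.C_injective (h.trans (map_zero _).symm))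
  have h0 : coeffEmb L (modularUnitSeries q) ≠ 0 :=
    (map_ne_zero _).mpr (modularUnitSeries_ne_zero q)
  rw [ratioSeries, map_inv₀] at h
  refine mul_left_cancel₀ (mul_ne_zero hq0 (inv_ne_zero h0)) ?_
  rw [mul_assoc _ _ (coeffEmb L _), inv_mul_cancel₀ h0, mul_one]
  exact h.trans (map_natCast (modField L (M * q)).val q ▸ rfl)

theorem alHom_unitElt (hq : q.Prime) (hqM : ¬ q ∣ M) :
    alHom L M q hq hqM (unitElt L M q hq hqM) = ratioElt L M q :=
  DFunLike.congr_fun (alHom_alHom L hq hqM) (ratioElt L M q)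

theorem unitElt_mul_alHom (hq : q.Prime) (hqM : ¬ q ∣ M) :
    unitElt L M q hq hqM * alHom L M q hq hqM (unitElt L M q hq hqM) =
      (q : modField L (M * q)) ^ 12 := by
  rw [alHom_unitElt]
  exact (mul_comm _ _).trans (ratioElt_mul_alHom hq hqM)

omit [IsAlgClosed L] [Fact (Nat.Prime q)] [Algebra L ℂ] in
theorem isIntegral_gen_divQ :
    IsIntegral (Algebra.adjoin ℤ {jElt L (M * q)}) (gen L (M * q) (divQ M q)) := by
  obtain ⟨P, hP, hP0⟩ := Igusa.isIntegralElem_qExpand_jq q
  set A := Algebra.adjoin ℤ {jElt L (M * q)}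
  let g : Polynomial ℤ →+* A := Polynomial.eval₂RingHom (Int.castRingHom A)
    ⟨jElt L (M * q), Algebra.subset_adjoin rfl⟩
  refine ⟨P.map g, hP.map _, ?_⟩
  rw [Polynomial.eval₂_map]
  apply Subtype.val_injective
  have h0 := congrArg (coeffEmb L) hP0
  rw [map_zero, Polynomial.hom_eval₂, coeffEmb_qExpand_jq] at h0
  rw [ZeroMemClass.coe_zero]
  refine Eq.trans ?_ h0
  show (modField L (M * q)).val.toRingHom _ = _
  rw [Polynomial.hom_eval₂]
  congr 1
  refine Polynomial.ringHom_ext (fun a => ?_) ?_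
  · simp [g, Igusa.evInt]
  · simp [g, Igusa.evInt, coe_jElt, coeffEmb_jq]

theorem isIntegral_unitElt (hq : q.Prime) (hqM : ¬ q ∣ M) :
    IsIntegral (Algebra.adjoin ℤ {jElt L (M * q)}) (unitElt L M q hq hqM) := by
  set A := Algebra.adjoin ℤ {jElt L (M * q)}
  obtain ⟨P, hP, hP0⟩ := isIntegral_ratioElt (L := L) (M := M) (q := q)
  set C := integralClosure A (modField L (M * q))
  have hw : ∀ a : A, alHom L M q hq hqM (a : modField L (M * q)) ∈ C := by
    intro a
    obtain ⟨a, ha⟩ := a
    show alHom L M q hq hqM a ∈ C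
    induction ha using Algebra.adjoin_induction with
    | mem x hx =>
      rw [Set.mem_singleton_iff.mp hx]
      show alHom L M q hq hqM (gen L (M * q) (divOne (M * q))) ∈ C
      rw [alHom_gen,
        show alSwap M q hq (divOne (M * q)) = divQ M q from Subtype.ext (by
          rw [val_alSwap_of_not_dvd M q hq (by simp [divOne, hq.ne_one])]
          simp [divOne, divQ])]
      exact isIntegral_gen_divQ
    | algebraMap c =>
      rw [eq_intCast, map_intCast]
      exact intCast_mem _ c
    | add x y _ _ hx hy => rw [map_add]; exact add_mem hx hy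
    | mul x y _ _ hx hy => rw [map_mul]; exact mul_mem hx hy
  refine isIntegral_trans (A := C) _ ?_
  refine ⟨P.map (((alHom L M q hq hqM).toRingHom.comp
    (algebraMap A (modField L (M * q)))).codRestrict _ hw), hP.map _, ?_⟩
  rw [Polynomial.eval₂_map]
  have h := congrArg (alHom L M q hq hqM).toRingHom hP0
  rw [map_zero, Polynomial.hom_eval₂] at h
  exact h

end Complex

end Membership

end FLTAgent.ModularFF
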