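import Fermat.Agent.ModularFF.DeltaRatio
import Mathlib.Algebra.Polynomial.Reverse

/-!
# Integrality of the Delta ratio at infinity

`q¹² Δ(qτ)/Δ(τ) · j(qτ)/j(τ)` is integral over `L[1/j]` (`isIntegral_ratioElt_infinity`), by
bounding the lowest degrees of the symmetric functions of its conjugates.
-/

set_option autoImplicit false

noncomputable section

open UpperHalfPlane Complex Function ModularCurve
open scoped Manifold MatrixGroups

namespace FLTAgent.ModularFF

open Polynomial

section Bound

variable {R : Type} [CommRing R]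

/-- All coefficients below `n` vanish. -/
def VanishBelow (x : LaurentSeries R) (n : ℤ) : Prop := ∀ i < n, x.coeff i = 0

theorem vanishBelow_of_lead {x : LaurentSeries R} {n : ℤ} {a : R} (h : Igusa.Lead x n a)
    {m : ℤ} (hm : m ≤ n) : VanishBelow x m := fun i hi => h.2 i (hi.trans_le hm)

theorem VanishBelow.mul {x y : LaurentSeries R} {a b : ℤ} (hx : VanishBelow x a)
    (hy : VanishBelow y b) : VanishBelow (x * y) (a + b) :=
  (Igusa.Lead.mul (⟨rfl, hx⟩ : Igusa.Lead x a _) (⟨rfl, hy⟩ : Igusa.Lead y b _)).2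

theorem vanishBelow_coeff_prod {ι : Type} [DecidableEq ι] (s : Finset ι)
    (r : ι → LaurentSeries R) {d : ℤ} (hr : ∀ i, VanishBelow (r i) (-d)) (k : ℕ) :
    VanishBelow ((∏ i ∈ s, (X - C (r i))).coeff k) (-(d * ((s.card : ℤ) - k))) := by
  induction s using Finset.induction_on generalizing k with
  | empty =>
    intro i hi
    rcases k with _ | k
    · simp at hi ⊢; omega
    · simp [Polynomial.coeff_one]
  | @insert a s ha ih =>
    rw [Finset.prod_insert ha, Finset.card_insert_of_notMem ha, sub_mul]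
    intro i hi
    have h2 : ((r a) * (∏ i ∈ s, (X - C (r i))).coeff k).coeff i = 0 :=
      (hr a).mul (ih k) i (lt_of_lt_of_eq hi (by push_cast; ring))
    rcases k with _ | k
    · simp only [coeff_sub, mul_coeff_zero, coeff_X_zero, zero_mul, coeff_C_zero, zero_sub,
        HahnSeries.coeff_neg]
      rw [h2, neg_zero]
    · simp only [coeff_sub, coeff_X_mul, coeff_C_mul, HahnSeries.coeff_sub]
      rw [h2, sub_zero]
      exact ih k i (lt_of_lt_of_eq hi (by push_cast; ring))

end Bound

variable {L : Type} [Field L] [Algebra ℚ L] [IsAlgClosed L]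
variable {M q : ℕ} [NeZero M] [NeZero q] [Fact q.Prime]

omit [Fact (Nat.Prime q)] in
theorem vanishBelow_isoFJ (i : Option (ZMod q)) :
    VanishBelow (Igusa.isoFSeries q i * Igusa.isoJSeries q i) (-(q : ℤ)) := by
  have h1 := (Igusa.lead_single (R := Igusa.ZetaRing q) 1 1).mul
    (Igusa.lead_ofPowerSeries (dedekindEtaUnit.map (Int.castRingHom (Igusa.ZetaRing q))))
  have h2 := (Igusa.lead_single (R := Igusa.ZetaRing q) (-1) 1).mul
    (Igusa.lead_ofPowerSeries (dedekindEtaUnitInv.map (Int.castRingHom (Igusa.ZetaRing q))))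
  cases i with
  | none =>
    have hq : Igusa.Lead ((q : LaurentSeries (Igusa.ZetaRing q)) ^ 12) 0
        ((q : Igusa.ZetaRing q) ^ 12) := by
      have h := (Igusa.lead_C ((q : Igusa.ZetaRing q) ^ 12))
      rwa [map_pow, map_natCast] at h
    refine vanishBelow_of_lead ((hq.mul (Igusa.lead_deltaQ _ q)).mul
      (Igusa.lead_jv 1 (mul_ne_zero (NeZero.ne q) (NeZero.ne q)))) ?_
    push_cast
    linarith
  | some b =>
    refine vanishBelow_of_lead (((h1.scale _).mul (h2.qx (NeZero.ne q))).mul
      (Igusa.lead_jv _ one_ne_zero)) ?_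
    push_cast
    linarith

variable (q) in
/-- `∏ (X - F_i j_i)`. -/
def pairProd : Polynomial (Igusa.pairRing q) :=
  ∏ i : Option (ZMod q), (X - C (Igusa.pairF q i * Igusa.pairJ q i))

omit [Fact (Nat.Prime q)] in
theorem map_evalPair_pairProd (g : ℍ → ℍ) (π : Option (ZMod q) ≃ Option (ZMod q))
    (h : ∀ i τ, Igusa.isoJ q i (g τ) = Igusa.isoJ q (π i) τ ∧
      Igusa.isoF q i (g τ) = Igusa.isoF q (π i) τ) (τ : ℍ) :
    (pairProd q).map (Igusa.evalPair q (g τ)) = (pairProd q).map (Igusa.evalPair q τ) := by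
  simp only [pairProd, Polynomial.map_prod, Polynomial.map_sub, map_X, Polynomial.map_C]
  simp only [_root_.map_mul, Igusa.evalPair_pairJ, Igusa.evalPair_pairF]
  exact Fintype.prod_equiv π _ _ fun i => by rw [(h i τ).1, (h i τ).2]

theorem exists_relation_infinity : ∃ T : Polynomial (Polynomial (Igusa.ZetaRing q)),
    T.Monic ∧ T.natDegree = q + 1 ∧
    (∀ k, VanishBelow (Igusa.ev (Igusa.jv (1 : (Igusa.ZetaRing q)ˣ) q) (T.coeff k))
      (-((q : ℤ) * ((q + 1 : ℕ) - k)))) ∧
    (T.map (Igusa.ev (Igusa.jv 1 q))).eval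
      ((q : LaurentSeries (Igusa.ZetaRing q)) ^ 12 * Igusa.deltaQ _ q * Igusa.jv 1 (q * q)) =
        0 := by
  have : Nontrivial (Igusa.ZetaRing q) := RingHom.domain_nontrivial (Igusa.iotaC q)
  have hexp : (pairProd q).map (Igusa.expandPair q) =
      ∏ i : Option (ZMod q), (X - C (Igusa.isoFSeries q i * Igusa.isoJSeries q i)) := by
    simp [pairProd, Polynomial.map_prod]
  have hlift := Igusa.mem_lifts_of_invariant q (pairProd q)
    (map_evalPair_pairProd (fun τ => ModularGroup.S • τ) (Igusa.permS q) (Igusa.iso_S q))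
    (map_evalPair_pairProd (fun τ => ModularGroup.T • τ) (Igusa.permT q) (Igusa.iso_T q))
  have hm : ((pairProd q).map (Igusa.expandPair q)).Monic := by
    rw [hexp]; exact monic_prod_of_monic _ _ fun _ _ => monic_X_sub_C _
  obtain ⟨T, hT, hdeg, hTm⟩ := lifts_and_natDegree_eq_and_monic hlift hm
  refine ⟨T, hTm, ?_, fun k => ?_, ?_⟩
  · rw [hdeg, hexp, natDegree_prod_of_monic _ _ fun _ _ => monic_X_sub_C _,
      Finset.sum_congr rfl fun i _ => natDegree_X_sub_C _]
    simp [ZMod.card]
  · rw [← coeff_map, hT, hexp]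
    have h := vanishBelow_coeff_prod (Finset.univ : Finset (Option (ZMod q)))
      (fun i => Igusa.isoFSeries q i * Igusa.isoJSeries q i) vanishBelow_isoFJ k
    simpa [ZMod.card] using h
  · rw [hT, hexp, eval_prod]
    exact Finset.prod_eq_zero (Finset.mem_univ none) (by simp [Igusa.isoFSeries, Igusa.isoJSeries])

omit [IsAlgClosed L] in
theorem jElt_ne_zero : jElt L M ≠ 0 := fun h => by
  have h1 := congrArg (fun x : modField L M => (x : LaurentSeries L).coeff (-1)) h
  simp only [coe_jElt, coeff_jqModC_neg_one, ZeroMemClass.coe_zero, HahnSeries.coeff_zero] at h1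
  exact one_ne_zero h1

theorem isIntegral_ratioElt_infinity :
    IsIntegral (Algebra.adjoin L {(jElt L (M * q))⁻¹})
      (ratioElt L M q * gen L (M * q) (divQ M q) / jElt L (M * q)) := by
  obtain ⟨T, hTm, hdeg, hvan, hT0⟩ := exists_relation_infinity (q := q)
  obtain ⟨ζ, hζ, -⟩ := exists_zetaHom L (q := q)
  set f := Igusa.zetaHom (ζ : L) hζ with hf
  set j := jElt L (M * q) with hj
  set x := ratioElt L M q * gen L (M * q) (divQ M q) with hxdef
  set n := q + 1 with hn
  let c : ℕ → Polynomial L := fun k => (T.coeff k).map f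
  have hc : ∀ k, evJ (M := M) f (T.coeff k) = aeval j (c k) := by
    intro k
    rw [evJ, coe_eval₂RingHom, ← eval₂_map]
    rfl
  have hd : ∀ k ≤ n, (c k).natDegree ≤ n - k := by
    intro k hk
    by_contra hcon
    push Not at hcon
    have hne : c k ≠ 0 := fun h => by rw [h, natDegree_zero] at hcon; omega
    have hlead := Igusa.lead_aeval (Igusa.lead_jv (1 : Lˣ) (NeZero.ne q))
      (by have := NeZero.pos q; omega) (c k)
    have hser : coeffMap f (Igusa.ev (Igusa.jv (1 : (Igusa.ZetaRing q)ˣ) q) (T.coeff k)) =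
        aeval (Igusa.jv (1 : Lˣ) q) (c k) := by
      have := DFunLike.congr_fun (Igusa.coeffMap_ev f (Igusa.jv (1 : (Igusa.ZetaRing q)ˣ) q))
        (T.coeff k)
      simp only [RingHom.comp_apply, Igusa.coeffMap_jv f 1 (NeZero.ne q), map_one,
        Igusa.ev_eq_aeval] at this
      exact this
    have h0 : (aeval (Igusa.jv (1 : Lˣ) q) (c k)).coeff ((c k).natDegree * (-(q : ℤ))) = 0 := by
      rw [← hser, coeffMap_coeff, hvan k, map_zero]
      have h1 : ((n - k : ℕ) : ℤ) < (c k).natDegree := by exact_mod_cast hcon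
      have h2 : (0 : ℤ) < q := by exact_mod_cast NeZero.pos q
      rw [Nat.cast_sub hk] at h1
      nlinarith
    rw [hlead.1] at h0
    simp only [inv_one, Units.val_one, one_pow, mul_one, leadingCoeff_eq_zero] at h0
    exact hne h0
  have hrel : ∑ k ∈ Finset.range (n + 1), aeval j (c k) * x ^ k = 0 := by
    apply widthEmb_injective
    have hx : widthEmb x = coeffMap f
        ((q : LaurentSeries (Igusa.ZetaRing q)) ^ 12 * Igusa.deltaQ _ q * Igusa.jv 1 (q * q)) := by
      rw [hxdef, map_mul, widthEmb_gen_divQ, widthEmb_apply, coe_ratioElt, qExpand_ratioSeries,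
        map_mul, map_mul, map_pow, map_natCast, Igusa.coeffMap_deltaQ,
        Igusa.coeffMap_jv f 1 (mul_ne_zero (NeZero.ne q) (NeZero.ne q)), map_one]
    have h := widthEmb_eval f T x hx
    rw [hT0, map_zero, eval_eq_sum_range' (n := n + 1)
      (natDegree_map_le.trans_lt (by omega))] at h
    simp only [coeff_map, hc] at h
    rw [map_zero]
    exact h
  have hj0 : j ≠ 0 := jElt_ne_zero
  set A := Algebra.adjoin L {j⁻¹}
  let e : ℕ → A := fun k => aeval (⟨j⁻¹, Algebra.subset_adjoin rfl⟩ : A) (reflect (n - k) (c k))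
  have he : ∀ k ≤ n, (e k : modField L (M * q)) * j ^ (n - k) = aeval j (c k) := by
    intro k hk
    let := invertibleOfNonzero hj0
    have h := eval₂_reflect_mul_pow (algebraMap L (modField L (M * q))) j (n - k) (c k) (hd k hk)
    rw [invOf_eq_inv] at h
    show ((A.val) (aeval _ _)) * _ = _
    rw [← aeval_algHom_apply]
    exact h
  refine ⟨X ^ n + ∑ k ∈ Finset.range n, monomial k (e k), monic_X_pow_add ?_, ?_⟩
  · refine lt_of_le_of_lt (degree_sum_le _ _)
      ((Finset.sup_lt_iff (by exact_mod_cast WithBot.bot_lt_coe n)).mpr ?_)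
    intro k hk
    exact (degree_monomial_le k _).trans_lt (by exact_mod_cast Finset.mem_range.mp hk)
  rw [eval₂_add, eval₂_X_pow, eval₂_finsetSum]
  simp only [eval₂_monomial]
  refine (mul_eq_zero_iff_right (pow_ne_zero n hj0)).mp ?_
  rw [← hrel, add_mul, Finset.sum_mul, Finset.sum_range_succ _ n, add_comm ((x / j) ^ n * j ^ n)]
  congr 1
  · refine Finset.sum_congr rfl fun k hk => ?_
    have hk' := (Finset.mem_range.mp hk).le
    rw [← he k hk', Subalgebra.algebraMap_def, div_pow, ← Nat.sub_add_cancel hk', pow_add,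
      Nat.add_sub_cancel]
    field_simp
    simp [mul_comm]
  · have h1 : c n = 1 := by
      show (T.coeff n).map f = 1
      rw [← hdeg, hTm.coeff_natDegree, Polynomial.map_one]
    rw [h1, map_one, one_mul, div_pow, div_mul_cancel₀ _ (pow_ne_zero n hj0)]

end FLTAgent.ModularFF
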