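import Fermat.Prelude.Thm_CongruenceSubgroup_one_mem_strictPeriods_Gamma0
import Fermat.Agent.ModularFF.Degree

/-!
# Descent to the modular function field

Holomorphic `Γ₀(N)`-invariant functions of moderate growth, and ratios of modular forms, lie in
the modular function field, over the coefficient field when their expansion does
(`mem_modField_of_invariant`, `mem_modField_of_forms`, `mem_modField_of_qExpansion`).
-/

set_option autoImplicit false

noncomputable section

open UpperHalfPlane Complex Filter Function ModularCurve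
open scoped Topology Manifold MatrixGroups ModularForm

namespace FLTAgent.ModularFF

variable (N : ℕ) [NeZero N]

/-- The translates of an invariant function, indexed by cosets. -/
def translates (G : ℍ → ℂ)
    (hG : ∀ γ ∈ CongruenceSubgroup.Gamma0 N, ∀ τ : ℍ, G (γ • τ) = G τ) :
    Cosets N → ℍ → ℂ :=
  Quotient.lift (fun γ : SL(2, ℤ) => fun τ => G (γ⁻¹ • τ)) fun γ δ h => by
    funext τ
    have h' : γ⁻¹ * δ ∈ CongruenceSubgroup.Gamma0 N := QuotientGroup.leftRel_apply.mp h
    rw [show γ⁻¹ • τ = (γ⁻¹ * δ) • (δ⁻¹ • τ) by rw [← mul_smul, mul_inv_cancel_right], hG _ h']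

omit [NeZero N] in
theorem translates_smul {G : ℍ → ℂ}
    (hG : ∀ γ ∈ CongruenceSubgroup.Gamma0 N, ∀ τ : ℍ, G (γ • τ) = G τ)
    (g : SL(2, ℤ)) (x : Cosets N) (τ : ℍ) :
    translates N G hG x (g • τ) = translates N G hG (g⁻¹ • x) τ := by
  induction x using QuotientGroup.induction_on with
  | H γ =>
    show G (γ⁻¹ • g • τ) = G ((g⁻¹ * γ)⁻¹ • τ)
    rw [mul_inv_rev, inv_inv, mul_smul]

omit [NeZero N] in
theorem translates_mem {G : ℍ → ℂ}
    (hG : ∀ γ ∈ CongruenceSubgroup.Gamma0 N, ∀ τ : ℍ, G (γ • τ) = G τ) (hmem : G ∈ moderateRing)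
    (x : Cosets N) : translates N G hG x ∈ moderateRing := by
  induction x using QuotientGroup.induction_on with
  | H γ => exact smul_mem_moderateRing hmem γ⁻¹

/-- `τ ↦ j(Nτ)` is invariant. -/
theorem jTop_invariant : ∀ γ ∈ CongruenceSubgroup.Gamma0 N, ∀ τ : ℍ,
    jAt (divTop N).1 (γ • τ) = jAt (divTop N).1 τ := fun _ hγ τ =>
  jAt_smul_of_mem_Gamma0 (Nat.dvd_of_mem_divisors (divTop N).2) hγ τ

/-- The translates of `j(Nτ)`. -/
abbrev jTrans : Cosets N → ℍ → ℂ := translates N _ (jTop_invariant N)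

open scoped Classical in
/-- `∏_{y ≠ 1} (j_N - j_N|y)`. -/
def sepFun (τ : ℍ) : ℂ :=
  haveI : Fintype (Cosets N) := Fintype.ofFinite _
  ∏ y ∈ Finset.univ.erase (QuotientGroup.mk 1 : Cosets N),
    (jTrans N (QuotientGroup.mk 1) τ - jTrans N y τ)

theorem sepFun_ne_zero : sepFun N ≠ 0 := by
  classical
  intro h0
  let : Fintype (Cosets N) := Fintype.ofFinite _
  let R := cuspRule N
  let T : Cosets N → LaurentSeries ℂ := fun x => cosetHom ℂ R x (gen ℂ N (divTop N))
  have hT : ∀ x, R.Rel (jTrans N x) (T x) := by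
    intro x
    induction x using QuotientGroup.induction_on with
    | H γ => exact rel_expHom_gen R γ⁻¹ (divTop N)
  have hprod : ∀ s : Finset (Cosets N),
      R.Rel (fun τ => ∏ y ∈ s, (jTrans N (QuotientGroup.mk 1) τ - jTrans N y τ))
        (∏ y ∈ s, (T (QuotientGroup.mk 1) - T y)) := by
    intro s
    induction s using Finset.induction_on with
    | empty => simpa using R.const 1
    | insert a s ha ih =>
      simp_rw [Finset.prod_insert ha]
      exact R.mul (R.sub (hT _) (hT a)) ih
  have hz := hprod (Finset.univ.erase (QuotientGroup.mk 1))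
  rw [show (fun τ => ∏ y ∈ Finset.univ.erase (QuotientGroup.mk 1 : Cosets N),
    (jTrans N (QuotientGroup.mk 1) τ - jTrans N y τ)) = 0 from h0] at hz
  obtain ⟨y, hy, hy0⟩ := Finset.prod_eq_zero_iff.mp (R.eq_zero hz)
  exact (Finset.mem_erase.mp hy).1 (cosetHom_gen_injective R (sub_eq_zero.mp hy0)).symm

/-- Lagrange interpolation at the translates of `j_N`. -/
theorem exists_mul_sepFun {G : ℍ → ℂ} (hmem : G ∈ moderateRing)
    (hG : ∀ γ ∈ CongruenceSubgroup.Gamma0 N, ∀ τ : ℍ, G (γ • τ) = G τ) :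
    ∃ P : MvPolynomial (Divs N) ℂ, ∀ τ, evalFun ℂ N P τ = G τ * sepFun N τ := by
  classical
  have : Fintype (Cosets N) := Fintype.ofFinite _
  have hJmem : ∀ x, jTrans N x ∈ moderateRing :=
    translates_mem N _ (jAt_mem_moderateRing _)
  have hGmem : ∀ x, translates N G hG x ∈ moderateRing := translates_mem N hG hmem
  let K : Polynomial (↥moderateRing) := ∑ x, Polynomial.C ⟨_, hGmem x⟩ *
    ∏ y ∈ Finset.univ.erase x, (Polynomial.X - Polynomial.C ⟨_, hJmem y⟩)
  let ev : ℍ → (↥moderateRing →+* ℂ) := fun τ =>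
    (Pi.evalRingHom (fun _ : ℍ => ℂ) τ).comp moderateRing.val.toRingHom
  have hev : ∀ τ, K.map (ev τ) = ∑ x, Polynomial.C (translates N G hG x τ) *
      ∏ y ∈ Finset.univ.erase x, (Polynomial.X - Polynomial.C (jTrans N y τ)) := by
    intro τ
    simp only [K, Polynomial.map_sum, Polynomial.map_mul, Polynomial.map_prod, Polynomial.map_sub,
      Polynomial.map_X, Polynomial.map_C]
    rfl
  have hinv : ∀ (g : SL(2, ℤ)) (τ : ℍ), K.map (ev (g • τ)) = K.map (ev τ) := by
    intro g τ
    rw [hev, hev]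
    simp_rw [jTrans, translates_smul]
    refine Fintype.sum_equiv (MulAction.toPerm g⁻¹) _ _ fun x => ?_
    congr 1
    refine Finset.prod_equiv (MulAction.toPerm g⁻¹) (fun y => ?_) fun y _ => rfl
    simp
  have hp : ∀ i : ℕ, ∃ p : Polynomial ℂ, ∀ τ, ev τ (K.coeff i) = p.eval (jFun τ) := fun i =>
    exists_polynomial_jFun (K.coeff i).2 fun g τ => by
      show ev (g • τ) (K.coeff i) = ev τ (K.coeff i)
      rw [← Polynomial.coeff_map, hinv, Polynomial.coeff_map]
  choose p hp using hp
  refine ⟨∑ i ∈ Finset.range (K.natDegree + 1),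
    Polynomial.aeval (MvPolynomial.X (divOne N)) (p i) * MvPolynomial.X (divTop N) ^ i, fun τ => ?_⟩
  have hL : ∀ q : MvPolynomial (Divs N) ℂ, evalFun ℂ N q τ
      = ((Pi.evalAlgHom ℂ (fun _ : ℍ => ℂ) τ).comp (evalFun ℂ N)) q := fun _ => rfl
  have hJ : jTrans N (QuotientGroup.mk 1) τ = jAt (divTop N).1 τ := by
    show jAt _ ((1 : SL(2, ℤ))⁻¹ • τ) = _
    rw [inv_one, one_smul]
  have h1 : jAt (divOne N).1 τ = jFun τ := congrArg jFun (UpperHalfPlane.ext (by simp [divOne]))
  calc evalFun ℂ N _ τ = ∑ i ∈ Finset.range (K.natDegree + 1),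
        (p i).eval (jFun τ) * jAt (divTop N).1 τ ^ i := by
        rw [hL]
        simp only [map_sum, map_mul, map_pow, ← Polynomial.aeval_algHom_apply]
        simp only [AlgHom.comp_apply, evalFun, MvPolynomial.aeval_X, Pi.evalAlgHom_apply, h1,
          Polynomial.coe_aeval_eq_eval]
    _ = (K.map (ev τ)).eval (jTrans N (QuotientGroup.mk 1) τ) := by
        rw [hJ, Polynomial.eval_eq_sum_range' (n := K.natDegree + 1)
          (Nat.lt_succ_of_le Polynomial.natDegree_map_le)]
        refine Finset.sum_congr rfl fun i _ => ?_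
        rw [Polynomial.coeff_map, hp]
    _ = G τ * sepFun N τ := by
        rw [hev, Polynomial.eval_finsetSum, Finset.sum_eq_single (QuotientGroup.mk 1)]
        · rw [Polynomial.eval_mul, Polynomial.eval_C, Polynomial.eval_prod]
          simp only [Polynomial.eval_sub, Polynomial.eval_X, Polynomial.eval_C, sepFun]
          congr 1
          · show G ((1 : SL(2, ℤ))⁻¹ • τ) = G τ
            rw [inv_one, one_smul]
          · congr 2
            exact congrArg (fun i => @Finset.univ _ i) (Subsingleton.elim _ _)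
        · intro x _ hx
          rw [Polynomial.eval_mul, Polynomial.eval_prod,
            Finset.prod_eq_zero (Finset.mem_erase.mpr ⟨Ne.symm hx, Finset.mem_univ _⟩)
              (by simp), mul_zero]
        · simp

/-- An invariant function of moderate growth is a quotient of polynomials in the `j(dτ)`. -/
theorem exists_evalFun_div {G : ℍ → ℂ} (hmem : G ∈ moderateRing)
    (hG : ∀ γ ∈ CongruenceSubgroup.Gamma0 N, ∀ τ : ℍ, G (γ • τ) = G τ) :
    ∃ P Q : MvPolynomial (Divs N) ℂ, evalFun ℂ N Q ≠ 0 ∧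
      G * evalFun ℂ N Q = evalFun ℂ N P := by
  obtain ⟨P, hP⟩ := exists_mul_sepFun N hmem hG
  obtain ⟨Q, hQ⟩ := exists_mul_sepFun N (G := 1) (one_mem _) (fun _ _ _ => rfl)
  have hQ' : evalFun ℂ N Q = sepFun N := funext fun τ => by simp [hQ τ]
  exact ⟨P, Q, hQ' ▸ sepFun_ne_zero N, by
    funext τ
    rw [Pi.mul_apply, hQ', hP τ]⟩

section Coefficients

variable {L : Type*} [Field L] [Algebra ℚ L] [Algebra L ℂ]

omit [Algebra ℚ L] in
/-- Membership descends along an extension of the coefficient field. -/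
theorem mem_of_toComplexSeries_mul_eq (E : IntermediateField L (LaurentSeries L))
    {x : LaurentSeries L} {p q : LaurentSeries ℂ}
    (hp : p ∈ Submodule.span ℂ (toComplexSeries L '' (E : Set (LaurentSeries L))))
    (hq : q ∈ Submodule.span ℂ (toComplexSeries L '' (E : Set (LaurentSeries L))))
    (hq0 : q ≠ 0) (h : toComplexSeries L x * q = p) : x ∈ E := by
  classical
  by_contra hx
  obtain ⟨lp, hlp, rfl⟩ := (Finsupp.mem_span_image_iff_linearCombination ℂ).mp hp
  obtain ⟨lq, hlq, rfl⟩ := (Finsupp.mem_span_image_iff_linearCombination ℂ).mp hq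
  set s : Finset (LaurentSeries L) := lp.support ∪ lq.support with hs
  have hsE : (↑s : Set (LaurentSeries L)) ⊆ E := by
    rw [hs, Finset.coe_union]
    exact Set.union_subset ((Finsupp.mem_supported ℂ lp).mp hlp)
      ((Finsupp.mem_supported ℂ lq).mp hlq)
  obtain ⟨b, hbs, hspan, hbli⟩ := exists_linearIndependent L (↑s : Set (LaurentSeries L))
  have : Fintype b := (s.finite_toSet.subset hbs).fintype
  have hbE : ∀ e : b, (e : LaurentSeries L) ∈ E := fun e => hsE (hbs e.2)
  have hsmul : ∀ (c : L) (z : LaurentSeries L), c • z = algebraMap L (LaurentSeries L) c * z :=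
    fun c z => by
      rw [algebraMap_laurentSeries_eq_single, ← HahnSeries.C_apply, HahnSeries.C_mul_eq_smul]
  have hC : ∀ (c : L) (z : LaurentSeries L),
      toComplexSeries L (c • z) = algebraMap L ℂ c • toComplexSeries L z := fun c z => by
    rw [hsmul, map_mul, toComplexSeries_algebraMap, HahnSeries.C_mul_eq_smul]
  have hin : ∀ z ∈ s, toComplexSeries L z ∈
      Submodule.span ℂ (Set.range fun e : b => toComplexSeries L e) := by
    intro z hz
    have hz' : z ∈ Submodule.span L b := hspan ▸ Submodule.subset_span hz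
    clear hz
    induction hz' using Submodule.span_induction with
    | mem y hy => exact Submodule.subset_span ⟨⟨y, hy⟩, rfl⟩
    | zero => rw [map_zero]; exact zero_mem _
    | add y z _ _ hy hz => rw [map_add]; exact add_mem hy hz
    | smul c y _ hy => rw [hC]; exact Submodule.smul_mem _ _ hy
  have hcomb : ∀ l : LaurentSeries L →₀ ℂ, l.support ⊆ s →
      ∃ α : b → ℂ, ∑ e, α e • toComplexSeries L (e : LaurentSeries L)
        = Finsupp.linearCombination ℂ (toComplexSeries L) l := by
    intro l hl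
    refine (Submodule.mem_span_range_iff_exists_fun ℂ).mp ?_
    rw [Finsupp.linearCombination_apply]
    exact Submodule.sum_mem _ fun z hz => Submodule.smul_mem _ _ (hin z (hl hz))
  obtain ⟨β, hβ⟩ := hcomb lp Finset.subset_union_left
  obtain ⟨α, hα⟩ := hcomb lq Finset.subset_union_right
  let v : b ⊕ b → LaurentSeries L := Sum.elim (fun e => x * e) (fun e => (e : LaurentSeries L))
  have hli : LinearIndependent L v := by
    rw [Fintype.linearIndependent_iff]
    intro g hg
    have hb := Fintype.linearIndependent_iff.mp hbli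
    rw [Fintype.sum_sum_type] at hg
    simp only [v, Sum.elim_inl, Sum.elim_inr] at hg
    set u := ∑ e : b, g (Sum.inl e) • (e : LaurentSeries L) with hu
    set w := ∑ e : b, g (Sum.inr e) • (e : LaurentSeries L) with hw
    have hxu : x * u + w = 0 := by
      rw [← hg, hu, Finset.mul_sum]
      congr 1
      exact Finset.sum_congr rfl fun e _ => by rw [hsmul, hsmul]; ring
    have huE : u ∈ E := sum_mem fun e _ => by
      rw [hsmul]; exact mul_mem (E.algebraMap_mem _) (hbE e)
    have hwE : w ∈ E := sum_mem fun e _ => by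
      rw [hsmul]; exact mul_mem (E.algebraMap_mem _) (hbE e)
    have hu0 : u = 0 := by
      by_contra hu0
      refine hx ?_
      have : x = -w / u := by
        rw [eq_div_iff hu0]
        linear_combination hxu
      rw [this]
      exact div_mem (neg_mem hwE) huE
    have hw0 : w = 0 := by simpa [hu0] using hxu
    rintro (e | e)
    · exact hb _ hu0 e
    · exact hb _ hw0 e
  have key := linearIndependent_map_coeff hli Finset.univ (Sum.elim α fun e => -β e) ?_
  · refine hq0 ?_
    rw [← hα]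
    exact Finset.sum_eq_zero fun e _ => by
      rw [show α e = 0 from key (Sum.inl e) (Finset.mem_univ _)]
      rw [← HahnSeries.C_mul_eq_smul, map_zero, zero_mul]
  · rw [Fintype.sum_sum_type]
    simp only [v, Sum.elim_inl, Sum.elim_inr, map_mul, map_neg, neg_mul,
      Finset.sum_neg_distrib]
    show ∑ e : b, HahnSeries.C (α e) * (toComplexSeries L x * toComplexSeries L e)
      + -∑ e : b, HahnSeries.C (β e) * toComplexSeries L (e : LaurentSeries L) = 0
    simp only [← HahnSeries.C_mul_eq_smul] at hα hβ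
    rw [Finset.sum_congr rfl fun e _ => mul_left_comm (HahnSeries.C (α e)) (toComplexSeries L x) _,
      ← Finset.mul_sum, hα, hβ, h, add_neg_cancel]

theorem series_evalField_mem_span (P : MvPolynomial (Divs N) ℂ) :
    (evalField ℂ N P : LaurentSeries ℂ) ∈
      Submodule.span ℂ (toComplexSeries L '' (modField L N : Set (LaurentSeries L))) := by
  induction P using MvPolynomial.induction_on with
  | C c =>
    rw [← MvPolynomial.algebraMap_eq, AlgHom.commutes]
    have h1 : (1 : LaurentSeries ℂ) ∈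
        Submodule.span ℂ (toComplexSeries L '' (modField L N : Set (LaurentSeries L))) :=
      Submodule.subset_span ⟨1, one_mem _, map_one _⟩
    have h2 := Submodule.smul_mem _ c h1
    rw [← HahnSeries.C_mul_eq_smul, mul_one] at h2
    show algebraMap ℂ (LaurentSeries ℂ) c ∈ _
    rwa [algebraMap_laurentSeries_eq_single, ← HahnSeries.C_apply]
  | add p q hp hq => rw [map_add]; exact add_mem hp hq
  | mul_X p i hp =>
    rw [map_mul, evalField_X, MulMemClass.coe_mul, coe_gen]
    generalize (evalField ℂ N p : LaurentSeries ℂ) = y at hp ⊢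
    induction hp using Submodule.span_induction with
    | mem z hz =>
      obtain ⟨z', hz', rfl⟩ := hz
      exact Submodule.subset_span ⟨z' * gen L N i, mul_mem hz' (gen L N i).2, by
        rw [map_mul, coe_gen, toComplexSeries_jqNModC]⟩
    | zero => rw [zero_mul]; exact zero_mem _
    | add a b _ _ ha hb => rw [add_mul]; exact add_mem ha hb
    | smul c a _ ha =>
      rw [← HahnSeries.C_mul_eq_smul, mul_assoc, HahnSeries.C_mul_eq_smul]
      exact Submodule.smul_mem _ _ ha

end Coefficients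

theorem toComplexSeries_self (z : LaurentSeries ℂ) : toComplexSeries ℂ z = z := by
  ext k
  simp [toComplexSeries]

/-- Descent for two invariant functions. -/
theorem mem_modField_of_invariant {L : Type*} [Field L] [Algebra ℚ L] [Algebra L ℂ]
    {G H : ℍ → ℂ} (hGm : G ∈ moderateRing) (hHm : H ∈ moderateRing)
    (hG : ∀ γ ∈ CongruenceSubgroup.Gamma0 N, ∀ τ : ℍ, G (γ • τ) = G τ)
    (hH : ∀ γ ∈ CongruenceSubgroup.Gamma0 N, ∀ τ : ℍ, H (γ • τ) = H τ)
    {SG SH : LaurentSeries ℂ} (hSG : HasLaurent 1 G SG) (hSH : HasLaurent 1 H SH) (hSH0 : SH ≠ 0)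
    {x : LaurentSeries L} (hx : toComplexSeries L x * SH = SG) : x ∈ modField L N := by
  obtain ⟨P₁, Q₁, hQ₁, hP₁⟩ := exists_evalFun_div N hGm hG
  obtain ⟨P₂, Q₂, hQ₂, hP₂⟩ := exists_evalFun_div N hHm hH
  have hser : ∀ P : MvPolynomial (Divs N) ℂ,
      HasLaurent 1 (evalFun ℂ N P) (evalField ℂ N P : LaurentSeries ℂ) := fun P => by
    simpa [toComplexSeries_self] using hasLaurent_evalFun (L := ℂ) P
  have hne : ∀ Q : MvPolynomial (Divs N) ℂ, evalFun ℂ N Q ≠ 0 →
      (evalField ℂ N Q : LaurentSeries ℂ) ≠ 0 := fun Q hQ h0 => by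
    refine hQ ?_
    have := hser Q
    rw [h0] at this
    exact this.eq_zero_fun
  have h1 : SG * evalField ℂ N Q₁ = evalField ℂ N P₁ :=
    (hP₁ ▸ hSG.mul (hser Q₁)).unique one_pos (hser P₁)
  have h2 : SH * evalField ℂ N Q₂ = evalField ℂ N P₂ :=
    (hP₂ ▸ hSH.mul (hser Q₂)).unique one_pos (hser P₂)
  refine mem_of_toComplexSeries_mul_eq (modField L N)
    (p := (evalField ℂ N (P₁ * Q₂) : LaurentSeries ℂ))
    (q := (evalField ℂ N (P₂ * Q₁) : LaurentSeries ℂ))
    (series_evalField_mem_span N _) (series_evalField_mem_span N _) ?_ ?_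
  · rw [map_mul, MulMemClass.coe_mul, ← h2]
    exact mul_ne_zero (mul_ne_zero hSH0 (hne _ hQ₂)) (hne _ hQ₁)
  · rw [map_mul, map_mul, MulMemClass.coe_mul, MulMemClass.coe_mul, ← h1, ← h2, ← hx]
    ring

section Forms

variable {N}
variable {k : ℤ}

/-- The Laurent series of a modular form. -/
theorem hasLaurent_modularForm (A : ModularForm (CongruenceSubgroup.Gamma0 N) k) :
    HasLaurent 1 ⇑A (HahnSeries.ofPowerSeries ℤ ℂ (UpperHalfPlane.qExpansion 1 ⇑A)) := by
  refine .of_powerSum 0 (UpperHalfPlane.qExpansion 1 ⇑A) (by simp) fun τ => ?_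
  simpa using ModularForm.hasSum_qExpansion A one_pos
    (CongruenceSubgroup.one_mem_strictPeriods_Gamma0 N) τ

theorem mdiff_discriminant_zpow (m : ℤ) : MDiff fun τ : ℍ => ModularForm.discriminant τ ^ m := by
  have h := ModularFormClass.holo CuspForm.discriminant
  rw [CuspForm.coe_discriminant] at h
  rw [UpperHalfPlane.mdifferentiable_iff] at h ⊢
  exact h.zpow (Or.inl fun z _ => ModularForm.discriminant_ne_zero _)

/-- A product of twelve forms of weight `k`, divided by `Δ ^ k`. -/
def normForm (A B : ModularForm (CongruenceSubgroup.Gamma0 N) k) (τ : ℍ) : ℂ :=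
  A τ * B τ ^ 11 * ModularForm.discriminant τ ^ (-k)

theorem discriminant_smul (γ : SL(2, ℤ)) (τ : ℍ) :
    ModularForm.discriminant (γ • τ) =
      UpperHalfPlane.denom γ τ ^ (12 : ℤ) * ModularForm.discriminant τ := by
  have := slash_eqn_SL CuspForm.discriminant γ τ
  rwa [CuspForm.coe_discriminant] at this

omit [NeZero N] in
theorem normForm_invariant (A B : ModularForm (CongruenceSubgroup.Gamma0 N) k) :
    ∀ γ ∈ CongruenceSubgroup.Gamma0 N, ∀ τ : ℍ, normForm A B (γ • τ) = normForm A B τ := by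
  intro γ hγ τ
  have hd : UpperHalfPlane.denom γ τ ≠ 0 := UpperHalfPlane.denom_ne_zero _ τ
  simp only [normForm, SlashInvariantForm.slash_action_eqn_SL'' A hγ τ,
    SlashInvariantForm.slash_action_eqn_SL'' B hγ τ, discriminant_smul, mul_zpow, mul_pow,
    ← zpow_mul]
  rw [show (12 : ℤ) * -k = -(k + k * ((11 : ℕ) : ℤ)) by push_cast; ring, zpow_neg,
    zpow_add₀ hd, zpow_mul, zpow_natCast]
  have hk : UpperHalfPlane.denom γ τ ^ k ≠ 0 := zpow_ne_zero _ hd
  field_simp

theorem normForm_mem_moderateRing (A B : ModularForm (CongruenceSubgroup.Gamma0 N) k) :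
    normForm A B ∈ moderateRing := by
  refine ⟨((A.holo'.mul (B.holo'.pow 11)).mul (mdiff_discriminant_zpow (-k))), k.toNat, fun γ => ?_⟩
  obtain ⟨m, hm⟩ : ∃ m : ℕ, (k.toNat : ℤ) + -k = m :=
    ⟨((k.toNat : ℤ) + -k).toNat, (Int.toNat_of_nonneg (by omega)).symm⟩
  have hA : IsBoundedAtImInfty (⇑A ∣[k] γ) := ModularFormClass.bdd_at_infty_slash A γ
  have hB : IsBoundedAtImInfty (⇑B ∣[k] γ) := ModularFormClass.bdd_at_infty_slash B γ
  have hΔ : IsBoundedAtImInfty fun τ : ℍ => ModularForm.discriminant τ ^ m :=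
    (ModularForm.discriminant_isZeroAtImInfty.pow m).isBigO_one ℝ
  have hB11 : IsBoundedAtImInfty fun τ : ℍ => (⇑B ∣[k] γ) τ ^ 11 := by
    have := Asymptotics.IsBigO.pow (hB : _ =O[atImInfty] (1 : ℍ → ℝ)) 11
    simpa [IsBoundedAtImInfty, Filter.BoundedAtFilter, Pi.one_def] using this
  have h := Filter.BoundedAtFilter.mul (Filter.BoundedAtFilter.mul hA hB11) hΔ
  convert! h using 1
  funext τ
  have hd : UpperHalfPlane.denom γ τ ≠ 0 := UpperHalfPlane.denom_ne_zero _ τ
  have hΔ0 := ModularForm.discriminant_ne_zero τ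
  simp only [Pi.mul_apply, ModularForm.SL_slash_apply, normForm, discriminant_smul, mul_zpow,
    mul_pow, ← zpow_mul]
  rw [← zpow_natCast (ModularForm.discriminant τ) m, ← hm, zpow_add₀ hΔ0, zpow_natCast,
    show (12 : ℤ) * -k = -k + -k * ((11 : ℕ) : ℤ) by push_cast; ring, zpow_add₀ hd, zpow_mul,
    zpow_natCast]
  ring

/-- A ratio of modular forms with expansion over `L` lies in the function field over `L`. -/
theorem mem_modField_of_forms {L : Type*} [Field L] [Algebra ℚ L] [Algebra L ℂ]
    (A B : ModularForm (CongruenceSubgroup.Gamma0 N) k) {SA SB : LaurentSeries ℂ}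
    (hA : HasLaurent 1 ⇑A SA) (hB : HasLaurent 1 ⇑B SB) (hB0 : SB ≠ 0)
    {x : LaurentSeries L} (hx : toComplexSeries L x * SB = SA) : x ∈ modField L N := by
  have hper : Periodic ((fun τ : ℍ => ModularForm.discriminant τ ^ (-k)) ∘ ofComplex) (1 : ℝ) := by
    have := SlashInvariantFormClass.periodic_comp_ofComplex CuspForm.discriminant
      (h := (1 : ℝ)) one_mem_strictPeriods_SL
    rw [CuspForm.coe_discriminant] at this
    exact fun w => congrArg (· ^ (-k)) (this w)
  obtain ⟨SD, hSD, hSD0⟩ : ∃ SD : LaurentSeries ℂ,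
      HasLaurent 1 (fun τ : ℍ => ModularForm.discriminant τ ^ (-k)) SD ∧ SD ≠ 0 := by
    have hbdd : IsBoundedAtImInfty
        (fun τ : ℍ => Function.Periodic.qParam (1 : ℝ) (τ : ℂ) ^ k.toNat *
          ModularForm.discriminant τ ^ (-k)) := by
      obtain ⟨m, hm⟩ : ∃ m : ℕ, (k.toNat : ℤ) + -k = m :=
        ⟨((k.toNat : ℤ) + -k).toNat, (Int.toNat_of_nonneg (by omega)).symm⟩
      have h1 : IsBoundedAtImInfty fun τ : ℍ => ModularForm.discriminant τ ^ m :=
        (ModularForm.discriminant_isZeroAtImInfty.pow m).isBigO_one ℝ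
      have h2 : IsBoundedAtImInfty fun τ : ℍ =>
          ((∏' n : ℕ, (1 - ModularForm.eta_q n τ) ^ 24) ^ k.toNat)⁻¹ :=
        ((ModularForm.tendsto_atImInfty_tprod_one_sub_eta_q_pow.pow k.toNat).inv₀
          (by simp)).isBigO_one ℝ
      refine (Filter.BoundedAtFilter.mul h1 h2).congr_left fun τ => ?_
      have hΔ0 := ModularForm.discriminant_ne_zero τ
      rw [Pi.mul_apply, ← zpow_natCast (ModularForm.discriminant τ) m, ← hm, zpow_add₀ hΔ0,
        zpow_natCast]
      have hq := ModularForm.discriminant_eq_q_prod τ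
      have hP : (∏' n : ℕ, (1 - ModularForm.eta_q n τ) ^ 24) ≠ 0 := fun h => hΔ0 (by
        rw [hq, h, mul_zero])
      rw [hq, mul_pow]
      field_simp
    obtain ⟨SD, hSD, -⟩ :=
      exists_hasLaurent one_pos hper (mdiff_discriminant_zpow (-k)) k.toNat hbdd
    refine ⟨SD, hSD, fun h => ?_⟩
    rw [h] at hSD
    exact zpow_ne_zero (-k) (ModularForm.discriminant_ne_zero UpperHalfPlane.I)
      (congrFun hSD.eq_zero_fun UpperHalfPlane.I)
  have hpow : ∀ n : ℕ, HasLaurent 1 (fun τ => B τ ^ n) (SB ^ n) := fun n =>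
    show ((⇑B) ^ n, SB ^ n) ∈ laurentGraph 1 from
      Subalgebra.pow_mem (laurentGraph 1) (x := (⇑B, SB)) hB n
  refine mem_modField_of_invariant N (normForm_mem_moderateRing A B) (normForm_mem_moderateRing B B)
    (normForm_invariant A B) (normForm_invariant B B) ((hA.mul (hpow 11)).mul hSD)
    ((hB.mul (hpow 11)).mul hSD) (mul_ne_zero (mul_ne_zero hB0 (pow_ne_zero _ hB0)) hSD0) ?_
  rw [← hx]
  ring

/-- The statement with `q`-expansions, for an arbitrary embedding of the coefficient field. -/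
theorem mem_modField_of_qExpansion {L : Type*} [Field L] [Algebra ℚ L] (ι : L →+* ℂ)
    (A B : ModularForm (CongruenceSubgroup.Gamma0 N) k)
    (hB : HahnSeries.ofPowerSeries ℤ ℂ (UpperHalfPlane.qExpansion 1 ⇑B) ≠ 0) {x : LaurentSeries L}
    (hx : coeffMap ι x * HahnSeries.ofPowerSeries ℤ ℂ (UpperHalfPlane.qExpansion 1 ⇑B)
      = HahnSeries.ofPowerSeries ℤ ℂ (UpperHalfPlane.qExpansion 1 ⇑A)) :
    x ∈ laurentBaseChange L (modularFunctionFieldFull N) :=
  letI : Algebra L ℂ := ι.toAlgebra
  mem_modField_of_forms A B (hasLaurent_modularForm A) (hasLaurent_modularForm B) hB hx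

end Forms

end FLTAgent.ModularFF
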